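import Fermat.Agent.Gateway.GoodRed.GaussBar
import Fermat.Agent.Gateway.GoodRed.TLine9
import Fermat.Agent.Gateway.AuxLevel.Membership

/-!
# P-GATEWAY (c), GoodRed/Instantiate: the reduced Hauptmoduln lie in `Fk`

For a valuation subring `A` of `Kbar = AlgebraicClosure ℚ` with a surjection `π : A →+* k` onto a
field of characteristic `ℓ ∤ N`:

* the level-4 Hauptmodul `x₄` (as an element of `FBar Kbar N`, `4 ∣ N`) lies in the Gauss valuation
  ring `OvVal` and its residue is `TLine4.x4k k`; in particular `x4k k ∈ Fk k N`;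
* the same for the level-9 Hauptmodul `y₉` (`9 ∣ N`) and `TLine9.y9k k`.

This discharges the hypotheses `t`, `ht` of `exists_upper_bound4` / `exists_upper_bound9`.
-/

set_option autoImplicit false
set_option linter.unusedSectionVars false

noncomputable section

open ModularCurve IntermediateField

namespace Fermat.Agent.Gateway.GoodRed.HauptRed

open Fermat.Agent.Gateway.GoodRed Fermat.Agent.Gateway.Red Fermat.Agent.Gateway.AuxLevel
  Fermat.Agent.S24 Fermat.Agent.S24.Setup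

section General

variable {L : Type*} [Field L] [Algebra ℚ L] (A : ValuationSubring L)
  {k : Type} [Field k] (π : A →+* k) (N : ℕ)
  [IsAlgClosed k] (ℓ : ℕ) [Fact ℓ.Prime] [CharP k ℓ] [NeZero N]

/-- the integral series `x : ℤ((q))` with coefficients in `L`. -/
theorem coeffMap_int_eq_embA (x : LaurentSeries ℤ) :
    coeffMap (Int.castRingHom L) x = embA A (coeffMap (Int.castRingHom A) x) := by
  rw [embA, coeffMap_coeffMap]
  exact coeffMap_congr (RingHom.ext_int _ _) x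

theorem redA_coeffMap_int (x : LaurentSeries ℤ) :
    redA A π (coeffMap (Int.castRingHom A) x) = coeffMap (Int.castRingHom k) x := by
  rw [redA, coeffMap_coeffMap]
  exact coeffMap_congr (RingHom.ext_int _ _) x

/-- A series with integer coefficients lying in `FBar L N` lies in `OvVal`. -/
theorem int_mem_OvVal (hπ : Function.Surjective π) (hℓN : ¬ ℓ ∣ N) (x : LaurentSeries ℤ)
    (hx : coeffMap (Int.castRingHom L) x ∈ FBar L N) :
    (⟨coeffMap (Int.castRingHom L) x, hx⟩ : FBar L N) ∈ OvVal A π N ℓ hπ hℓN := by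
  rw [mem_OvVal_iff, mem_Ov_iff]
  show coeffMap (Int.castRingHom L) x ∈ gaussRing A π
  rw [coeffMap_int_eq_embA A]
  exact embA_mem_gaussRing A π _

/-- ... and its residue is the same integral series with coefficients in `k`. -/
theorem coe_resFk_int (hπ : Function.Surjective π) (hℓN : ¬ ℓ ∣ N) (x : LaurentSeries ℤ)
    (hx : coeffMap (Int.castRingHom L) x ∈ FBar L N) :
    ((resFk A π N ℓ hπ hℓN ⟨⟨coeffMap (Int.castRingHom L) x, hx⟩,
      int_mem_OvVal A π N ℓ hπ hℓN x hx⟩ : modularFunctionFieldFullC k N) : LaurentSeries k)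
      = coeffMap (Int.castRingHom k) x := by
  rw [coe_resFk, redV_of_eq_embA A π (FBar L N) _ (a := coeffMap (Int.castRingHom A) x)
    (coeffMap_int_eq_embA A x), redA_coeffMap_int]

/-- The reduction mod `ℓ` of an integral series lying in `FBar L N` lies in `Fk k N`. -/
theorem int_mem_Fk (hπ : Function.Surjective π) (hℓN : ¬ ℓ ∣ N) (x : LaurentSeries ℤ)
    (hx : coeffMap (Int.castRingHom L) x ∈ FBar L N) :
    coeffMap (Int.castRingHom k) x ∈ modularFunctionFieldFullC k N := by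
  rw [← coe_resFk_int A π N ℓ hπ hℓN x hx]
  exact Subtype.property _

end General

section Haupt

variable (A : ValuationSubring Kbar) {k : Type} [Field k] (π : A →+* k) (N : ℕ)
  [IsAlgClosed k] (ℓ : ℕ) [Fact ℓ.Prime] [CharP k ℓ] [NeZero N]

/-- `x₄` as an element of `FBar Kbar N`, `4 ∣ N`. -/
def x4F (h4 : 4 ∣ N) : FBar Kbar N := ⟨L4.x4K, L4.x4K_mem_of_dvd h4⟩

/-- `y₉` as an element of `FBar Kbar N`, `9 ∣ N`. -/
def y9F (h9 : 9 ∣ N) : FBar Kbar N := ⟨L9.y9K, L9.y9K_mem_of_dvd h9⟩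

theorem coe_x4F (h4 : 4 ∣ N) : ((x4F N h4 : FBar Kbar N) : LaurentSeries Kbar) = L4.x4K := rfl

theorem coe_y9F (h9 : 9 ∣ N) : ((y9F N h9 : FBar Kbar N) : LaurentSeries Kbar) = L9.y9K := rfl

theorem x4F_mem_OvVal (hπ : Function.Surjective π) (hℓN : ¬ ℓ ∣ N) (h4 : 4 ∣ N) :
    x4F N h4 ∈ OvVal A π N ℓ hπ hℓN :=
  int_mem_OvVal A π N ℓ hπ hℓN L4.x4 (L4.x4K_mem_of_dvd h4)

theorem y9F_mem_OvVal (hπ : Function.Surjective π) (hℓN : ¬ ℓ ∣ N) (h9 : 9 ∣ N) :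
    y9F N h9 ∈ OvVal A π N ℓ hπ hℓN :=
  int_mem_OvVal A π N ℓ hπ hℓN L9.y9 (L9.y9K_mem_of_dvd h9)

/-- **`x4k k ∈ Fk k N`** for `4 ∣ N`, `ℓ ∤ N`. -/
theorem x4k_mem_Fk (hπ : Function.Surjective π) (hℓN : ¬ ℓ ∣ N) (h4 : 4 ∣ N) :
    TLine4.x4k k ∈ modularFunctionFieldFullC k N :=
  int_mem_Fk A π N ℓ hπ hℓN L4.x4 (L4.x4K_mem_of_dvd h4)

/-- **`y9k k ∈ Fk k N`** for `9 ∣ N`, `ℓ ∤ N`. -/
theorem y9k_mem_Fk (hπ : Function.Surjective π) (hℓN : ¬ ℓ ∣ N) (h9 : 9 ∣ N) :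
    TLine9.y9k k ∈ modularFunctionFieldFullC k N :=
  int_mem_Fk A π N ℓ hπ hℓN L9.y9 (L9.y9K_mem_of_dvd h9)

/-- the reduced level-4 Hauptmodul as an element of `Fk k N`. -/
def t4 (hπ : Function.Surjective π) (hℓN : ¬ ℓ ∣ N) (h4 : 4 ∣ N) : modularFunctionFieldFullC k N :=
  ⟨TLine4.x4k k, x4k_mem_Fk A π N ℓ hπ hℓN h4⟩

/-- the reduced level-9 Hauptmodul as an element of `Fk k N`. -/
def t9 (hπ : Function.Surjective π) (hℓN : ¬ ℓ ∣ N) (h9 : 9 ∣ N) : modularFunctionFieldFullC k N :=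
  ⟨TLine9.y9k k, y9k_mem_Fk A π N ℓ hπ hℓN h9⟩

theorem coe_t4 (hπ : Function.Surjective π) (hℓN : ¬ ℓ ∣ N) (h4 : 4 ∣ N) :
    ((t4 A π N ℓ hπ hℓN h4 : modularFunctionFieldFullC k N) : LaurentSeries k) = TLine4.x4k k := rfl

theorem coe_t9 (hπ : Function.Surjective π) (hℓN : ¬ ℓ ∣ N) (h9 : 9 ∣ N) :
    ((t9 A π N ℓ hπ hℓN h9 : modularFunctionFieldFullC k N) : LaurentSeries k) = TLine9.y9k k := rfl

/-- `resFk x₄ = t4`. -/
theorem resFk_x4F (hπ : Function.Surjective π) (hℓN : ¬ ℓ ∣ N) (h4 : 4 ∣ N) :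
    resFk A π N ℓ hπ hℓN ⟨x4F N h4, x4F_mem_OvVal A π N ℓ hπ hℓN h4⟩ = t4 A π N ℓ hπ hℓN h4 :=
  Subtype.ext (coe_resFk_int A π N ℓ hπ hℓN L4.x4 (L4.x4K_mem_of_dvd h4))

/-- `resFk y₉ = t9`. -/
theorem resFk_y9F (hπ : Function.Surjective π) (hℓN : ¬ ℓ ∣ N) (h9 : 9 ∣ N) :
    resFk A π N ℓ hπ hℓN ⟨y9F N h9, y9F_mem_OvVal A π N ℓ hπ hℓN h9⟩ = t9 A π N ℓ hπ hℓN h9 :=
  Subtype.ext (coe_resFk_int A π N ℓ hπ hℓN L9.y9 (L9.y9K_mem_of_dvd h9))

end Haupt

end Fermat.Agent.Gateway.GoodRed.HauptRed
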