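import Fermat.Agent.Gateway.GoodRed.GaussBar
import Fermat.Agent.Gateway.GoodRed.GaussBarBasic
import Fermat.Agent.Gateway.GoodRed.GaussRing
import Fermat.Agent.Gateway.GoodRed.GaussExt
import Fermat.Agent.Gateway.GoodRed.ConjFamily.BoxCard
import Fermat.Agent.Gateway.GoodRed.ConjFamily.Units

/-!
# P-GATEWAY (c), GoodRed: wiring (G0) into `GaussExt`

`Kx := RatFunc L` acting on `F := FBar L N` through `X ↦ j`, `O := OvVal`, `kx := k(j̄)`,
`Fk := modularFunctionFieldFullC k N`.
-/

set_option autoImplicit false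
set_option linter.unusedSectionVars false
set_option linter.style.haveILetI false

noncomputable section

namespace Fermat.Agent.Gateway.GoodRed

open Polynomial ModularCurve Fermat.Agent.S28 Fermat.Agent.S28.Tower Fermat.Agent.Gateway.Red
open IntermediateField

section J

variable (R : Type*) [CommRing R] [Nontrivial R]

theorem jqModC_order_eq : (jqModC R).order = -1 :=
  (ConjFamily.order_eq_of_coeff (f := jqModC R) (n := -1)
    (by rw [coeff_jqModC_neg_one]; exact one_ne_zero)
    (fun _ hm => coeff_jqModC_of_lt R hm)).1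

theorem jqModC_leadingCoeff_eq : (jqModC R).leadingCoeff = 1 := by
  rw [(ConjFamily.order_eq_of_coeff (f := jqModC R) (n := -1)
    (by rw [coeff_jqModC_neg_one]; exact one_ne_zero)
    (fun _ hm => coeff_jqModC_of_lt R hm)).2, coeff_jqModC_neg_one]

theorem jqModC_order_neg : (jqModC R).order < 0 := by
  rw [jqModC_order_eq]; norm_num

theorem jqModC_isUnit_leadingCoeff : IsUnit (jqModC R).leadingCoeff := by
  rw [jqModC_leadingCoeff_eq]; exact isUnit_one

end J

section AlgRF

variable (L : Type*) [Field L] [Algebra ℚ L] (N : ℕ) [NeZero N]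

theorem K1_le_FBar : K1 L ≤ FBar L N := by
  rw [IntermediateField.adjoin_le_iff]
  rintro _ rfl
  exact jqModC_mem_FBar L N

/-- evaluation of rational functions at `j`, as a ring hom into `F`. -/
def ringRF : RatFunc L →+* FBar L N :=
  (GaussRing.evalRF (jqModC L) (transcendental_jqModC (k := L))).toRingHom.codRestrict (FBar L N)
    fun g => K1_le_FBar L N (GaussRing.evalRF_mem_adjoin _ _ g)

theorem coe_ringRF (g : RatFunc L) :
    ((ringRF L N g : FBar L N) : LaurentSeries L)
      = GaussRing.evalRF (jqModC L) (transcendental_jqModC (k := L)) g := rfl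

/-- the `L(X)`-algebra structure on `F`, `X ↦ j`. -/
@[reducible] def algebraRF : Algebra (RatFunc L) (FBar L N) := (ringRF L N).toAlgebra

attribute [local instance] algebraRF

theorem algebraMap_RF_apply (g : RatFunc L) :
    ((algebraMap (RatFunc L) (FBar L N) g : FBar L N) : LaurentSeries L)
      = GaussRing.evalRF (jqModC L) (transcendental_jqModC (k := L)) g := rfl

theorem isScalarTower_RF : IsScalarTower L (RatFunc L) (FBar L N) := by
  refine IsScalarTower.of_algebraMap_eq fun c => Subtype.ext ?_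
  rw [algebraMap_RF_apply, AlgHom.commutes]
  rfl

theorem smul_RF_def (g : RatFunc L) (f : FBar L N) :
    ((g • f : FBar L N) : LaurentSeries L)
      = GaussRing.evalRF (jqModC L) (transcendental_jqModC (k := L)) g * (f : LaurentSeries L) := by
  rw [Algebra.smul_def]
  rfl

end AlgRF

section Finite

variable (L : Type*) [Field L] [Algebra ℚ L] (N : ℕ) [NeZero N]

attribute [local instance] algebraRF

theorem evalRF_div (P Q : L[X]) :
    GaussRing.evalRF (jqModC L) (transcendental_jqModC (k := L))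
        (algebraMap L[X] (RatFunc L) P / algebraMap L[X] (RatFunc L) Q)
      = aeval (jqModC L) P / aeval (jqModC L) Q := by
  rw [map_div₀, GaussRing.evalRF_algebraMap, GaussRing.evalRF_algebraMap]

/-- the box monomials span `F` over `L(X)`. -/
theorem span_evF_eq_top : Submodule.span (RatFunc L) (Set.range (evF L N)) = ⊤ := by
  rw [eq_top_iff]
  rintro f -
  obtain ⟨Q, hQ, P, hrel⟩ := baseChange_span_poly L N f.2
  have hQ0 : aeval (jqModC L) Q ≠ 0 := fun h =>
    hQ (transcendental_iff.mp (transcendental_jqModC (k := L)) Q h)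
  have hf : f = ∑ μ : box N,
      (algebraMap L[X] (RatFunc L) (P μ) / algebraMap L[X] (RatFunc L) Q) • evF L N μ := by
    apply Subtype.ext
    rw [AddSubmonoidClass.coe_finsetSum]
    simp only [smul_RF_def, evalRF_div, coe_evF]
    rw [← mul_right_inj' hQ0, hrel, Finset.mul_sum]
    refine Finset.sum_congr rfl fun μ _ => ?_
    field_simp
  rw [hf]
  exact Submodule.sum_mem _ fun μ _ =>
    Submodule.smul_mem _ _ (Submodule.subset_span ⟨μ, rfl⟩)

theorem finiteDimensional_RF : FiniteDimensional (RatFunc L) (FBar L N) :=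
  Module.finite_def.mpr (by
    rw [← span_evF_eq_top L N]
    exact Submodule.fg_span (Set.finite_range _))

theorem finrank_RF_le : Module.finrank (RatFunc L) (FBar L N) ≤ Fintype.card (box N) := by
  have h := finrank_range_le_card (R := RatFunc L) (evF L N)
  rwa [Set.finrank, span_evF_eq_top L N, finrank_top] at h

end Finite

section Indep

/-- independence over polynomials in `x` implies independence over the field `K(x)`. -/
theorem eq_zero_of_indep_poly {K E : Type*} [Field K] [Field E] [Algebra K E] {ι : Type*}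
    [Fintype ι] (x : E) (e : ι → E)
    (hind : ∀ c : ι → K[X], ∑ i, aeval x (c i) * e i = 0 → ∀ i, c i = 0)
    (r : ι → K⟮x⟯) (h : ∑ i, (r i : E) * e i = 0) : ∀ i, r i = 0 := by
  classical
  have hrep : ∀ i, ∃ p s : K[X], aeval x s ≠ 0 ∧ (r i : E) = aeval x p / aeval x s := by
    intro i
    obtain ⟨p, s, hps⟩ := (IntermediateField.mem_adjoin_simple_iff K (r i : E)).mp (r i).2
    by_cases hs : aeval x s = 0
    · refine ⟨0, 1, by rw [map_one]; exact one_ne_zero, ?_⟩
      rw [hps, hs, div_zero, map_zero, zero_div]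
    · exact ⟨p, s, hs, hps⟩
  choose p s hs hps using hrep
  have hs0 : ∀ i, s i ≠ 0 := by
    intro i h0
    apply hs i
    rw [h0, map_zero]
  have hrel : ∑ i, aeval x (p i * ∏ j ∈ Finset.univ.erase i, s j) * e i = 0 := by
    have hS : (∏ j, aeval x (s j)) * ∑ i, (r i : E) * e i = 0 := by rw [h, mul_zero]
    rw [Finset.mul_sum] at hS
    rw [← hS]
    refine Finset.sum_congr rfl fun i _ => ?_
    rw [hps i, map_mul, map_prod, ← Finset.mul_prod_erase Finset.univ _ (Finset.mem_univ i)]
    field_simp [hs i]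
  have hzero := hind _ hrel
  intro i
  have h1 : p i = 0 := by
    rcases mul_eq_zero.mp (hzero i) with h1 | h1
    · exact h1
    · exfalso
      exact (Finset.prod_ne_zero_iff.mpr fun j _ => hs0 j) h1
  apply Subtype.ext
  rw [hps i, h1, map_zero, zero_div]
  rfl

end Indep

section Data

variable {L : Type*} [Field L] [Algebra ℚ L] (A : ValuationSubring L)
  {k : Type} [Field k] (π : A →+* k) (N : ℕ)
  [IsAlgClosed k] (ℓ : ℕ) [Fact ℓ.Prime] [CharP k ℓ] [NeZero N]

theorem kj_le_Fk : k⟮jqModC k⟯ ≤ modularFunctionFieldFullC k N := by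
  rw [IntermediateField.adjoin_le_iff]
  rintro _ rfl
  exact jqModC_mem_full k N

/-- `k(j̄) → Fk`. -/
@[reducible] def algebraKj : Algebra (k⟮jqModC k⟯) (modularFunctionFieldFullC k N) :=
  (IntermediateField.inclusion (kj_le_Fk (k := k) N)).toRingHom.toAlgebra

attribute [local instance] algebraKj algebraRF

/-- the reductions of the box monomials, as elements of `Fk`. -/
def evFk (μ : box N) : modularFunctionFieldFullC k N := ⟨ev k (μ : ℕ →₀ ℕ), ev_mem_fullC k N μ.2⟩

theorem linearIndependent_evFk (hℓN : ¬ ℓ ∣ N) :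
    LinearIndependent (k⟮jqModC k⟯) (evFk (k := k) N) := by
  rw [Fintype.linearIndependent_iff]
  intro g hg
  refine eq_zero_of_indep_poly (jqModC k) (fun μ : box N => ev k (μ : ℕ →₀ ℕ))
    (fun c hc => box_indepMod ℓ hℓN c hc) g ?_
  have := congrArg (fun z : modularFunctionFieldFullC k N => (z : LaurentSeries k)) hg
  simp only [AddSubmonoidClass.coe_finsetSum, ZeroMemClass.coe_zero] at this
  rw [← this]
  refine Finset.sum_congr rfl fun μ _ => ?_
  rw [Algebra.smul_def]
  rfl

end Data

section ResData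

variable {L : Type*} [Field L] [Algebra ℚ L] (A : ValuationSubring L)
  {k : Type} [Field k] (π : A →+* k) (N : ℕ)
  [IsAlgClosed k] (ℓ : ℕ) [Fact ℓ.Prime] [CharP k ℓ] [NeZero N]
  (hπ : Function.Surjective π) (hℓN : ¬ ℓ ∣ N)

attribute [local instance] algebraKj algebraRF

theorem evalRF_congr {K E : Type*} [Field K] [Field E] [Algebra K E] {x y : E} (h : x = y)
    (hx : Transcendental K x) (hy : Transcendental K y) :
    GaussRing.evalRF x hx = GaussRing.evalRF y hy := by
  subst h
  rfl

/-- `O ∩ L(X)`, in terms of the Gauss ring. -/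
theorem mem_baseVal_iff (c : RatFunc L) :
    c ∈ GaussExt.baseVal (RatFunc L) (OvVal A π N ℓ hπ hℓN) ↔
      GaussRing.evalRF (jqModC L) (transcendental_jqModC (k := L)) c ∈ gaussRing A π := Iff.rfl

/-- `O ∩ L(X)` is the Gauss valuation ring `O_x` of `GaussRing`. -/
theorem mem_baseVal_iff_mem_Ox (c : RatFunc L) :
    c ∈ GaussExt.baseVal (RatFunc L) (OvVal A π N ℓ hπ hℓN) ↔
      c ∈ GaussRing.Ox (ξ := jqModC A) hπ (jqModC_order_neg A) (jqModC_isUnit_leadingCoeff A) := by
  rw [mem_baseVal_iff, GaussRing.mem_Ox_iff_evalRF,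
    evalRF_congr (embA_jqModC A) (GaussRing.transcendental_embA (jqModC_order_neg A))
      (transcendental_jqModC (k := L))]

theorem baseVal_eq_Ox :
    GaussExt.baseVal (RatFunc L) (OvVal A π N ℓ hπ hℓN) =
      GaussRing.Ox (ξ := jqModC A) hπ (jqModC_order_neg A) (jqModC_isUnit_leadingCoeff A) :=
  SetLike.ext fun c => mem_baseVal_iff_mem_Ox A π N ℓ hπ hℓN c

/-- the reduction on `O ∩ L(X)`, with values in `k((q))`. -/
def redxHom : GaussExt.baseVal (RatFunc L) (OvVal A π N ℓ hπ hℓN) →+* LaurentSeries k :=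
  (redV A π (FBar L N)).comp
    ((ovValToOv A π N ℓ hπ hℓN).comp (GaussExt.baseIncl (RatFunc L) (OvVal A π N ℓ hπ hℓN)))

theorem redxHom_apply (c : GaussExt.baseVal (RatFunc L) (OvVal A π N ℓ hπ hℓN)) :
    redxHom A π N ℓ hπ hℓN c
      = gaussRed A π ⟨GaussRing.evalRF (jqModC L) (transcendental_jqModC (k := L)) (c : RatFunc L),
          c.2⟩ := rfl

theorem redxHom_mem (c : GaussExt.baseVal (RatFunc L) (OvVal A π N ℓ hπ hℓN)) :
    redxHom A π N ℓ hπ hℓN c ∈ k⟮jqModC k⟯ := by
  have hc' := (mem_baseVal_iff_mem_Ox A π N ℓ hπ hℓN (c : RatFunc L)).mp c.2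
  have h1 := GaussRing.redOxHom_mem_adjoin hπ (jqModC_order_neg A) (jqModC_isUnit_leadingCoeff A)
    ⟨(c : RatFunc L), hc'⟩
  rw [redA_jqModC] at h1
  have h2 : GaussRing.redOxHom hπ (jqModC_order_neg A) (jqModC_isUnit_leadingCoeff A)
      ⟨(c : RatFunc L), hc'⟩ = redxHom A π N ℓ hπ hℓN c := by
    rw [GaussRing.redOxHom_apply, redxHom_apply]
    congr 1
    apply Subtype.ext
    show GaussRing.evalRF (embA A (jqModC A)) _ (c : RatFunc L) = _
    rw [evalRF_congr (embA_jqModC A) (GaussRing.transcendental_embA (jqModC_order_neg A))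
      (transcendental_jqModC (k := L))]
  rw [← h2]
  exact h1

/-- the reduction `O ∩ L(X) → k(j̄)`. -/
def redx : GaussExt.baseVal (RatFunc L) (OvVal A π N ℓ hπ hℓN) →+* k⟮jqModC k⟯ :=
  (redxHom A π N ℓ hπ hℓN).codRestrict (k⟮jqModC k⟯) (redxHom_mem A π N ℓ hπ hℓN)

/-- **the residue data of the Gauss valuation** of `F / L(j)`. -/
def gaussData : GaussExt.ResidueData (Kx := RatFunc L) (OvVal A π N ℓ hπ hℓN)
    (k⟮jqModC k⟯) (modularFunctionFieldFullC k N) where
  redx := redx A π N ℓ hπ hℓN
  red := resFk A π N ℓ hπ hℓN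
  red_baseIncl := fun _ => Subtype.ext rfl
  inv_mem_of_red_ne_zero := by
    intro f hf
    have hf' : redV A π (FBar L N) ⟨(f : FBar L N), f.2⟩ ≠ 0 := by
      intro h0
      exact hf (Subtype.ext h0)
    exact inv_mem_Ov A π (FBar L N) f.2 hf'

theorem gaussData_red_surjective : Function.Surjective (gaussData A π N ℓ hπ hℓN).red :=
  resFk_surjective A π N ℓ hπ hℓN

/-- the box monomials as elements of `O`. -/
def evO (μ : box N) : OvVal A π N ℓ hπ hℓN :=
  ⟨evF L N μ, by
    rw [mem_OvVal_iff, mem_Ov_iff, coe_evF, ← embA_ev A]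
    exact embA_mem_gaussRing A π _⟩

theorem gaussData_red_evO (μ : box N) :
    (gaussData A π N ℓ hπ hℓN).red (evO A π N ℓ hπ hℓN μ) = evFk (k := k) N μ := by
  apply Subtype.ext
  show redV A π (FBar L N) ⟨evF L N μ, _⟩ = ev k (μ : ℕ →₀ ℕ)
  rw [redV_of_eq_embA A π (FBar L N) _ (a := ev A (μ : ℕ →₀ ℕ)) (by rw [embA_ev]; rfl), redA_ev]

theorem linearIndependent_red_evO :
    LinearIndependent (k⟮jqModC k⟯)
      (fun μ : box N => (gaussData A π N ℓ hπ hℓN).red (evO A π N ℓ hπ hℓN μ)) := by
  have h := linearIndependent_evFk (k := k) N ℓ hℓN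
  convert h using 1
  funext μ
  exact gaussData_red_evO A π N ℓ hπ hℓN μ

include hπ hℓN in
/-- the box monomials are `L(j)`-linearly independent. -/
theorem linearIndependent_evF : LinearIndependent (RatFunc L) (evF L N) := by
  have h : LinearIndependent (RatFunc L)
      (fun μ : box N => ((evO A π N ℓ hπ hℓN μ : OvVal A π N ℓ hπ hℓN) : FBar L N)) :=
    GaussExt.ResidueData.linearIndependent_of_red (gaussData A π N ℓ hπ hℓN)
      (linearIndependent_red_evO A π N ℓ hπ hℓN)
  exact h

include hπ hℓN in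
theorem finrank_RF_eq_card_box :
    Module.finrank (RatFunc L) (FBar L N) = Fintype.card (box N) := by
  haveI := finiteDimensional_RF L N
  exact le_antisymm (finrank_RF_le L N)
    (linearIndependent_evF A π N ℓ hπ hℓN).fintype_card_le_finrank

include hπ hℓN in
/-- `[F : L(j)] = ψ(N)`. -/
theorem finrank_RF_eq_dedekindPsi :
    Module.finrank (RatFunc L) (FBar L N) = dedekindPsi N := by
  rw [finrank_RF_eq_card_box A π N ℓ hπ hℓN, Fintype.card_coe,
    ConjFamily.card_box (NeZero.ne N)]

/-- **Igusa**: the Gauss valuation of `F / L(j)` has full residue degree. -/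
theorem gaussData_full : (gaussData A π N ℓ hπ hℓN).FullResidueDegree := by
  have hcard := finrank_RF_eq_card_box A π N ℓ hπ hℓN
  let e : Fin (Module.finrank (RatFunc L) (FBar L N)) ≃ box N :=
    (Fintype.equivFinOfCardEq hcard.symm).symm
  refine ⟨fun i => evO A π N ℓ hπ hℓN (e i), ?_⟩
  exact (linearIndependent_red_evO A π N ℓ hπ hℓN).comp e e.injective

end ResData

end Fermat.Agent.Gateway.GoodRed
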