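import Mathlib
import Fermat.Agent.Gateway.GoodRed.Instantiate.GaussData
import Fermat.Agent.Gateway.GoodRed.Orthonormal

/-!
# P-GATEWAY (c), GoodRed / C0 interface (G3): integrality over `L[j]`, `L[1/j]` reduces

For `f ∈ OvVal` (the Gauss valuation ring of `F = FBar L N`):

* `isIntegral_resFk_of_isIntegral_j`   : `f` integral over `L[j]`   ⇒ `resFk f` integral over `k[j̄]`;
* `isIntegral_resFk_of_isIntegral_jinv`: `f` integral over `L[1/j]` ⇒ `resFk f` integral over `k[1/j̄]`.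

Proof: `GaussExt.ResidueData.FullResidueDegree.isIntegral_red'` for helper82's `gaussData`
(`Kx = L(X)`, `X ↦ j`), with `R1 = L[X]` resp. `L[1/X]` as subalgebras of `L(X)`.
-/

set_option autoImplicit false
set_option linter.unusedSectionVars false
set_option linter.style.haveILetI false

noncomputable section

namespace Fermat.Agent.Gateway.GoodRed.IntegralRed

open Polynomial ModularCurve Fermat.Agent.S28 Fermat.Agent.S28.Tower Fermat.Agent.Gateway.Red
open IntermediateField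

/-! ### Integrality only depends on the image of the base ring -/

section General

theorem isIntegral_of_range_le {R R' S : Type*} [CommRing R] [CommRing R'] [CommRing S]
    [Algebra R S] [Algebra R' S] (h : (algebraMap R S).range ≤ (algebraMap R' S).range) {x : S}
    (hx : IsIntegral R x) : IsIntegral R' x := by
  obtain ⟨p, hp, hpx⟩ := hx
  have hl : p.map (algebraMap R S) ∈ Polynomial.lifts (algebraMap R' S) := by
    rw [Polynomial.lifts_iff_coeff_lifts]
    intro i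
    rw [Polynomial.coeff_map]
    exact h ⟨_, rfl⟩
  obtain ⟨q, hq, -, hqm⟩ := Polynomial.lifts_and_natDegree_eq_and_monic hl (hp.map _)
  refine ⟨q, hqm, ?_⟩
  rw [← Polynomial.eval_map, hq, Polynomial.eval_map]
  exact hpx

/-- the image of `R[x] ⊆ A` in `B` is contained in `R[φ x]`-range. -/
theorem range_algebraMap_adjoin_le {R A B : Type*} [CommRing R] [CommRing A] [CommRing B]
    [Algebra R A] [Algebra R B] [Algebra A B] [IsScalarTower R A B] (x : A) :
    (algebraMap (Algebra.adjoin R {x}) B).range ≤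
      (algebraMap (Algebra.adjoin R {algebraMap A B x}) B).range := by
  rintro _ ⟨⟨s, hs⟩, rfl⟩
  rw [Algebra.adjoin_singleton_eq_range_aeval] at hs
  obtain ⟨P, rfl⟩ := hs
  refine ⟨⟨aeval (algebraMap A B x) P, ?_⟩, ?_⟩
  · rw [Algebra.adjoin_singleton_eq_range_aeval]
    exact ⟨P, rfl⟩
  · show aeval (algebraMap A B x) P = algebraMap A B (aeval x P)
    rw [aeval_algebraMap_apply]

theorem range_algebraMap_adjoin_ge {R A B : Type*} [CommRing R] [CommRing A] [CommRing B]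
    [Algebra R A] [Algebra R B] [Algebra A B] [IsScalarTower R A B] (x : A) :
    (algebraMap (Algebra.adjoin R {algebraMap A B x}) B).range ≤
      (algebraMap (Algebra.adjoin R {x}) B).range := by
  rintro _ ⟨⟨s, hs⟩, rfl⟩
  rw [Algebra.adjoin_singleton_eq_range_aeval] at hs
  obtain ⟨P, rfl⟩ := hs
  refine ⟨⟨aeval x P, ?_⟩, ?_⟩
  · rw [Algebra.adjoin_singleton_eq_range_aeval]
    exact ⟨P, rfl⟩
  · show algebraMap A B (aeval x P) = aeval (algebraMap A B x) P
    rw [aeval_algebraMap_apply]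

end General

/-! ### `L[X]` and `L[1/X]` are integrally closed in `L(X)` -/

section RatFuncInv

variable {L : Type*} [Field L]

theorem transcendental_X_inv : Transcendental L ((RatFunc.X : RatFunc L)⁻¹) := by
  intro h
  apply RatFunc.transcendental_X (K := L)
  have := h.inv
  rwa [inv_inv] at this

/-- an element of `L(X)` integral over `L[X]` is a polynomial. -/
theorem exists_eq_aeval_X_of_isIntegral {c : RatFunc L}
    (hc : IsIntegral (Algebra.adjoin L {(RatFunc.X : RatFunc L)}) c) :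
    ∃ P : L[X], c = aeval (RatFunc.X : RatFunc L) P := by
  have h1 : IsIntegral L[X] c := by
    refine isIntegral_of_range_le ?_ hc
    rintro _ ⟨⟨s, hs⟩, rfl⟩
    rw [Algebra.adjoin_singleton_eq_range_aeval] at hs
    obtain ⟨P, rfl⟩ := hs
    exact ⟨P, (RatFunc.aeval_X_left_eq_algebraMap P).symm⟩
  obtain ⟨P, hP⟩ := IsIntegrallyClosed.isIntegral_iff.mp h1
  exact ⟨P, by rw [RatFunc.aeval_X_left_eq_algebraMap, hP]⟩

/-- an element of `L(X)` integral over `L[1/X]` is a polynomial in `1/X`. -/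
theorem exists_eq_aeval_X_inv_of_isIntegral {c : RatFunc L}
    (hc : IsIntegral (Algebra.adjoin L {(RatFunc.X : RatFunc L)⁻¹}) c) :
    ∃ P : L[X], c = aeval ((RatFunc.X : RatFunc L)⁻¹) P := by
  set σ : RatFunc L →ₐ[L] RatFunc L :=
    GaussRing.evalRF ((RatFunc.X : RatFunc L)⁻¹) transcendental_X_inv with hσ
  have hσX : σ RatFunc.X = (RatFunc.X : RatFunc L)⁻¹ := GaussRing.evalRF_X _ _
  have hσXinv : σ ((RatFunc.X : RatFunc L)⁻¹) = RatFunc.X := by
    rw [map_inv₀, hσX, inv_inv]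
  -- `σ c` is integral over `L[X]`
  obtain ⟨p, hp, hpc⟩ := hc
  have h1 : IsIntegral (Algebra.adjoin L {(RatFunc.X : RatFunc L)}) (σ c) := by
    have hmem : ∀ s : Algebra.adjoin L {(RatFunc.X : RatFunc L)⁻¹},
        σ (s : RatFunc L) ∈ Algebra.adjoin L {(RatFunc.X : RatFunc L)} := by
      rintro ⟨s, hs⟩
      rw [Algebra.adjoin_singleton_eq_range_aeval] at hs
      obtain ⟨P, rfl⟩ := hs
      rw [Algebra.adjoin_singleton_eq_range_aeval]
      refine ⟨P, ?_⟩
      show aeval RatFunc.X P = σ (aeval ((RatFunc.X : RatFunc L)⁻¹) P)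
      rw [← Polynomial.aeval_algHom_apply, hσXinv]
    let τ : Algebra.adjoin L {(RatFunc.X : RatFunc L)⁻¹} →+*
        Algebra.adjoin L {(RatFunc.X : RatFunc L)} :=
      (σ.toRingHom.comp (Algebra.adjoin L {(RatFunc.X : RatFunc L)⁻¹}).val.toRingHom).codRestrict
        (Algebra.adjoin L {(RatFunc.X : RatFunc L)}) hmem
    refine ⟨p.map τ, hp.map τ, ?_⟩
    rw [Polynomial.eval₂_map]
    have hcomp : (algebraMap (Algebra.adjoin L {(RatFunc.X : RatFunc L)}) (RatFunc L)).comp τ =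
        σ.toRingHom.comp (algebraMap (Algebra.adjoin L {(RatFunc.X : RatFunc L)⁻¹}) (RatFunc L)) := by
      ext s
      rfl
    rw [hcomp]
    have := congrArg σ hpc
    rw [map_zero] at this
    rw [← this]
    exact (Polynomial.hom_eval₂ p _ σ.toRingHom c).symm
  obtain ⟨P, hP⟩ := exists_eq_aeval_X_of_isIntegral h1
  refine ⟨P, σ.toRingHom.injective ?_⟩
  show σ c = σ (aeval ((RatFunc.X : RatFunc L)⁻¹) P)
  rw [hP, ← Polynomial.aeval_algHom_apply, hσXinv]

/-- `P(1/X) * X ^ n = (reflect n P)(X)` for `n ≥ deg P`. -/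
theorem aeval_X_inv_mul_pow (P : L[X]) (n : ℕ) (hn : P.natDegree ≤ n) :
    aeval ((RatFunc.X : RatFunc L)⁻¹) P * RatFunc.X ^ n =
      algebraMap L[X] (RatFunc L) (P.reflect n) := by
  have hX : (RatFunc.X : RatFunc L) ≠ 0 := RatFunc.X_ne_zero
  letI : Invertible ((RatFunc.X : RatFunc L)⁻¹) := invertibleOfNonzero (inv_ne_zero hX)
  have h := Polynomial.eval₂_reflect_mul_pow (algebraMap L (RatFunc L))
    ((RatFunc.X : RatFunc L)⁻¹) n P hn
  rw [invOf_eq_inv, inv_inv] at h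
  rw [← Polynomial.aeval_def, ← Polynomial.aeval_def, RatFunc.aeval_X_left_eq_algebraMap] at h
  rw [← h, mul_assoc, ← mul_pow, inv_mul_cancel₀ hX, one_pow, mul_one]

end RatFuncInv

/-! ### The Gauss residue data: constants, `X`, `1/X` -/

section Main

variable {L : Type*} [Field L] [Algebra ℚ L] (A : ValuationSubring L)
  {k : Type} [Field k] (π : A →+* k) (N : ℕ)
  [IsAlgClosed k] (ℓ : ℕ) [Fact ℓ.Prime] [CharP k ℓ] [NeZero N]
  (hπ : Function.Surjective π) (hℓN : ¬ ℓ ∣ N)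

attribute [local instance] algebraKj algebraRF

/-- `j̄` as an element of `Fk`. -/
def jk (k : Type) [Field k] (N : ℕ) [NeZero N] : modularFunctionFieldFullC k N :=
  ⟨jqModC k, jqModC_mem_full k N⟩

@[simp] theorem coe_jk : ((jk k N : modularFunctionFieldFullC k N) : LaurentSeries k) = jqModC k :=
  rfl

theorem algebraMap_RF_X : algebraMap (RatFunc L) (FBar L N) RatFunc.X = jF L N := by
  apply Subtype.ext
  rw [algebraMap_RF_apply, GaussRing.evalRF_X]
  rfl

theorem algebraMap_Kj_gen :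
    algebraMap (k⟮jqModC k⟯) (modularFunctionFieldFullC k N) (AdjoinSimple.gen k (jqModC k)) =
      jk k N := rfl

theorem isScalarTower_Kj : IsScalarTower k (k⟮jqModC k⟯) (modularFunctionFieldFullC k N) :=
  IsScalarTower.of_algebraMap_eq fun _ => rfl

/-- the value of `redx` from an `A`-integral lift. -/
theorem coe_redx_of_eq_embA (c : GaussExt.baseVal (RatFunc L) (OvVal A π N ℓ hπ hℓN))
    (a : LaurentSeries A)
    (h : GaussRing.evalRF (jqModC L) (transcendental_jqModC (k := L)) (c : RatFunc L) = embA A a) :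
    (((gaussData A π N ℓ hπ hℓN).redx c : k⟮jqModC k⟯) : LaurentSeries k) = redA A π a := by
  show redxHom A π N ℓ hπ hℓN c = _
  rw [redxHom_apply]
  exact gaussRed_of_eq_embA A π _ h

theorem C_mem_baseVal (a : A) :
    (RatFunc.C (a : L) : RatFunc L) ∈ GaussExt.baseVal (RatFunc L) (OvVal A π N ℓ hπ hℓN) := by
  rw [mem_baseVal_iff_mem_Ox, GaussRing.C_mem_Ox_iff]
  exact a.2

/-- the constants `A → O_x`. -/
def Cinc : A →+* GaussExt.baseVal (RatFunc L) (OvVal A π N ℓ hπ hℓN) :=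
  ((RatFunc.C : L →+* RatFunc L).comp A.subtype).codRestrict
    (GaussExt.baseVal (RatFunc L) (OvVal A π N ℓ hπ hℓN)) (C_mem_baseVal A π N ℓ hπ hℓN)

@[simp] theorem coe_Cinc (a : A) :
    ((Cinc A π N ℓ hπ hℓN a : GaussExt.baseVal (RatFunc L) (OvVal A π N ℓ hπ hℓN)) : RatFunc L)
      = RatFunc.C (a : L) := rfl

theorem redx_Cinc (a : A) :
    (gaussData A π N ℓ hπ hℓN).redx (Cinc A π N ℓ hπ hℓN a) = algebraMap k (k⟮jqModC k⟯) (π a) := by
  apply Subtype.ext
  rw [coe_redx_of_eq_embA A π N ℓ hπ hℓN _ (HahnSeries.C a)]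
  · rw [redA_C]
    exact (GaussRing.algebraMap_eq_C k (π a)).symm
  · rw [coe_Cinc, GaussRing.evalRF_C, GaussRing.algebraMap_eq_C, embA_C]

theorem X_mem_baseVal :
    (RatFunc.X : RatFunc L) ∈ GaussExt.baseVal (RatFunc L) (OvVal A π N ℓ hπ hℓN) := by
  rw [mem_baseVal_iff_mem_Ox]
  exact GaussRing.X_mem_Ox _ _ _

/-- `X` as an element of `O_x`. -/
def Xb : GaussExt.baseVal (RatFunc L) (OvVal A π N ℓ hπ hℓN) := ⟨RatFunc.X, X_mem_baseVal A π N ℓ hπ hℓN⟩

theorem redx_Xb :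
    (gaussData A π N ℓ hπ hℓN).redx (Xb A π N ℓ hπ hℓN) = AdjoinSimple.gen k (jqModC k) := by
  apply Subtype.ext
  rw [coe_redx_of_eq_embA A π N ℓ hπ hℓN _ (jqModC A)]
  · rw [redA_jqModC]
    rfl
  · show GaussRing.evalRF (jqModC L) _ RatFunc.X = _
    rw [GaussRing.evalRF_X, embA_jqModC]

theorem gen_ne_zero : AdjoinSimple.gen k (jqModC k) ≠ 0 := by
  intro h
  have h1 := congrArg (fun z : k⟮jqModC k⟯ => (z : LaurentSeries k)) h
  simp only [AdjoinSimple.coe_gen, ZeroMemClass.coe_zero] at h1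
  have h2 := jqModC_order_eq k
  rw [h1, HahnSeries.order_zero] at h2
  norm_num at h2

theorem X_inv_mem_baseVal :
    ((RatFunc.X : RatFunc L))⁻¹ ∈ GaussExt.baseVal (RatFunc L) (OvVal A π N ℓ hπ hℓN) := by
  have h1 : (gaussData A π N ℓ hπ hℓN).red
      (GaussExt.baseIncl (RatFunc L) (OvVal A π N ℓ hπ hℓN) (Xb A π N ℓ hπ hℓN)) ≠ 0 := by
    rw [(gaussData A π N ℓ hπ hℓN).red_baseIncl, redx_Xb]
    intro h
    exact gen_ne_zero (k := k) ((algebraMap (k⟮jqModC k⟯) (modularFunctionFieldFullC k N)).injective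
      (by rw [h, map_zero]))
  have h2 := (gaussData A π N ℓ hπ hℓN).inv_mem_of_red_ne_zero _ h1
  show algebraMap (RatFunc L) (FBar L N) ((RatFunc.X : RatFunc L))⁻¹ ∈ OvVal A π N ℓ hπ hℓN
  rw [map_inv₀]
  exact h2

/-- `1/X` as an element of `O_x`. -/
def Xinv : GaussExt.baseVal (RatFunc L) (OvVal A π N ℓ hπ hℓN) :=
  ⟨(RatFunc.X)⁻¹, X_inv_mem_baseVal A π N ℓ hπ hℓN⟩

theorem redx_Xinv :
    (gaussData A π N ℓ hπ hℓN).redx (Xinv A π N ℓ hπ hℓN) = (AdjoinSimple.gen k (jqModC k))⁻¹ := by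
  have h1 : Xb A π N ℓ hπ hℓN * Xinv A π N ℓ hπ hℓN = 1 :=
    Subtype.ext (mul_inv_cancel₀ RatFunc.X_ne_zero)
  have h2 := congrArg (gaussData A π N ℓ hπ hℓN).redx h1
  rw [map_mul, map_one, redx_Xb] at h2
  exact eq_inv_of_mul_eq_one_right h2

/-! ### Polynomials over `A` evaluated in `O_x` -/

theorem coe_eval₂_Cinc (y : GaussExt.baseVal (RatFunc L) (OvVal A π N ℓ hπ hℓN)) (P₀ : A[X]) :
    ((Polynomial.eval₂ (Cinc A π N ℓ hπ hℓN) y P₀ :
        GaussExt.baseVal (RatFunc L) (OvVal A π N ℓ hπ hℓN)) : RatFunc L) =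
      aeval (y : RatFunc L) (P₀.map A.subtype) := by
  have h := Polynomial.hom_eval₂ P₀ (Cinc A π N ℓ hπ hℓN)
    (GaussExt.baseVal (RatFunc L) (OvVal A π N ℓ hπ hℓN)).subtype y
  rw [aeval_def, eval₂_map]
  exact h

theorem redx_eval₂_Cinc (y : GaussExt.baseVal (RatFunc L) (OvVal A π N ℓ hπ hℓN)) (P₀ : A[X]) :
    (gaussData A π N ℓ hπ hℓN).redx (Polynomial.eval₂ (Cinc A π N ℓ hπ hℓN) y P₀) =
      aeval ((gaussData A π N ℓ hπ hℓN).redx y) (P₀.map π) := by
  rw [Polynomial.hom_eval₂, aeval_def, eval₂_map]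
  congr 1
  refine RingHom.ext fun a => ?_
  exact redx_Cinc A π N ℓ hπ hℓN a

theorem redx_mem_adjoin_of_eq_aeval
    (y c : GaussExt.baseVal (RatFunc L) (OvVal A π N ℓ hπ hℓN)) (P : L[X])
    (hP : ∀ n, P.coeff n ∈ A) (hc : (c : RatFunc L) = aeval (y : RatFunc L) P) :
    (gaussData A π N ℓ hπ hℓN).redx c ∈
      Algebra.adjoin k {(gaussData A π N ℓ hπ hℓN).redx y} := by
  obtain ⟨P₀, rfl⟩ := GaussRing.exists_map_subtype_eq A hP
  have hc' : c = Polynomial.eval₂ (Cinc A π N ℓ hπ hℓN) y P₀ :=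
    Subtype.ext (hc.trans (coe_eval₂_Cinc A π N ℓ hπ hℓN y P₀).symm)
  rw [hc', redx_eval₂_Cinc, Algebra.adjoin_singleton_eq_range_aeval]
  exact ⟨P₀.map π, rfl⟩

/-! ### The hypothesis `hR` of `isIntegral_red'` for `L[X]` and `L[1/X]` -/

theorem coeff_mem_of_aeval_X_mem
    (c : GaussExt.baseVal (RatFunc L) (OvVal A π N ℓ hπ hℓN)) (P : L[X])
    (hc : (c : RatFunc L) = aeval (RatFunc.X : RatFunc L) P) : ∀ n, P.coeff n ∈ A := by
  have h1 := (mem_baseVal_iff_mem_Ox A π N ℓ hπ hℓN (c : RatFunc L)).mp c.2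
  rw [hc, RatFunc.aeval_X_left_eq_algebraMap] at h1
  exact (GaussRing.algebraMap_mem_Ox_iff _ _ _ P).mp h1

theorem coeff_mem_of_aeval_X_inv_mem
    (c : GaussExt.baseVal (RatFunc L) (OvVal A π N ℓ hπ hℓN)) (P : L[X])
    (hc : (c : RatFunc L) = aeval ((RatFunc.X : RatFunc L)⁻¹) P) : ∀ n, P.coeff n ∈ A := by
  have h0 : (c : RatFunc L) * RatFunc.X ^ P.natDegree ∈
      GaussExt.baseVal (RatFunc L) (OvVal A π N ℓ hπ hℓN) :=
    mul_mem c.2 (pow_mem (X_mem_baseVal A π N ℓ hπ hℓN) _)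
  have h1 := (mem_baseVal_iff_mem_Ox A π N ℓ hπ hℓN _).mp h0
  rw [hc, aeval_X_inv_mul_pow P P.natDegree le_rfl] at h1
  have h2 := (GaussRing.algebraMap_mem_Ox_iff _ _ _ _).mp h1
  intro n
  have h3 := h2 (Polynomial.revAt P.natDegree n)
  rwa [Polynomial.coeff_reflect, Polynomial.revAt_invol] at h3

theorem hR_X (c : GaussExt.baseVal (RatFunc L) (OvVal A π N ℓ hπ hℓN))
    (hc : IsIntegral (Algebra.adjoin L {(RatFunc.X : RatFunc L)}) (c : RatFunc L)) :
    IsIntegral (Algebra.adjoin k {AdjoinSimple.gen k (jqModC k)})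
      ((gaussData A π N ℓ hπ hℓN).redx c) := by
  obtain ⟨P, hP⟩ := exists_eq_aeval_X_of_isIntegral hc
  have h1 := redx_mem_adjoin_of_eq_aeval A π N ℓ hπ hℓN (Xb A π N ℓ hπ hℓN) c P
    (coeff_mem_of_aeval_X_mem A π N ℓ hπ hℓN c P hP) hP
  rw [redx_Xb] at h1
  exact isIntegral_algebraMap
    (x := (⟨_, h1⟩ : Algebra.adjoin k {AdjoinSimple.gen k (jqModC k)}))

theorem hR_X_inv (c : GaussExt.baseVal (RatFunc L) (OvVal A π N ℓ hπ hℓN))
    (hc : IsIntegral (Algebra.adjoin L {(RatFunc.X : RatFunc L)⁻¹}) (c : RatFunc L)) :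
    IsIntegral (Algebra.adjoin k {(AdjoinSimple.gen k (jqModC k))⁻¹})
      ((gaussData A π N ℓ hπ hℓN).redx c) := by
  obtain ⟨P, hP⟩ := exists_eq_aeval_X_inv_of_isIntegral hc
  have h1 := redx_mem_adjoin_of_eq_aeval A π N ℓ hπ hℓN (Xinv A π N ℓ hπ hℓN) c P
    (coeff_mem_of_aeval_X_inv_mem A π N ℓ hπ hℓN c P hP) hP
  rw [redx_Xinv] at h1
  exact isIntegral_algebraMap
    (x := (⟨_, h1⟩ : Algebra.adjoin k {(AdjoinSimple.gen k (jqModC k))⁻¹}))

/-! ### (G3) -/

/-- **(G3)**: integrality over `L[j]` reduces to integrality over `k[j̄]`. -/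
theorem isIntegral_resFk_of_isIntegral_j (f : FBar L N) (hf : f ∈ OvVal A π N ℓ hπ hℓN)
    (h : IsIntegral (Algebra.adjoin L {jF L N}) f) :
    IsIntegral (Algebra.adjoin k {jk k N}) (resFk A π N ℓ hπ hℓN ⟨f, hf⟩) := by
  haveI := isScalarTower_RF L N
  haveI := finiteDimensional_RF L N
  haveI := isScalarTower_Kj (k := k) N
  have h1 : IsIntegral (Algebra.adjoin L {(RatFunc.X : RatFunc L)}) f := by
    refine isIntegral_of_range_le ?_ h
    rw [← algebraMap_RF_X]
    exact range_algebraMap_adjoin_ge (R := L) (A := RatFunc L) (B := FBar L N) RatFunc.X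
  have h2 := GaussExt.ResidueData.FullResidueDegree.isIntegral_red' (gaussData A π N ℓ hπ hℓN)
    (gaussData_full A π N ℓ hπ hℓN)
    (R1 := Algebra.adjoin L {(RatFunc.X : RatFunc L)})
    (R1k := Algebra.adjoin k {AdjoinSimple.gen k (jqModC k)})
    (hR_X A π N ℓ hπ hℓN) ⟨f, hf⟩ h1
  refine isIntegral_of_range_le ?_ h2
  rw [← algebraMap_Kj_gen]
  exact range_algebraMap_adjoin_le (R := k) (A := k⟮jqModC k⟯)
    (B := modularFunctionFieldFullC k N) (AdjoinSimple.gen k (jqModC k))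

/-- **(G3')**: integrality over `L[1/j]` reduces to integrality over `k[1/j̄]`. -/
theorem isIntegral_resFk_of_isIntegral_jinv (f : FBar L N) (hf : f ∈ OvVal A π N ℓ hπ hℓN)
    (h : IsIntegral (Algebra.adjoin L {(jF L N)⁻¹}) f) :
    IsIntegral (Algebra.adjoin k {(jk k N)⁻¹}) (resFk A π N ℓ hπ hℓN ⟨f, hf⟩) := by
  haveI := isScalarTower_RF L N
  haveI := finiteDimensional_RF L N
  haveI := isScalarTower_Kj (k := k) N
  have h1 : IsIntegral (Algebra.adjoin L {(RatFunc.X : RatFunc L)⁻¹}) f := by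
    refine isIntegral_of_range_le ?_ h
    rw [← algebraMap_RF_X, ← map_inv₀]
    exact range_algebraMap_adjoin_ge (R := L) (A := RatFunc L) (B := FBar L N) (RatFunc.X)⁻¹
  have h2 := GaussExt.ResidueData.FullResidueDegree.isIntegral_red' (gaussData A π N ℓ hπ hℓN)
    (gaussData_full A π N ℓ hπ hℓN)
    (R1 := Algebra.adjoin L {(RatFunc.X : RatFunc L)⁻¹})
    (R1k := Algebra.adjoin k {(AdjoinSimple.gen k (jqModC k))⁻¹})
    (hR_X_inv A π N ℓ hπ hℓN) ⟨f, hf⟩ h1
  refine isIntegral_of_range_le ?_ h2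
  rw [← algebraMap_Kj_gen, ← map_inv₀]
  exact range_algebraMap_adjoin_le (R := k) (A := k⟮jqModC k⟯)
    (B := modularFunctionFieldFullC k N) (AdjoinSimple.gen k (jqModC k))⁻¹

end Main

end Fermat.Agent.Gateway.GoodRed.IntegralRed
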