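import Mathlib
import Fermat.Agent.Gateway.GoodRed.RedHom
import Fermat.Agent.Gateway.GoodRed.Orthonormal
import Fermat.Agent.Gateway.GoodRed.ConjFamily
import Fermat.Agent.Lib.Residue.Basic

set_option autoImplicit false

/-!
# P-GATEWAY (c) GoodRed: reduction of the differentials `h dt` to the special fibre

Elements of `F = FBar L N` with integral `q`-expansion lie in `OvVal` and reduce coefficientwise
(`intElt_mem_OvVal`, `coe_resFk_intElt`).  If `h`, `t` are such elements, integral over `L[j]`, with
`σ h * D (σ t)` regular for every cusp embedding `σ` of `F`, and if every cusp embedding `τ` of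
`Fk` is the reduction of a persisting cusp embedding of `F` with `A`-integral values on the functions
integral over `L[j]` (`hS5`, supplied by `RedFamily`), then `τ h̄ * D (τ t̄)` is regular for every
cusp embedding `τ` of `Fk` (`regular_red`).
-/

set_option linter.unusedSectionVars false
set_option linter.style.haveILetI false

noncomputable section

namespace Fermat.Agent.Gateway.GoodRed

open Polynomial ModularCurve Fermat.Agent.S28 Fermat.Agent.Gateway.Red Fermat.Agent.Lib.Residue
open IntermediateField HahnSeries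

section DCoeffMap

variable {R S : Type*} [CommRing R] [CommRing S]

theorem D_coeffMap (f : R →+* S) (x : LaurentSeries R) : D (coeffMap f x) = coeffMap f (D x) := by
  ext n
  rw [D_coeff, coeffMap_coeff, coeffMap_coeff, D_coeff, map_mul, map_intCast]

end DCoeffMap

section Red

variable {L : Type} [Field L] [Algebra ℚ L] (A : ValuationSubring L)
  {k : Type} [Field k] (π : A →+* k) (N : ℕ)
  [IsAlgClosed k] (ℓ : ℕ) [Fact ℓ.Prime] [CharP k ℓ] [NeZero N]
  (hπ : Function.Surjective π) (hℓN : ¬ ℓ ∣ N)

/-- integer Laurent series over `A`. -/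
def intA (fZ : LaurentSeries ℤ) : LaurentSeries A := coeffMap (Int.castRingHom A) fZ

theorem embA_intA (fZ : LaurentSeries ℤ) :
    embA A (intA A fZ) = coeffMap (Int.castRingHom L) fZ := by
  rw [intA, embA, coeffMap_coeffMap]
  exact congrArg (fun φ => coeffMap φ fZ) (RingHom.ext_int _ _)

theorem redA_intA (fZ : LaurentSeries ℤ) :
    redA A π (intA A fZ) = coeffMap (Int.castRingHom k) fZ := by
  rw [intA, redA, coeffMap_coeffMap]
  exact congrArg (fun φ => coeffMap φ fZ) (RingHom.ext_int _ _)

variable {A N}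

/-- an element of `F` with integral `q`-expansion lies in `OvVal`. -/
theorem intElt_mem_OvVal {f : FBar L N} {fZ : LaurentSeries ℤ}
    (hf : (f : LaurentSeries L) = coeffMap (Int.castRingHom L) fZ) :
    f ∈ OvVal A π N ℓ hπ hℓN := by
  rw [mem_OvVal_iff, mem_Ov_iff, hf, ← embA_intA A]
  exact embA_mem_gaussRing A π _

/-- ... and reduces coefficientwise. -/
theorem coe_resFk_intElt {f : FBar L N} {fZ : LaurentSeries ℤ}
    (hf : (f : LaurentSeries L) = coeffMap (Int.castRingHom L) fZ) :
    ((resFk A π N ℓ hπ hℓN ⟨f, intElt_mem_OvVal π ℓ hπ hℓN hf⟩ :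
      modularFunctionFieldFullC k N) : LaurentSeries k) = coeffMap (Int.castRingHom k) fZ := by
  rw [coe_resFk, redV_of_eq_embA A π (FBar L N) _ (a := intA A fZ), redA_intA]
  rw [embA_intA]
  exact hf

/-- **Regularity of `h dt` at the cusps persists under reduction.** -/
theorem regular_red
    (hS5 : ∀ τ : ConjFamily.Emb k N, ∃ (s : FBar L N →+* LaurentSeries L)
      (hs : Persists A π N s), (∀ c : L, s (algebraMap L (FBar L N) c) = HahnSeries.C c) ∧
        s (jF L N) = qExpand L N (jqModC L) ∧ redHom ℓ hπ hℓN hs = τ.1 ∧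
        ∀ f : OvVal A π N ℓ hπ hℓN,
          IsIntegral (Algebra.adjoin L {jF L N}) (f : FBar L N) → s f ∈ intLS A)
    {t h : FBar L N} {tZ hZ : LaurentSeries ℤ}
    (ht : (t : LaurentSeries L) = coeffMap (Int.castRingHom L) tZ)
    (hh : (h : LaurentSeries L) = coeffMap (Int.castRingHom L) hZ)
    (htint : IsIntegral (Algebra.adjoin L {jF L N}) t)
    (hhint : IsIntegral (Algebra.adjoin L {jF L N}) h)
    (hγ : ∀ σ : FBar L N →+* LaurentSeries L,
      (∀ c : L, σ (algebraMap L (FBar L N) c) = HahnSeries.C c) →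
      σ (jF L N) = qExpand L N (jqModC L) → ∀ n : ℤ, n < 0 → (σ h * D (σ t)).coeff n = 0)
    (τ : ConjFamily.Emb k N) (n : ℤ) (hn : n < 0) :
    (τ.1 (resFk A π N ℓ hπ hℓN ⟨h, intElt_mem_OvVal π ℓ hπ hℓN hh⟩) *
      D (τ.1 (resFk A π N ℓ hπ hℓN ⟨t, intElt_mem_OvVal π ℓ hπ hℓN ht⟩))).coeff n = 0 := by
  obtain ⟨s, hs, hsC, hsj, hsτ, hsint⟩ := hS5 τ
  obtain ⟨a, ha⟩ := hsint ⟨h, intElt_mem_OvVal π ℓ hπ hℓN hh⟩ hhint
  obtain ⟨b, hb⟩ := hsint ⟨t, intElt_mem_OvVal π ℓ hπ hℓN ht⟩ htint
  rw [← hsτ, redHom_of_eq_embA ℓ hπ hℓN hs _ ha.symm, redHom_of_eq_embA ℓ hπ hℓN hs _ hb.symm]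
  have h1 := hγ s hsC hsj n hn
  have h2 : s h * D (s t) = embA A (a * D b) := by
    rw [map_mul, embA, ← D_coeffMap]
    exact congrArg₂ (fun u v => u * D v) ha.symm hb.symm
  rw [h2, embA_coeff] at h1
  have h3 : (a * D b).coeff n = 0 := Subtype.ext h1
  have h4 : redA A π a * D (redA A π b) = redA A π (a * D b) := by
    rw [map_mul, redA, ← D_coeffMap]
  rw [h4, redA_coeff, h3, map_zero]

end Red

section Indep

variable {k : Type} [Field k] {N : ℕ} [NeZero N]

/-- Independence of the reductions of the `h i`, from the independence of the reductions of the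
forms `f i = h i * G`. -/
theorem linearIndependent_of_mul_eq {g : ℕ} (hZ : Fin g → LaurentSeries ℤ) (GZ : LaurentSeries ℤ)
    (qf : Fin g → PowerSeries ℤ)
    (hG : ∀ i, hZ i * GZ = HahnSeries.ofPowerSeries ℤ ℤ (qf i))
    (hδ : LinearIndependent k (fun i => (qf i).map (Int.castRingHom k)))
    (hk : Fin g → modularFunctionFieldFullC k N)
    (hcoe : ∀ i, ((hk i : modularFunctionFieldFullC k N) : LaurentSeries k) =
      coeffMap (Int.castRingHom k) (hZ i)) :
    LinearIndependent k hk := by
  rw [Fintype.linearIndependent_iff] at hδ ⊢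
  intro c hc
  apply hδ c
  have h1 : ∑ i, HahnSeries.C (c i) * ((hk i : modularFunctionFieldFullC k N) : LaurentSeries k)
      = 0 := by
    have := congrArg (fun f : modularFunctionFieldFullC k N => (f : LaurentSeries k)) hc
    simp only [AddSubmonoidClass.coe_finsetSum, ZeroMemClass.coe_zero] at this
    rw [← this]
    refine Finset.sum_congr rfl fun i _ => ?_
    rw [Algebra.smul_def, MulMemClass.coe_mul]
    congr 1
    show _ = algebraMap k (LaurentSeries k) (c i)
    rw [algebraMap_laurentSeries_eq_single]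
    rfl
  have h2 : ∑ i, HahnSeries.C (c i) *
      HahnSeries.ofPowerSeries ℤ k ((qf i).map (Int.castRingHom k)) = 0 := by
    have h3 := congrArg (fun f => f * coeffMap (Int.castRingHom k) GZ) h1
    simp only [zero_mul, Finset.sum_mul] at h3
    rw [← h3]
    refine Finset.sum_congr rfl fun i _ => ?_
    rw [hcoe, mul_assoc, ← map_mul, hG, coeffMap_ofPowerSeries]
  apply (HahnSeries.ofPowerSeries_injective (Γ := ℤ) (R := k))
  rw [map_sum, map_zero, ← h2]
  refine Finset.sum_congr rfl fun i _ => ?_
  have h4 : c i • (qf i).map (Int.castRingHom k) =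
      PowerSeries.C (c i) * (qf i).map (Int.castRingHom k) := by
    ext n
    simp
  rw [h4, map_mul, HahnSeries.ofPowerSeries_C]

end Indep

end Fermat.Agent.Gateway.GoodRed

end
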