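import Mathlib
import Fermat.Agent.Gateway.GoodRed.CharLBound
import Fermat.Agent.Gateway.GoodRed.LowerBound

set_option autoImplicit false

/-!
# P-GATEWAY (c) GoodRed: an upper bound for the cuspidal spaces bounds the genus from below

If the cuspidal Riemann–Roch spaces of a function field `F / k` (described by a twist-stable family
of expansions) satisfy `M * (dim + g) ≤ ∑ P + M` for all large pole bounds `P`, then `g ≤ genusFF k F`
(compare with the Riemann inequality `LowerBound.lowerBound_integralPoleSpace`).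
-/

set_option linter.unusedSectionVars false
set_option linter.style.haveILetI false

noncomputable section

namespace Fermat.Agent.Gateway.GoodRed

open Module HahnSeries LaurentSeries Function IntermediateField Fermat.Agent.S28 AlgebraicCurve
  Fermat.Agent.Lib.RiemannRoch

variable {k F : Type*} [Field k] [Field F] [Algebra k F] {M : ℕ} [NeZero M] {ζ : kˣ}
  {ι : Type*} [Fintype ι] [DecidableEq ι] (σ : ι → F →+* k⸨X⸩) (rot : Equiv.Perm ι)
  (hσk : ∀ j (c : k), σ j (algebraMap k F c) = HahnSeries.C c)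
  (hrot : ∀ j f, σ (rot j) f = twist ζ (σ j f)) (hζ : IsPrimitiveRoot ζ M)
  (hσinj : Injective σ)

omit [NeZero M] [Fintype ι] [DecidableEq ι] in
theorem cuspSpaceE_eq_integralPoleSpace (x : F) (P : ι → ℕ) :
    cuspSpaceE x σ hσk P = LowerBound.integralPoleSpace σ hσk x P := by
  ext f
  rw [LowerBound.mem_integralPoleSpace_iff]
  rfl

include hrot hζ hσinj in
/-- The number of differentials in a cuspidal upper bound is at most the genus. -/
theorem le_genusFF_of_upper_bound (x : F) [FiniteDimensional k⟮x⟯ F] [Algebra.IsSeparable k⟮x⟯ F]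
    (ξ : k⸨X⸩) (hx : ∀ j, σ j x = ξ) (hξ : ξ.order = -(M : ℤ))
    (hcard : Module.finrank k⟮x⟯ F ≤ Fintype.card ι) (g : ℕ) (j₀ : ι)
    (hUB : ∃ m₀ : ℕ, ∀ P : ι → ℕ, (∀ j, P (rot j) = P j) → m₀ ≤ P j₀ →
      Module.Finite k (cuspSpaceE x σ hσk P) ∧
        M * (finrank k (cuspSpaceE x σ hσk P) + g) ≤ ∑ j, P j + M) :
    g ≤ genusFF k F := by
  obtain ⟨m₀, hm₀⟩ := hUB
  have hMpos : 0 < M := Nat.pos_of_ne_zero (NeZero.ne M)
  set P : ι → ℕ := fun _ => M * m₀ with hP
  have h1 := (hm₀ P (fun _ => rfl) (Nat.le_mul_of_pos_left m₀ hMpos)).2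
  have hdvd : ∀ j, ramQ rot M j ∣ P j := by
    intro j
    refine Dvd.dvd.mul_right ?_ m₀
    exact Dvd.intro_left _ (orbSize_mul_ramQ σ rot hrot hζ hσinj j)
  have h2 := (LowerBound.lowerBound_integralPoleSpace σ rot hσk hrot hζ hσinj x ξ hx hξ hcard P
    (fun _ => rfl) hdvd).2.1
  rw [← cuspSpaceE_eq_integralPoleSpace] at h2
  have h3 := Nat.le_of_mul_le_mul_left (h1.trans h2) hMpos
  omega

end Fermat.Agent.Gateway.GoodRed

end
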