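import Mathlib
import Fermat.Agent.S20
import Fermat.Agent.Lib.RiemannRoch.Modular
import Fermat.Agent.Gateway.GoodRed.Forms.AuxData
import Fermat.Agent.Gateway.GoodRed.TLine4
import Fermat.Agent.Gateway.GoodRed.TLine9
import Fermat.Agent.Gateway.GoodRed.Instantiate.GenusLE
import Fermat.Agent.Gateway.GoodRed.Instantiate.FormsRed

set_option autoImplicit false

/-!
# P-GATEWAY (c) GoodRed: the genus does not drop at a good level divisible by four or nine

`genusFF Kbar (FF N) ≤ genusFF k (Fk k N)` for `N = 4 N'`, `ℓ ∤ N`, `k` the residue field of a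
valuation subring of `Kbar = ℚ̄` over `ℓ`: the `g = dim S₂(Γ₀(N))` differentials `h i dx₄` of
`Forms.exists_forms_four` reduce to `g` independent differentials on the special fibre, regular at
all the cusps, and `g` such differentials force `g ≤ genusFF k (Fk k N)` (cuspidal upper bound against
Riemann's inequality).  Inputs still taken as hypotheses here: `hS5` (`RedFamily`), `hG3`
(`Instantiate/IntegralRed`), `hUB` (`Instantiate/UpperBound4`).
-/

set_option linter.unusedSectionVars false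
set_option linter.style.haveILetI false

noncomputable section

namespace Fermat.Agent.Gateway.GoodRed

open Polynomial ModularCurve Fermat.Agent.S28 Fermat.Agent.Gateway.Red Fermat.Agent.Lib.Residue
open IntermediateField HahnSeries AlgebraicCurve CongruenceSubgroup Fermat.Agent.S24.Setup
open Fermat.Agent.Gateway.AuxLevel Fermat.Agent.Gateway.GoodRed.ConjFamily

section Bridge

variable (N : ℕ) [NeZero N]

/-- the two names of `j` in `FF N = FBar Kbar N`. -/
theorem jF_setup_eq : (Fermat.Agent.S24.Setup.jF N : FF N) = jF Kbar N := by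
  apply Subtype.ext
  show jK 1 = jqModC Kbar
  rw [jK_eq, qExpand_one_apply]

/-- the genus of `X₀(N)` is the dimension of the space of cusp forms. -/
theorem genusFF_eq_finrank_cuspForm :
    genusFF Kbar (FF N) = Module.finrank ℂ (CuspForm (Gamma0 N) 2) := by
  have h1 := Fermat.Agent.Lib.RiemannRoch.Modular.genusFF_modular N
  have h2 := Fermat.Agent.S20.result N
  have h3 : ((genusFF Kbar (FF N) : ℕ) : ℚ) = (Module.finrank ℂ (CuspForm (Gamma0 N) 2) : ℚ) := by
    rw [h2]; exact h1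
  exact_mod_cast h3

end Bridge

section Four

variable {N : ℕ} [NeZero N] (ℓ : ℕ) [Fact ℓ.Prime] (A : ValuationSubring Kbar)
  {k : Type} [Field k] [IsAlgClosed k] [CharP k ℓ] (π : A →+* k)
  (hπ : Function.Surjective π) (hℓN : ¬ ℓ ∣ N)

/-- The shape of the cuspidal upper bound on the special fibre, for the Hauptmodul with
`q`-expansion `tq` (supplied by `Instantiate/UpperBound4`, `Instantiate/UpperBound9`). -/
def UpperBoundStatement (k : Type) [Field k] [IsAlgClosed k] (N : ℕ) [NeZero N]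
    (hNk : ((N : ℕ) : k) ≠ 0) (tq : LaurentSeries k) : Prop :=
  ∀ (t : Fk k N) (_ : (t : LaurentSeries k) = tq) (g : ℕ) (h : Fin g → Fk k N)
    (_ : ∀ i, IsIntegral (Algebra.adjoin k {jFk k N}) (h i)) (_ : LinearIndependent k h)
    (_ : ∀ i (τ : Emb k N) (a : ℤ), a < 0 → (τ.1 (h i) * D (τ.1 t)).coeff a = 0)
    (ζ : kˣ) (hζ : IsPrimitiveRoot ζ N),
    letI := fintypeEmb hNk
    ∃ m₀ : ℕ, ∀ P : Emb k N → ℕ, (∀ τ, P (rot ζ hζ.pow_eq_one τ) = P τ) → m₀ ≤ P embInfty →
      Module.Finite k (cuspSpaceE (jFk k N) (fun τ : Emb k N => τ.1) emb_algebraMap P) ∧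
      N * (Module.finrank k (cuspSpaceE (jFk k N) (fun τ : Emb k N => τ.1) emb_algebraMap P) + g)
        ≤ ∑ τ, P τ + N

/-- The shape of the persistence statement (supplied by `RedFamily`). -/
def PersistStatement : Prop :=
  ∀ τ : Emb k N, ∃ (s : FBar Kbar N →+* LaurentSeries Kbar) (hs : Persists A π N s),
    (∀ c : Kbar, s (algebraMap Kbar (FBar Kbar N) c) = HahnSeries.C c) ∧
    s (jF Kbar N) = qExpand Kbar N (jqModC Kbar) ∧
    redHom ℓ hπ hℓN hs = τ.1 ∧
    ∀ f : OvVal A π N ℓ hπ hℓN,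
      IsIntegral (Algebra.adjoin Kbar {jF Kbar N}) (f : FBar Kbar N) → s f ∈ intLS A

/-- The shape of the integrality statement (G3) (supplied by `Instantiate/IntegralRed`). -/
def IntegralRedStatement : Prop :=
  ∀ (f : FBar Kbar N) (hf : f ∈ OvVal A π N ℓ hπ hℓN),
    IsIntegral (Algebra.adjoin Kbar {jF Kbar N}) f →
      IsIntegral (Algebra.adjoin k {jFk k N}) (resFk A π N ℓ hπ hℓN ⟨f, hf⟩)

include hπ hℓN in
set_option maxHeartbeats 1000000 in
/-- `g` differentials `h i dt` of the generic fibre, integral at `∞`, regular at all cusps, with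
independent reductions, force `g ≤ genusFF k (Fk k N)`. -/
theorem le_genusFF_of_forms (hNk : ((N : ℕ) : k) ≠ 0)
    (hS5 : PersistStatement ℓ A π hπ hℓN) (hG3 : IntegralRedStatement ℓ A π hπ hℓN)
    (tZ : LaurentSeries ℤ)
    (hUB : UpperBoundStatement k N hNk (coeffMap (Int.castRingHom k) tZ))
    (tL : FBar Kbar N) (htLcoe : (tL : LaurentSeries Kbar) = coeffMap (Int.castRingHom Kbar) tZ)
    (htLint : IsIntegral (Algebra.adjoin Kbar {jF Kbar N}) tL)
    {g : ℕ} (qf : Fin g → PowerSeries ℤ) (hZ : Fin g → LaurentSeries ℤ) (h : Fin g → FBar Kbar N)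
    (GZ : LaurentSeries ℤ) (hG : ∀ i, hZ i * GZ = HahnSeries.ofPowerSeries ℤ ℤ (qf i))
    (hcoe : ∀ i, ((h i : FBar Kbar N) : LaurentSeries Kbar) =
      coeffMap (Int.castRingHom Kbar) (hZ i))
    (hint : ∀ i, IsIntegral (Algebra.adjoin Kbar {jF Kbar N}) (h i))
    (hγ : ∀ i (σ : FBar Kbar N →+* LaurentSeries Kbar),
      (∀ c : Kbar, σ (algebraMap Kbar (FBar Kbar N) c) = HahnSeries.C c) →
      σ (jF Kbar N) = qExpand Kbar N (jqModC Kbar) →
      ∀ n : ℤ, n < 0 → (σ (h i) * D (σ tL)).coeff n = 0)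
    (hδ : LinearIndependent k (fun i => (qf i).map (Int.castRingHom k))) :
    g ≤ genusFF k (Fk k N) := by
  classical
  have htkcoe := coe_resFk_intElt π ℓ hπ hℓN htLcoe
  have hkcoe := fun i => coe_resFk_intElt π ℓ hπ hℓN (hcoe i)
  have hkint := fun i => hG3 _ (intElt_mem_OvVal π ℓ hπ hℓN (hcoe i)) (hint i)
  have hkli := linearIndependent_of_mul_eq hZ GZ qf hG hδ _ hkcoe
  have hkreg : ∀ i (τ : Emb k N) (a : ℤ), a < 0 →
      (τ.1 (resFk A π N ℓ hπ hℓN ⟨h i, intElt_mem_OvVal π ℓ hπ hℓN (hcoe i)⟩) *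
        D (τ.1 (resFk A π N ℓ hπ hℓN ⟨tL, intElt_mem_OvVal π ℓ hπ hℓN htLcoe⟩))).coeff a = 0 :=
    fun i τ a ha =>
      regular_red π ℓ hπ hℓN hS5 htLcoe (hcoe i) htLint (hint i) (hγ i) τ a ha
  obtain ⟨ζ, hζ⟩ := Fermat.Agent.S28.Tower.exists_primitiveRoot_unit (k := k) N hNk
  letI := fintypeEmb hNk
  haveI := finiteDimensional_Fk hNk
  haveI := isSeparable_Fk hNk
  have hub := hUB _ htkcoe g _ hkint hkli hkreg ζ hζ
  exact le_genusFF_of_upper_bound (fun τ : Emb k N => τ.1) (rot ζ hζ.pow_eq_one) emb_algebraMap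
    (fun τ f => rot_apply ζ hζ.pow_eq_one τ f) hζ emb_val_injective (jFk k N)
    (qExpand k N (jqModC k)) emb_jFk order_qExpand_jqModC (card_emb_fintype hNk).ge g embInfty hub

include hπ hℓN in
set_option maxHeartbeats 1000000 in
/-- **(G2) at a good level divisible by four.** -/
theorem genusFF_le_four (h4 : 4 ∣ N) (hNk : ((N : ℕ) : k) ≠ 0)
    (hS5 : PersistStatement ℓ A π hπ hℓN) (hG3 : IntegralRedStatement ℓ A π hπ hℓN)
    (hUB : UpperBoundStatement k N hNk (TLine4.x4k k)) :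
    genusFF Kbar (FF N) ≤ genusFF k (Fk k N) := by
  have hℓ : ℓ.Prime := Fact.out
  obtain ⟨qf, hZ, h, -, hG, hcoe, hint, hγ, hδ⟩ := Forms.exists_forms_four (M := N) h4
  rw [genusFF_eq_finrank_cuspForm]
  have htLint : IsIntegral (Algebra.adjoin Kbar {jF Kbar N})
      (⟨L4.x4K, L4.x4K_mem_of_dvd h4⟩ : FBar Kbar N) := by
    have := Forms.isIntegral_bar_of_rel N L4.x4K (L4.x4K_mem_of_dvd h4) L4.P4 L4.Q4 Forms.monic_P4
      (Polynomial.degree_lt_degree (by rw [L4.natDegree_P4, L4.natDegree_Q4]; norm_num))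
      L4.rel_x4K.symm
    rwa [jF_setup_eq] at this
  refine le_genusFF_of_forms ℓ A π hπ hℓN hNk hS5 hG3 L4.x4 hUB ⟨L4.x4K, L4.x4K_mem_of_dvd h4⟩ rfl
    htLint qf hZ h _ hG hcoe ?_ ?_ (hδ k ℓ hℓ)
  · intro i
    have := hint i
    rwa [jF_setup_eq] at this
  · intro i σ hσC hσj n hn
    refine hγ i σ hσC ?_ n hn
    rw [jF_setup_eq, hσj, jK_eq, qExpand_one_apply]


include hπ hℓN in
set_option maxHeartbeats 1000000 in
/-- **(G2) at a good level divisible by nine.** -/
theorem genusFF_le_nine (h9 : 9 ∣ N) (hNk : ((N : ℕ) : k) ≠ 0)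
    (hS5 : PersistStatement ℓ A π hπ hℓN) (hG3 : IntegralRedStatement ℓ A π hπ hℓN)
    (hUB : UpperBoundStatement k N hNk (TLine9.y9k k)) :
    genusFF Kbar (FF N) ≤ genusFF k (Fk k N) := by
  have hℓ : ℓ.Prime := Fact.out
  obtain ⟨qf, hZ, h, -, hG, hcoe, hint, hγ, hδ⟩ := Forms.exists_forms_nine (M := N) h9
  rw [genusFF_eq_finrank_cuspForm]
  have htLint : IsIntegral (Algebra.adjoin Kbar {jF Kbar N})
      (⟨L9.y9K, L9.y9K_mem_of_dvd h9⟩ : FBar Kbar N) := by
    have := Forms.isIntegral_bar_of_rel N L9.y9K (L9.y9K_mem_of_dvd h9) L9.P9 L9.Q9 Forms.monic_P9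
      (Polynomial.degree_lt_degree (by rw [L9.natDegree_P9, L9.natDegree_Q9]; norm_num))
      L9.rel_y9K.symm
    rwa [jF_setup_eq] at this
  refine le_genusFF_of_forms ℓ A π hπ hℓN hNk hS5 hG3 L9.y9 hUB ⟨L9.y9K, L9.y9K_mem_of_dvd h9⟩ rfl
    htLint qf hZ h _ hG hcoe ?_ ?_ (hδ k ℓ hℓ)
  · intro i
    have := hint i
    rwa [jF_setup_eq] at this
  · intro i σ hσC hσj n hn
    refine hγ i σ hσC ?_ n hn
    rw [jF_setup_eq, hσj, jK_eq, qExpand_one_apply]

end Four

end Fermat.Agent.Gateway.GoodRed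

end
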