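import Fermat.Agent.Gateway.GoodRed.Instantiate.UpperBoundT
import Fermat.Agent.Gateway.GoodRed.TLine4
import Fermat.Agent.Gateway.GoodRed.ConjFamily

set_option autoImplicit false

/-!
# P-GATEWAY (c) GoodRed: the cuspidal upper bound at a level `4 N'`

`CharLBound.cuspidal_upper_bound'` for `E = Fk k (4 N')` (the level-`4N'` function field over an
algebraically closed field `k` in which `4 N'` is invertible), the family of all cusp embeddings
`Emb k (4 N')` of `GoodRed/ConjFamily`, and the `t`-line of the Hauptmodul `x₄` (`GoodRed/TLine4`).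
The only `t`-line input left is an element `t ∈ Fk k (4 N')` whose `q`-expansion is `x₄`.
-/

set_option linter.unusedSectionVars false
set_option linter.style.haveILetI false

noncomputable section

namespace Fermat.Agent.Gateway.GoodRed.UpperBound4

open Module HahnSeries LaurentSeries Polynomial Function ModularCurve Fermat.Agent.S28
  Fermat.Agent.Lib.Residue IntermediateField Fermat.Agent.Gateway.GoodRed
  Fermat.Agent.Gateway.GoodRed.ConjFamily Fermat.Agent.Gateway.GoodRed.UpperBoundT
  Fermat.Agent.Gateway.GoodRed.TLine4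

variable {k : Type} [Field k]

theorem transcendental_x4k : Transcendental k (x4k k) := by
  have h := transcendental_of_coeff_ne_zero (k := k) (n := -1) (by norm_num)
    (isParam_coeff_inv_ne_zero (isParam_pInf k))
  rwa [pInf, inv_inv] at h

theorem JP_monic : (JP k).Monic := by
  rw [JP]
  monicity!

variable [IsAlgClosed k]

/-- **The cuspidal upper bound at a level `N = 4 N'`.**

The level is a variable `N` with `hN : N = 4 * N'` (do not substitute: on `Fk k (4 * N')` instance
search is pathologically slow, because of the `SetLike.GradeZero` instances of Mathlib). -/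
theorem exists_upper_bound4 (h2 : (2 : k) ≠ 0) (N N' : ℕ) [NeZero N] [NeZero N']
    (hN : N = 4 * N') (hNk : (N : k) ≠ 0) (ζ : kˣ) (hζ : IsPrimitiveRoot ζ N)
    (t : Fk k N) (ht : (t : LaurentSeries k) = x4k k) {g : ℕ}
    (h : Fin g → Fk k N)
    (hint : ∀ i, IsIntegral (Algebra.adjoin k {jFk k N}) (h i))
    (hli : LinearIndependent k h)
    (hreg : ∀ i (τ : Emb k N) (a : ℤ), a < 0 → (τ.1 (h i) * D (τ.1 t)).coeff a = 0) :
    letI := fintypeEmb hNk
    ∃ m₀ : ℕ, ∀ B : Emb k N → ℕ, (∀ τ, B (rot ζ hζ.pow_eq_one τ) = B τ) →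
      m₀ ≤ B embInfty →
        Module.Finite k (cuspSpaceE (jFk k N) (fun τ => τ.1) emb_algebraMap B) ∧
          N * (finrank k (cuspSpaceE (jFk k N) (fun τ => τ.1) emb_algebraMap B) + g) ≤
            ∑ τ, B τ + N := by
  classical
  letI := fintypeEmb hNk
  haveI := finiteDimensional_Fk hNk
  haveI := isSeparable_Fk hNk
  have htr : Transcendental k t := transcendental_of_coe t transcendental_x4k ht
  have hj : jFk k N * aeval t (JQ k) = aeval t (JP k) := by
    apply rel_of_coe
    rw [ht]
    exact rel_inf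
  have hjz : (qExpand k N (jqModC k)).order < 0 := by
    rw [order_qExpand_jqModC, neg_lt_zero]
    exact_mod_cast Nat.pos_of_ne_zero (NeZero.ne N)
  have hζ' : IsPrimitiveRoot ζ (4 * N') := hN ▸ hζ
  have hq : qExpand k N (jqModC k) = qExpand k (4 * N') (jqModC k) := qExpand_congr hN _
  have hbranch : ∀ i ∈ branchIndex (S4 k) (e4 k),
      aeval (branch (ε4 h2) (m4 k N') ζ i.1 i.2 RatFunc.X) (JP k) =
        qExpand k N (jqModC k) *
          aeval (branch (ε4 h2) (m4 k N') ζ i.1 i.2 RatFunc.X) (JQ k) := by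
    intro i hi
    rw [hq]
    exact hbranch4 h2 N' ζ hζ' i hi
  exact cuspidal_upper_bound_of_transcendental t htr (S4 k) (ε4 h2) (π4 k)
    (fun o _ c => ε4_C h2 o c) (fun o _ => isParam_π4 h2 o) (fun a _ => ε4_X_some h2 a)
    (ε4_X_none h2) (e4 k) (m4 k N') N (fun o _ => (e4_mul_m4 N' o).trans hN.symm) ζ hζ hNk
    (JP k) (JQ k) JP_monic natDegree_JQ_lt (natDegree_JP.trans (sum_e4 h2).symm) JQ_ne_zero 4
    (JQ_dvd h2) (qExpand k N (jqModC k)) hjz hbranch (fun τ : Emb k N => τ.1)
    (rot ζ hζ.pow_eq_one) emb_algebraMap (fun τ f => rot_apply ζ hζ.pow_eq_one τ f)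
    emb_val_injective (jFk k N) hj emb_jFk (card_emb_fintype hNk) h hint hli hreg embInfty

end Fermat.Agent.Gateway.GoodRed.UpperBound4
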