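import Mathlib
import Fermat.Agent.Gateway.GoodRed.Instantiate.GenusFour
import Fermat.Agent.Gateway.GoodRed.RedEmb
import Fermat.Agent.Gateway.GoodRed.Instantiate.IntegralRed
import Fermat.Agent.Gateway.GoodRed.Instantiate.UpperBound4
import Fermat.Agent.Gateway.GoodRed.Instantiate.UpperBound9

set_option autoImplicit false

/-!
# P-GATEWAY (c) GoodRed: (G2), the genus does not drop at a good level divisible by four or nine

The unconditional form of `Instantiate/GenusFour`: the three hypotheses of `genusFF_le_four`,
`genusFF_le_nine` are discharged from `RedEmb` (persistence of cusp embeddings),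
`Instantiate/IntegralRed` (reduction of integrality) and `Instantiate/UpperBound4`, `UpperBound9`
(the cuspidal upper bound on the special fibre).

Main results, for `ℓ ∤ N`, `A` a valuation subring of `Kbar = ℚ̄` with a surjection `π : A → k` onto
an algebraically closed field of characteristic `ℓ`:

* `genusFF_le_of_four_dvd : 4 ∣ N → genusFF Kbar (FBar Kbar N) ≤ genusFF k (Fk k N)`;
* `genusFF_le_of_nine_dvd : 9 ∣ N → genusFF Kbar (FBar Kbar N) ≤ genusFF k (Fk k N)`.
-/

set_option linter.unusedSectionVars false
set_option linter.style.haveILetI false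

noncomputable section

namespace Fermat.Agent.Gateway.GoodRed

open Polynomial ModularCurve Fermat.Agent.S28 Fermat.Agent.Gateway.Red Fermat.Agent.Lib.Residue
open IntermediateField HahnSeries AlgebraicCurve CongruenceSubgroup Fermat.Agent.S24.Setup
open Fermat.Agent.Gateway.AuxLevel Fermat.Agent.Gateway.GoodRed.ConjFamily

section Final

variable {N : ℕ} [NeZero N] (ℓ : ℕ) [Fact ℓ.Prime] (A : ValuationSubring Kbar)
  {k : Type} [Field k] [IsAlgClosed k] [CharP k ℓ] (π : A →+* k)
  (hπ : Function.Surjective π) (hℓN : ¬ ℓ ∣ N)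

/-- the persistence statement, from `RedEmb`. -/
theorem persistStatement : PersistStatement ℓ A π hπ hℓN := by
  intro τ
  exact exists_persists_of_emb' ℓ hπ hℓN (jF Kbar N) rfl τ

/-- the integrality statement (G3), from `Instantiate/IntegralRed`. -/
theorem integralRedStatement : IntegralRedStatement ℓ A π hπ hℓN := by
  intro f hf h
  exact IntegralRed.isIntegral_resFk_of_isIntegral_j A π N ℓ hπ hℓN f hf h

/-- the cuspidal upper bound at a level divisible by four, from `Instantiate/UpperBound4`. -/
theorem upperBoundStatement_four (h4 : 4 ∣ N) (hNk : ((N : ℕ) : k) ≠ 0) :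
    UpperBoundStatement k N hNk (TLine4.x4k k) := by
  intro t ht g h hint hli hreg ζ hζ
  obtain ⟨N', hN⟩ := h4
  haveI : NeZero N' := ⟨by rintro rfl; exact NeZero.ne N (by simpa using hN)⟩
  have h2 : (2 : k) ≠ 0 := by
    intro h2
    apply hNk
    rw [hN]
    push_cast
    have : (4 : k) = 2 * 2 := by norm_num
    rw [this, h2]
    simp
  exact UpperBound4.exists_upper_bound4 h2 N N' hN hNk ζ hζ t ht h hint hli hreg

/-- the cuspidal upper bound at a level divisible by nine, from `Instantiate/UpperBound9`. -/
theorem upperBoundStatement_nine (h9 : 9 ∣ N) (hNk : ((N : ℕ) : k) ≠ 0) :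
    UpperBoundStatement k N hNk (TLine9.y9k k) := by
  intro t ht g h hint hli hreg ζ hζ
  obtain ⟨N', hN⟩ := h9
  haveI : NeZero N' := ⟨by rintro rfl; exact NeZero.ne N (by simpa using hN)⟩
  have h3 : (3 : k) ≠ 0 := by
    intro h3
    apply hNk
    rw [hN]
    push_cast
    have : (9 : k) = 3 * 3 := by norm_num
    rw [this, h3]
    simp
  exact UpperBound9.exists_upper_bound9 h3 N N' hN hNk ζ hζ t ht h hint hli hreg

include hℓN in
theorem natCast_ne_zero_final : ((N : ℕ) : k) ≠ 0 := by
  rw [Ne, CharP.cast_eq_zero_iff k ℓ]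
  exact hℓN

include hπ hℓN in
/-- **(G2) at a good level divisible by four**: the genus does not drop under reduction. -/
theorem genusFF_le_of_four_dvd (h4 : 4 ∣ N) :
    genusFF Kbar (FBar Kbar N) ≤ genusFF k (Fk k N) :=
  genusFF_le_four ℓ A π hπ hℓN h4 (natCast_ne_zero_final ℓ hℓN)
    (persistStatement ℓ A π hπ hℓN) (integralRedStatement ℓ A π hπ hℓN)
    (upperBoundStatement_four h4 _)

include hπ hℓN in
/-- **(G2) at a good level divisible by nine**: the genus does not drop under reduction. -/
theorem genusFF_le_of_nine_dvd (h9 : 9 ∣ N) :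
    genusFF Kbar (FBar Kbar N) ≤ genusFF k (Fk k N) :=
  genusFF_le_nine ℓ A π hπ hℓN h9 (natCast_ne_zero_final ℓ hℓN)
    (persistStatement ℓ A π hπ hℓN) (integralRedStatement ℓ A π hπ hℓN)
    (upperBoundStatement_nine h9 _)

end Final

end Fermat.Agent.Gateway.GoodRed
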