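import Fermat.Agent.S24.Main
import Fermat.Agent.S24.EmbedTheta
import Fermat.Agent.S24.HDeg
import Fermat.Agent.Gateway.GoodRed.ConjFamily.Places
import Fermat.Agent.Gateway.GoodRed.ConjFamily.FBarEq
import Fermat.Agent.Gateway.GoodRed.RedEmb

/-!
# (GR-v) (helper24): the number of cusps of the reduced modular function field

* `card_poles_FF`: the function field of `X₀(N)` over `ℚ̄` has exactly `cuspCount N` places over
  `j = ∞` (a by-product of the place counting of S24).
* `card_polePlaces_le`: for the residue field `k` (algebraically closed of characteristic `ℓ ∤ N`)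
  of a valuation subring of `ℚ̄`, the reduced function field `Fk k N` has at most `cuspCount N`
  places over `j = ∞`.
* `cuspCount_nine_mul_prime`.
-/

set_option autoImplicit false
set_option linter.unusedSectionVars false

noncomputable section

open AlgebraicCurve IntermediateField ModularCurve CongruenceSubgroup
open scoped MatrixGroups

namespace Fermat.Agent.Gateway.GoodRed.CuspPlaces

open Fermat.Agent.S24 Fermat.Agent.S24.Setup

/-- **The number of cusps in characteristic zero.** -/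
theorem card_poles_FF (N : ℕ) [NeZero N] :
    Nat.card {v : Place Kbar (FF N) // v.ord (Setup.jF N) < 0} = cuspCount N := by
  have hdeg := EmbedTheta.hdeg_of N
    (fun θ hfix hgr hper a hq => HDeg.exists_poly N θ hfix hgr hper a hq)
  have halg : ∀ g ∈ genSetF N, IsAlgebraic Kbar⟮Setup.jF N⟯ g := by
    intro g hg
    obtain ⟨p, hp0, -, hpa⟩ := hdeg g (Algebra.subset_adjoin hg)
    exact ⟨p, hp0, hpa⟩
  have hgen := GenRing.exists_div N halg
  obtain ⟨D, hD⟩ := Embed.exists_embData' N
  obtain ⟨hfd, hfr, hnorm⟩ := Conj.finrank_and_norm D hgen hdeg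
  have hx := TransJ.transcendental_jF N
  have hx0 : Setup.jF N ≠ 0 := fun h0 => hx (h0 ▸ isAlgebraic_zero)
  have hinf := AssembleInf.pcInput_inf D (fun x g => hD.isCuspMer_smul x g) hnorm
  have hcard := Final.card_zeros_eq_orbCount (K := Kbar) (Setup.jF N) (Setup.jF N)⁻¹ (inv_ne_zero hx0)
    (PD.adjoin_inv_eq (Setup.jF N))
    (fun {_} => ZP.zeroPlacesData (Setup.jF N)⁻¹ (PD.transcendental_inv hx))
    (MulAction.toPerm ModularGroup.T : Equiv.Perm (SL(2, ℤ) ⧸ Gamma0 N)) hinf
  rw [Final.orbCount_toPerm, PartV.orbCount_T] at hcard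
  rw [← hcard]
  refine Nat.card_congr (Equiv.subtypeEquivRight (fun v => ?_))
  rw [Place.ord_inv, neg_pos]

/-! ### Transport to `Fk Kbar N` -/

open Fermat.Agent.Gateway.GoodRed.ConjFamily Fermat.Agent.Gateway.GoodRed.PlacesAtInfinity

/-- the number of poles of an element only depends on the underlying subfield. -/
theorem card_poles_congr {K : Type*} [Field K] {E E' : IntermediateField K (LaurentSeries K)}
    (h : E = E') (x : LaurentSeries K) (hx : x ∈ E) (hx' : x ∈ E') :
    Nat.card {P : Place K E // P.ord ⟨x, hx⟩ < 0} =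
      Nat.card {P : Place K E' // P.ord ⟨x, hx'⟩ < 0} := by
  subst h
  rfl

theorem jK_one : jK 1 = jqModC Kbar := by
  rw [jK, coeffEmb_qExpand_jq, qExpand_one_apply]

/-- **The number of cusps of `Fk ℚ̄ N`.** -/
theorem card_poles_FkBar (N : ℕ) [NeZero N] :
    Nat.card {P : Place Kbar (Fk Kbar N) // P.ord (jFk Kbar N) < 0} = cuspCount N := by
  rw [← card_poles_FF N]
  have hmem : jqModC Kbar ∈ FBar Kbar N := by
    rw [FBar_eq_fullC]
    exact jqModC_mem_full Kbar N
  have h := card_poles_congr (FBar_eq_fullC Kbar N) (jqModC Kbar) hmem (jqModC_mem_full Kbar N)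
  have hj : (Setup.jF N : FF N) = ⟨jqModC Kbar, hmem⟩ := Subtype.ext (by rw [Setup.coe_jF, jK_one])
  rw [hj]
  exact h.symm

/-! ### Surjective equivariant maps of families -/

theorem map_zpow_of_equivariant {ι ι' : Type*} (rot : Equiv.Perm ι) (rot' : Equiv.Perm ι')
    (red : ι → ι') (hred : ∀ i, red (rot i) = rot' (red i)) (n : ℤ) (i : ι) :
    red ((rot ^ n) i) = (rot' ^ n) (red i) := by
  have hinv : ∀ i, red (rot⁻¹ i) = rot'⁻¹ (red i) := fun i => by
    rw [Equiv.Perm.eq_inv_iff_eq, ← hred]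
    congr 1
    exact rot.apply_symm_apply i
  induction n using Int.induction_on generalizing i with
  | zero => simp
  | succ n ih => rw [zpow_add_one, zpow_add_one, Equiv.Perm.mul_apply, Equiv.Perm.mul_apply, ih, hred]
  | pred n ih =>
    rw [zpow_sub_one, zpow_sub_one, Equiv.Perm.mul_apply, Equiv.Perm.mul_apply, ih, hinv]

/-- A surjective twist-equivariant map between two families of cusp embeddings bounds the number
of poles of the target by the number of poles of the source. -/
theorem card_poles_le_of_surjective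
    {k F : Type*} [Field k] [Field F] [Algebra k F] {ι : Type*} [Finite ι]
    (σ : ι → F →+* LaurentSeries k) (rot : Equiv.Perm ι) (M : ℕ) (x : F)
    (pl : ι → Place k F) (hpl : IsPolePlaces σ rot M x pl)
    {k' F' : Type*} [Field k'] [Field F'] [Algebra k' F'] {ι' : Type*}
    (σ' : ι' → F' →+* LaurentSeries k') (rot' : Equiv.Perm ι') (M' : ℕ) (x' : F')
    (pl' : ι' → Place k' F') (hpl' : IsPolePlaces σ' rot' M' x' pl')
    (red : ι → ι') (hsurj : Function.Surjective red)
    (hred : ∀ i, red (rot i) = rot' (red i)) :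
    Nat.card {P : Place k' F' // P.ord x' < 0} ≤ Nat.card {P : Place k F // P.ord x < 0} := by
  classical
  have hfin : Finite {P : Place k F // P.ord x < 0} := by
    have hs : Function.Surjective (fun i : ι => (⟨pl i, (hpl.1 (pl i)).mpr ⟨i, rfl⟩⟩ :
        {P : Place k F // P.ord x < 0})) := by
      rintro ⟨P, hP⟩
      obtain ⟨j, hj⟩ := (hpl.1 P).mp hP
      exact ⟨j, Subtype.ext hj⟩
    exact Finite.of_surjective _ hs
  -- choose preimages
  have hex : ∀ Q : {P : Place k' F' // P.ord x' < 0}, ∃ i : ι, pl' (red i) = Q.1 := by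
    rintro ⟨Q, hQ⟩
    obtain ⟨j, hj⟩ := (hpl'.1 Q).mp hQ
    obtain ⟨i, hi⟩ := hsurj j
    exact ⟨i, by rw [hi, hj]⟩
  choose g hg using hex
  refine Nat.card_le_card_of_injective
    (fun Q => (⟨pl (g Q), (hpl.1 (pl (g Q))).mpr ⟨g Q, rfl⟩⟩ : {P : Place k F // P.ord x < 0})) ?_
  intro Q Q' hQQ
  have h1 : pl (g Q) = pl (g Q') := congrArg Subtype.val hQQ
  rw [hpl.2.1, orbMk_eq_iff_sameCycle] at h1
  obtain ⟨n, hn⟩ := h1
  apply Subtype.ext
  rw [← hg Q, ← hg Q', hpl'.2.1, orbMk_eq_iff_sameCycle]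
  exact ⟨n, by rw [← map_zpow_of_equivariant rot rot' red hred, hn]⟩

/-! ### The bound on the `k`-side -/

/-- **(GR-v)** Let `k` be algebraically closed with `(N : k) ≠ 0`.  Given a surjective
twist-equivariant map from the cusp embeddings over `ℚ̄` to the cusp embeddings over `k`
(the reduction map), the function field `Fk k N` has at most `cuspCount N` places over
`j = ∞`. -/
theorem card_poles_Fk_le_cuspCount {k : Type} [Field k] [IsAlgClosed k] {N : ℕ} [NeZero N]
    (hNk : (N : k) ≠ 0) (ζL : Kbarˣ) (hζL : IsPrimitiveRoot ζL N) (ζk : kˣ)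
    (hζk : IsPrimitiveRoot ζk N) (red : Emb Kbar N → Emb k N) (hsurj : Function.Surjective red)
    (hred : ∀ σ, red (rot ζL hζL.pow_eq_one σ) = rot ζk hζk.pow_eq_one (red σ)) :
    Nat.card {P : Place k (Fk k N) // P.ord (jFk k N) < 0} ≤ cuspCount N := by
  have hNL : ((N : ℕ) : Kbar) ≠ 0 := Nat.cast_ne_zero.mpr (NeZero.ne N)
  obtain ⟨plL, hplL⟩ := exists_polePlaces_Fk hNL ζL hζL
  obtain ⟨plk, hplk⟩ := exists_polePlaces_Fk hNk ζk hζk
  have : Finite (Emb Kbar N) := finite_emb hNL
  rw [← card_poles_FkBar N]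
  exact card_poles_le_of_surjective _ _ N _ plL hplL _ _ N _ plk hplk red hsurj hred

/-- **(GR-v), unconditional.** `A` a valuation subring of `ℚ̄`, `π : A →+* k` surjective onto an
algebraically closed field of characteristic `ℓ ∤ N`: the function field
`Fk k N = modularFunctionFieldFullC k N` has at most `cuspCount N` places over `j = ∞`. -/
theorem card_polePlaces_le (A : ValuationSubring Kbar) {k : Type} [Field k] (π : A →+* k) (N : ℕ)
    [IsAlgClosed k] (ℓ : ℕ) [Fact ℓ.Prime] [CharP k ℓ] [NeZero N]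
    (hπ : Function.Surjective π) (hℓN : ¬ ℓ ∣ N) :
    Nat.card {P : Place k (Fk k N) // P.ord (jFk k N) < 0} ≤ cuspCount N := by
  obtain ⟨ζ, hζ⟩ := exists_primitiveRoot_A A N
  have hζk := isPrimitiveRoot_map_pi ℓ hπ hℓN hζ
  have hζL : IsPrimitiveRoot (Units.map (A.subtype : A →* Kbar) ζ) N :=
    hζ.map_of_injective (Units.map_injective A.subtype_injective)
  have hNk : ((N : ℕ) : k) ≠ 0 := natCast_ne_zero_of_not_dvd N ℓ hℓN
  exact card_poles_Fk_le_cuspCount hNk _ hζL _ hζk (redEmb A π N ℓ hπ hℓN)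
    (redEmb_bijective ℓ hπ hℓN).2 (fun σ => redEmb_rot ℓ hπ hℓN ζ hζ.pow_eq_one σ)

/-! ### Numerics -/

theorem cuspCount_nine_mul_prime {p : ℕ} (hp : p.Prime) (hp3 : p ≠ 3) : cuspCount (9 * p) = 8 := by
  have hp1 : p ≠ 1 := hp.ne_one
  have hp0 : 0 < p := hp.pos
  have hp9 : p ≠ 9 := by rintro rfl; norm_num at hp
  have hcop3 : Nat.Coprime 3 p := (Nat.coprime_primes Nat.prime_three hp).mpr (Ne.symm hp3)
  have hcop : Nat.Coprime 9 p := Nat.Coprime.pow_left 2 hcop3
  have hdiv : (9 * p).divisors = {1, 3, 9, p, 3 * p, 9 * p} := by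
    ext d
    simp only [Nat.mem_divisors, Finset.mem_insert, Finset.mem_singleton]
    constructor
    · rintro ⟨hd, -⟩
      obtain ⟨a, b, ha, hb, rfl⟩ := (Nat.dvd_mul).mp hd
      have ha' : a = 1 ∨ a = 3 ∨ a = 9 := by
        have hle : a ≤ 9 := Nat.le_of_dvd (by norm_num) ha
        interval_cases a <;> simp_all
      have hb' : b = 1 ∨ b = p := (Nat.dvd_prime hp).mp hb
      rcases ha' with rfl | rfl | rfl <;> rcases hb' with rfl | rfl <;> simp
    · rintro (rfl | rfl | rfl | rfl | rfl | rfl)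
      · exact ⟨one_dvd _, by positivity⟩
      · exact ⟨Dvd.dvd.mul_right (by norm_num) p, by positivity⟩
      · exact ⟨Dvd.intro _ rfl, by positivity⟩
      · exact ⟨Dvd.intro_left _ rfl, by positivity⟩
      · exact ⟨Nat.mul_dvd_mul_right (by norm_num) p, by positivity⟩
      · exact ⟨dvd_rfl, by positivity⟩
  unfold cuspCount
  rw [hdiv]
  rw [Finset.sum_insert (by simp; omega), Finset.sum_insert (by simp; omega),
    Finset.sum_insert (by simp; omega), Finset.sum_insert (by simp; omega),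
    Finset.sum_insert (by simp; omega), Finset.sum_singleton]
  have e1 : 9 * p / 1 = 9 * p := Nat.div_one _
  have e2 : 9 * p / 3 = 3 * p := by omega
  have e3 : 9 * p / 9 = p := by omega
  have e4 : 9 * p / p = 9 := Nat.mul_div_cancel _ hp0
  have e5 : 9 * p / (3 * p) = 3 := Nat.div_eq_of_eq_mul_left (by positivity) (by ring)
  have e6 : 9 * p / (9 * p) = 1 := Nat.div_self (by positivity)
  rw [e1, e2, e3, e4, e5, e6]
  have g1 : Nat.gcd 1 (9 * p) = 1 := Nat.gcd_one_left _
  have g2 : Nat.gcd 3 (3 * p) = 3 := Nat.gcd_eq_left (Dvd.intro _ rfl)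
  have g3 : Nat.gcd 9 p = 1 := hcop
  have g4 : Nat.gcd p 9 = 1 := hcop.symm
  have g5 : Nat.gcd (3 * p) 3 = 3 := Nat.gcd_eq_right (Dvd.intro _ rfl)
  have g6 : Nat.gcd (9 * p) 1 = 1 := Nat.gcd_one_right _
  rw [g1, g2, g3, g4, g5, g6]
  have t3 : Nat.totient 3 = 2 := by decide
  rw [t3, Nat.totient_one]
  rfl

end Fermat.Agent.Gateway.GoodRed.CuspPlaces
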