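import Fermat.Agent.Gateway.GoodRed.Instantiate.CuspPlaces
import Fermat.Agent.Gateway.GoodRed.RedEmb

/-!
# (B3) of the Hurwitz backup route for (G2), unconditional (helper47)

The reduced modular function field `Fk k M` (`k` algebraically closed of characteristic `ℓ ∤ M`,
a residue field of a valuation subring of `ℚ̄`) has at most `cuspCount M` places over `j = ∞`:
helper24's `card_poles_Fk_le_cuspCount` instantiated with the reduction map of cusp embeddings
`redEmb` (`GoodRed/RedEmb.lean`).
-/

set_option autoImplicit false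
set_option linter.unusedSectionVars false

noncomputable section

open AlgebraicCurve ModularCurve

namespace Fermat.Agent.Gateway.GoodRed.CuspPlaces

open Fermat.Agent.Gateway.GoodRed.ConjFamily

variable (A : ValuationSubring (AlgebraicClosure ℚ))
  {k : Type} [Field k] (π : A →+* k) (M : ℕ)
  [IsAlgClosed k] (ℓ : ℕ) [Fact ℓ.Prime] [CharP k ℓ] [NeZero M]
  (hπ : Function.Surjective π) (hℓM : ¬ ℓ ∣ M)

include hπ hℓM in
/-- **(GR-v), unconditional**: at most `cuspCount M` places of `Fk k M` over `j = ∞`. -/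
theorem card_poles_Fk_le :
    Nat.card {P : Place k (Fk k M) // P.ord (jFk k M) < 0} ≤ cuspCount M := by
  obtain ⟨ζ, hζ⟩ := exists_primitiveRoot_A A M
  have hζL : IsPrimitiveRoot (Units.map (A.subtype : A →* AlgebraicClosure ℚ) ζ) M :=
    hζ.map_of_injective (Units.map_injective A.subtype_injective)
  have hζk : IsPrimitiveRoot (Units.map (π : A →* k) ζ) M :=
    isPrimitiveRoot_map_pi ℓ hπ hℓM hζ
  have hMk : ((M : ℕ) : k) ≠ 0 := fun h => hℓM ((CharP.cast_eq_zero_iff k ℓ M).mp h)
  exact card_poles_Fk_le_cuspCount hMk _ hζL _ hζk (redEmb A π M ℓ hπ hℓM)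
    (redEmb_bijective ℓ hπ hℓM).surjective
    (fun σ => redEmb_rot ℓ hπ hℓM ζ hζ.pow_eq_one σ)

end Fermat.Agent.Gateway.GoodRed.CuspPlaces
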