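import Mathlib
import Fermat.Agent.Gateway.GoodRed.GaussBar
import Fermat.Agent.Gateway.GoodRed.GaussRing
import Fermat.Agent.Gateway.GoodRed.GaussExt

/-!
# P-GATEWAY (c), GoodRed: the Gauss residue data of `F / L(t)` for a general parameter `t`

`F = FBar L N`, `O = OvVal` (Gauss valuation ring), `κ = modularFunctionFieldFullC k N`,
`res = resFk`.  Let `ξ : A((q))` have negative order and unit lowest coefficient, with
`t := embA A ξ ∈ F` (e.g. `ξ = j`, or a Hauptmodul `x₄`, `y₉` with integral `q`-expansion), and let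
`RatFunc L` act on `F` through `X ↦ t`, `RatFunc k` on `κ` through `X ↦ t̄ = redA ξ`
(both algebra structures are instance *variables* here, pinned down by the hypotheses
`hcompat`, `hcompatk`; canonical choices: `algebraRFt`, `algebraRFtk`).  Then

* `baseVal_eq_Ox` : `O ∩ L(t)` is the Gauss valuation ring `GaussRing.Ox` of `L(X)`;
* `gaussDataT` : `GaussExt.ResidueData O (RatFunc k) κ`, `red = resFk`;
* `redx_rfA` : `redx (a(X)) = ā(X)` for `a ∈ A[X]`;
* `gaussDataT_full` : full residue degree as soon as `[F : L(t)] ≤ [κ : k(t̄)]`;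
* `trace_mem_Ox`, `redx_trace` : for `f ∈ O`, `Tr_{F/L(t)} f ∈ O_x` and it reduces to
  `Tr_{κ/k(t̄)} (res f)`;
* `exists_trace_eq_div`, `trace_res_mul_eq` : the same in terms of quotients `a / b`, `a b ∈ A[X]`.
-/

set_option autoImplicit false
set_option linter.unusedSectionVars false
set_option linter.style.haveILetI false

noncomputable section

namespace Fermat.Agent.Gateway.GoodRed.GaussDataT

open Polynomial ModularCurve Fermat.Agent.S28 Fermat.Agent.S28.Tower Fermat.Agent.Gateway.Red
open IntermediateField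

variable {L : Type*} [Field L] [Algebra ℚ L] (A : ValuationSubring L)
  {k : Type} [Field k] (π : A →+* k) (N : ℕ)
  [IsAlgClosed k] (ℓ : ℕ) [Fact ℓ.Prime] [CharP k ℓ] [NeZero N]
  (hπ : Function.Surjective π) (hℓN : ¬ ℓ ∣ N)
  {ξ : LaurentSeries A} (hord : ξ.order < 0) (hlc : IsUnit ξ.leadingCoeff)

/-! ### The canonical algebra structures -/

section Canonical

variable (hmem : embA A ξ ∈ FBar L N)

include hmem in
theorem adjoin_le_FBar : L⟮embA A ξ⟯ ≤ FBar L N := by
  rw [IntermediateField.adjoin_le_iff]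
  rintro _ rfl
  exact hmem

/-- evaluation of rational functions at `t = embA ξ`, as a ring hom into `F`. -/
def ringRFt : RatFunc L →+* FBar L N :=
  (GaussRing.evalRF (embA A ξ) (GaussRing.transcendental_embA hord)).toRingHom.codRestrict
    (FBar L N) fun g => adjoin_le_FBar A N hmem (GaussRing.evalRF_mem_adjoin _ _ g)

/-- the `L(X)`-algebra structure on `F`, `X ↦ t`. -/
@[reducible] def algebraRFt : Algebra (RatFunc L) (FBar L N) := (ringRFt A N hord hmem).toAlgebra

theorem algebraRFt_compat (g : RatFunc L) :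
    ((@algebraMap (RatFunc L) (FBar L N) _ _ (algebraRFt A N hord hmem) g : FBar L N) :
      LaurentSeries L) = GaussRing.evalRF (embA A ξ) (GaussRing.transcendental_embA hord) g := rfl

variable (hmemk : redA A π ξ ∈ modularFunctionFieldFullC k N)

include hmemk in
theorem adjoin_le_Fk : k⟮redA A π ξ⟯ ≤ modularFunctionFieldFullC k N := by
  rw [IntermediateField.adjoin_le_iff]
  rintro _ rfl
  exact hmemk

/-- evaluation of rational functions at `t̄ = redA ξ`, as a ring hom into `κ`. -/
def ringRFtk : RatFunc k →+* modularFunctionFieldFullC k N :=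
  (GaussRing.evalRF (redA A π ξ) (GaussRing.transcendental_redA hord hlc)).toRingHom.codRestrict
    (modularFunctionFieldFullC k N)
    fun g => adjoin_le_Fk A π N hmemk (GaussRing.evalRF_mem_adjoin _ _ g)

/-- the `k(X)`-algebra structure on `κ`, `X ↦ t̄`. -/
@[reducible] def algebraRFtk : Algebra (RatFunc k) (modularFunctionFieldFullC k N) :=
  (ringRFtk A π N hord hlc hmemk).toAlgebra

theorem algebraRFtk_compat (g : RatFunc k) :
    ((@algebraMap (RatFunc k) (modularFunctionFieldFullC k N) _ _
        (algebraRFtk A π N hord hlc hmemk) g : modularFunctionFieldFullC k N) : LaurentSeries k) =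
      GaussRing.evalRF (redA A π ξ) (GaussRing.transcendental_redA hord hlc) g := rfl

end Canonical

/-! ### The residue data -/

section Data

variable [Algebra (RatFunc L) (FBar L N)]
  (hcompat : ∀ g : RatFunc L, ((algebraMap (RatFunc L) (FBar L N) g : FBar L N) : LaurentSeries L) =
    GaussRing.evalRF (embA A ξ) (GaussRing.transcendental_embA hord) g)

include hcompat in
theorem mem_baseVal_iff (c : RatFunc L) :
    c ∈ GaussExt.baseVal (RatFunc L) (OvVal A π N ℓ hπ hℓN) ↔ c ∈ GaussRing.Ox hπ hord hlc := by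
  show algebraMap (RatFunc L) (FBar L N) c ∈ OvVal A π N ℓ hπ hℓN ↔ _
  rw [mem_OvVal_iff, mem_Ov_iff, hcompat, GaussRing.mem_Ox_iff_evalRF]

include hcompat in
theorem baseVal_eq_Ox :
    GaussExt.baseVal (RatFunc L) (OvVal A π N ℓ hπ hℓN) = GaussRing.Ox hπ hord hlc :=
  SetLike.ext fun c => mem_baseVal_iff A π N ℓ hπ hℓN hord hlc hcompat c

/-- the reduction on `O ∩ L(t)`, with values in `k((q))`. -/
def redxHom : GaussExt.baseVal (RatFunc L) (OvVal A π N ℓ hπ hℓN) →+* LaurentSeries k :=
  (redV A π (FBar L N)).comp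
    ((ovValToOv A π N ℓ hπ hℓN).comp (GaussExt.baseIncl (RatFunc L) (OvVal A π N ℓ hπ hℓN)))

include hcompat in
theorem redxHom_eq_redOxHom (c : GaussExt.baseVal (RatFunc L) (OvVal A π N ℓ hπ hℓN)) :
    redxHom A π N ℓ hπ hℓN c = GaussRing.redOxHom hπ hord hlc
      ⟨(c : RatFunc L), (mem_baseVal_iff A π N ℓ hπ hℓN hord hlc hcompat _).mp c.2⟩ := by
  rw [GaussRing.redOxHom_apply]
  show gaussRed A π ⟨((algebraMap (RatFunc L) (FBar L N) (c : RatFunc L) : FBar L N) :
    LaurentSeries L), _⟩ = _
  congr 1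
  exact Subtype.ext (hcompat _)

include hcompat hlc in
theorem redxHom_mem (c : GaussExt.baseVal (RatFunc L) (OvVal A π N ℓ hπ hℓN)) :
    redxHom A π N ℓ hπ hℓN c ∈ k⟮redA A π ξ⟯ := by
  rw [redxHom_eq_redOxHom A π N ℓ hπ hℓN hord hlc hcompat]
  exact GaussRing.redOxHom_mem_adjoin hπ hord hlc _

/-- the reduction `O ∩ L(t) → k(X)`. -/
def redx : GaussExt.baseVal (RatFunc L) (OvVal A π N ℓ hπ hℓN) →+* RatFunc k :=
  ((RatFunc.algEquivOfTranscendental (redA A π ξ)
      (GaussRing.transcendental_redA hord hlc)).symm : k⟮redA A π ξ⟯ →+* RatFunc k).comp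
    ((redxHom A π N ℓ hπ hℓN).codRestrict (k⟮redA A π ξ⟯)
      (redxHom_mem A π N ℓ hπ hℓN hord hlc hcompat))

theorem evalRF_redx (c : GaussExt.baseVal (RatFunc L) (OvVal A π N ℓ hπ hℓN)) :
    GaussRing.evalRF (redA A π ξ) (GaussRing.transcendental_redA hord hlc)
      (redx A π N ℓ hπ hℓN hord hlc hcompat c) = redxHom A π N ℓ hπ hℓN c := by
  show ((RatFunc.algEquivOfTranscendental (redA A π ξ) (GaussRing.transcendental_redA hord hlc))
    ((RatFunc.algEquivOfTranscendental (redA A π ξ)
      (GaussRing.transcendental_redA hord hlc)).symm _) : LaurentSeries k) = _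
  rw [AlgEquiv.apply_symm_apply]
  rfl

variable [Algebra (RatFunc k) (modularFunctionFieldFullC k N)]
  (hcompatk : ∀ g : RatFunc k,
    ((algebraMap (RatFunc k) (modularFunctionFieldFullC k N) g : modularFunctionFieldFullC k N) :
      LaurentSeries k) =
    GaussRing.evalRF (redA A π ξ) (GaussRing.transcendental_redA hord hlc) g)

/-- **the residue data of the Gauss valuation** of `F / L(t)`, with residue extension
`κ / k(X)`, `X ↦ t̄`. -/
def gaussDataT : GaussExt.ResidueData (Kx := RatFunc L) (OvVal A π N ℓ hπ hℓN)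
    (RatFunc k) (modularFunctionFieldFullC k N) where
  redx := redx A π N ℓ hπ hℓN hord hlc hcompat
  red := resFk A π N ℓ hπ hℓN
  red_baseIncl := by
    intro c
    apply Subtype.ext
    rw [hcompatk, evalRF_redx]
    rfl
  inv_mem_of_red_ne_zero := by
    intro f hf
    have hf' : redV A π (FBar L N) ⟨(f : FBar L N), f.2⟩ ≠ 0 := by
      intro h0
      exact hf (Subtype.ext h0)
    exact inv_mem_Ov A π (FBar L N) f.2 hf'

theorem gaussDataT_red_surjective :
    Function.Surjective (gaussDataT A π N ℓ hπ hℓN hord hlc hcompat hcompatk).red :=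
  resFk_surjective A π N ℓ hπ hℓN

@[simp] theorem gaussDataT_red (f : OvVal A π N ℓ hπ hℓN) :
    (gaussDataT A π N ℓ hπ hℓN hord hlc hcompat hcompatk).red f = resFk A π N ℓ hπ hℓN f := rfl

@[simp] theorem gaussDataT_redx (c : GaussExt.baseVal (RatFunc L) (OvVal A π N ℓ hπ hℓN)) :
    (gaussDataT A π N ℓ hπ hℓN hord hlc hcompat hcompatk).redx c =
      redx A π N ℓ hπ hℓN hord hlc hcompat c := rfl

/-! ### Polynomials over `A` -/

/-- the rational function attached to a polynomial over `A`. -/
def rfA (a : A[X]) : RatFunc L := algebraMap L[X] (RatFunc L) (a.map A.subtype)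

/-- the rational function over `k` attached to the reduction of a polynomial over `A`. -/
def rfk (a : A[X]) : RatFunc k := algebraMap k[X] (RatFunc k) (a.map π)

include hcompat hlc in
theorem rfA_mem_baseVal (a : A[X]) :
    rfA A a ∈ GaussExt.baseVal (RatFunc L) (OvVal A π N ℓ hπ hℓN) := by
  rw [mem_baseVal_iff A π N ℓ hπ hℓN hord hlc hcompat, rfA, GaussRing.algebraMap_mem_Ox_iff]
  intro n
  rw [Polynomial.coeff_map]
  exact (a.coeff n).2

/-- `redx (a(X)) = ā(X)`. -/
theorem redx_rfA (a : A[X]) :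
    redx A π N ℓ hπ hℓN hord hlc hcompat
      ⟨rfA A a, rfA_mem_baseVal A π N ℓ hπ hℓN hord hlc hcompat a⟩ = rfk A π a := by
  apply GaussRing.evalRF_injective (redA A π ξ) (GaussRing.transcendental_redA hord hlc)
  rw [evalRF_redx, redxHom_eq_redOxHom A π N ℓ hπ hℓN hord hlc hcompat, GaussRing.redOxHom_apply,
    rfk, GaussRing.evalRF_algebraMap]
  have h : GaussRing.evalRF (embA A ξ) (GaussRing.transcendental_embA hord) (rfA A a) =
      embA A (aeval ξ a) := by
    rw [rfA, GaussRing.evalRF_algebraMap, GaussRing.embA_aeval]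
  rw [gaussRed_of_eq_embA A π _ h, GaussRing.redA_aeval]

/-! ### Full residue degree and traces -/

variable [FiniteDimensional (RatFunc L) (FBar L N)]

/-- full residue degree, from the inequality of degrees. -/
theorem gaussDataT_full
    (hle : Module.finrank (RatFunc L) (FBar L N) ≤
      Module.finrank (RatFunc k) (modularFunctionFieldFullC k N)) :
    (gaussDataT A π N ℓ hπ hℓN hord hlc hcompat hcompatk).FullResidueDegree :=
  GaussExt.ResidueData.fullResidueDegree_of_le _
    (gaussDataT_red_surjective A π N ℓ hπ hℓN hord hlc hcompat hcompatk) hle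

variable (H : (gaussDataT A π N ℓ hπ hℓN hord hlc hcompat hcompatk).FullResidueDegree)

include H in
/-- the trace of an element of `O` lies in `O ∩ L(t)`. -/
theorem trace_mem_baseVal (f : OvVal A π N ℓ hπ hℓN) :
    Algebra.trace (RatFunc L) (FBar L N) (f : FBar L N) ∈
      GaussExt.baseVal (RatFunc L) (OvVal A π N ℓ hπ hℓN) := by
  rw [← GaussExt.ResidueData.FullResidueDegree.coe_trace _ H f]
  exact Subtype.property _

include H in
/-- the trace of an element of `O` lies in the Gauss valuation ring of `L(X)`. -/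
theorem trace_mem_Ox (f : OvVal A π N ℓ hπ hℓN) :
    Algebra.trace (RatFunc L) (FBar L N) (f : FBar L N) ∈ GaussRing.Ox hπ hord hlc :=
  (mem_baseVal_iff A π N ℓ hπ hℓN hord hlc hcompat _).mp
    (trace_mem_baseVal A π N ℓ hπ hℓN hord hlc hcompat hcompatk H f)

/-- the trace reduces to the trace of the residue extension. -/
theorem redx_trace (f : OvVal A π N ℓ hπ hℓN) :
    redx A π N ℓ hπ hℓN hord hlc hcompat
      ⟨Algebra.trace (RatFunc L) (FBar L N) (f : FBar L N),
        trace_mem_baseVal A π N ℓ hπ hℓN hord hlc hcompat hcompatk H f⟩ =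
      Algebra.trace (RatFunc k) (modularFunctionFieldFullC k N) (resFk A π N ℓ hπ hℓN f) := by
  have h1 := GaussExt.ResidueData.FullResidueDegree.redx_trace _ H
    (gaussDataT_red_surjective A π N ℓ hπ hℓN hord hlc hcompat hcompatk) f
  rw [gaussDataT_red, gaussDataT_redx] at h1
  rw [← h1]
  congr 1
  exact Subtype.ext (GaussExt.ResidueData.FullResidueDegree.coe_trace _ H f).symm

/-! ### Quotient forms -/

theorem rfA_eq_zero_iff (a : A[X]) : rfA A a = 0 ↔ a = 0 := by
  rw [rfA, map_eq_zero_iff _ (IsFractionRing.injective L[X] (RatFunc L)),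
    Polynomial.map_eq_zero_iff (Subtype.val_injective)]

include H in
/-- **Gauss integrality of traces**: `Tr_{F/L(t)} f = a / b` with `a, b ∈ A[X]`, `b` primitive. -/
theorem exists_trace_eq_div (f : OvVal A π N ℓ hπ hℓN) :
    ∃ a b : A[X], (∃ i, IsUnit (b.coeff i)) ∧
      Algebra.trace (RatFunc L) (FBar L N) (f : FBar L N) = rfA A a / rfA A b := by
  have h := trace_mem_Ox A π N ℓ hπ hℓN hord hlc hcompat hcompatk H f
  obtain ⟨e, P, Q, -, hQ, hT⟩ := (GaussRing.mem_Ox_iff hπ hord hlc).mp h
  refine ⟨Polynomial.C e * P, Q, ?_, ?_⟩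
  · obtain ⟨i, hi⟩ : ∃ i, (Q.map π).coeff i ≠ 0 := by
      by_contra hcon
      push Not at hcon
      exact hQ (Polynomial.ext fun i => by rw [hcon i, Polynomial.coeff_zero])
    rw [Polynomial.coeff_map] at hi
    exact ⟨i, (GaussRing.pi_ne_zero_iff_isUnit hπ _).mp hi⟩
  · rw [hT, GaussRing.nf, rfA, rfA, Polynomial.map_mul, Polynomial.map_C, map_mul,
      RatFunc.algebraMap_C]
    rfl

include H in
/-- **reduction of traces**, quotient form. -/
theorem trace_res_mul_eq (f : OvVal A π N ℓ hπ hℓN) (a b : A[X]) (hb : b ≠ 0)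
    (hT : Algebra.trace (RatFunc L) (FBar L N) (f : FBar L N) = rfA A a / rfA A b) :
    Algebra.trace (RatFunc k) (modularFunctionFieldFullC k N) (resFk A π N ℓ hπ hℓN f) *
      rfk A π b = rfk A π a := by
  have hb0 : rfA A b ≠ 0 := fun h0 => hb ((rfA_eq_zero_iff A b).mp h0)
  have h1 : (⟨Algebra.trace (RatFunc L) (FBar L N) (f : FBar L N),
      trace_mem_baseVal A π N ℓ hπ hℓN hord hlc hcompat hcompatk H f⟩ :
        GaussExt.baseVal (RatFunc L) (OvVal A π N ℓ hπ hℓN)) *
      ⟨rfA A b, rfA_mem_baseVal A π N ℓ hπ hℓN hord hlc hcompat b⟩ =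
      ⟨rfA A a, rfA_mem_baseVal A π N ℓ hπ hℓN hord hlc hcompat a⟩ := by
    apply Subtype.ext
    show Algebra.trace (RatFunc L) (FBar L N) (f : FBar L N) * rfA A b = rfA A a
    rw [hT, div_mul_cancel₀ _ hb0]
  have h2 := congrArg (redx A π N ℓ hπ hℓN hord hlc hcompat) h1
  rw [map_mul, redx_trace A π N ℓ hπ hℓN hord hlc hcompat hcompatk H, redx_rfA, redx_rfA] at h2
  exact h2

/-! ### Transfer to the subfield `k(t̄) ⊆ k((q))` -/

theorem evalRF_congr' {K E : Type*} [Field K] [Field E] [Algebra K E] {x y : E} (h : x = y)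
    (hx : Transcendental K x) (hy : Transcendental K y) :
    GaussRing.evalRF x hx = GaussRing.evalRF y hy := by
  subst h
  rfl

section Adjoin

variable (tk : LaurentSeries k) (htk : redA A π ξ = tk)
  [Algebra (k⟮tk⟯) (modularFunctionFieldFullC k N)]
  (hcompatA : ∀ y : k⟮tk⟯,
    ((algebraMap (k⟮tk⟯) (modularFunctionFieldFullC k N) y : modularFunctionFieldFullC k N) :
      LaurentSeries k) = (y : LaurentSeries k))

include hord htk hlc in
theorem transcendental_tk : Transcendental k tk := by
  rw [← htk]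
  exact GaussRing.transcendental_redA hord hlc

/-- `k(X) ≃ k(t̄)`. -/
def equivAdjoin : RatFunc k ≃+* k⟮tk⟯ :=
  (RatFunc.algEquivOfTranscendental tk (transcendental_tk A π hord hlc tk htk)).toRingEquiv

theorem coe_equivAdjoin (g : RatFunc k) :
    ((equivAdjoin A π hord hlc tk htk g : k⟮tk⟯) : LaurentSeries k) =
      GaussRing.evalRF (redA A π ξ) (GaussRing.transcendental_redA hord hlc) g := by
  rw [evalRF_congr' htk (GaussRing.transcendental_redA hord hlc)
    (transcendental_tk A π hord hlc tk htk)]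
  rfl

include hcompatk hcompatA in
theorem algebraMap_comp_equivAdjoin :
    (algebraMap (k⟮tk⟯) (modularFunctionFieldFullC k N)).comp
      (equivAdjoin A π hord hlc tk htk : RatFunc k →+* k⟮tk⟯) =
      algebraMap (RatFunc k) (modularFunctionFieldFullC k N) := by
  refine RingHom.ext fun g => Subtype.ext ?_
  rw [RingHom.comp_apply, hcompatA, hcompatk]
  exact coe_equivAdjoin A π hord hlc tk htk g

include hcompatk hcompatA htk in
/-- the trace over `k(t̄)` is the image of the trace over `k(X)`. -/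
theorem coe_trace_adjoin (z : modularFunctionFieldFullC k N) :
    ((Algebra.trace (k⟮tk⟯) (modularFunctionFieldFullC k N) z : k⟮tk⟯) : LaurentSeries k) =
      GaussRing.evalRF (redA A π ξ) (GaussRing.transcendental_redA hord hlc)
        (Algebra.trace (RatFunc k) (modularFunctionFieldFullC k N) z) := by
  rw [← Algebra.trace_eq_of_ringEquiv (equivAdjoin A π hord hlc tk htk)
    (algebraMap_comp_equivAdjoin A π N hord hlc hcompatk tk htk hcompatA) z]
  exact coe_equivAdjoin A π hord hlc tk htk _

include hcompatk hcompatA htk in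
theorem finrank_adjoin_eq :
    Module.finrank (k⟮tk⟯) (modularFunctionFieldFullC k N) =
      Module.finrank (RatFunc k) (modularFunctionFieldFullC k N) := by
  refine (Algebra.finrank_eq_of_equiv_equiv (equivAdjoin A π hord hlc tk htk)
    (RingEquiv.refl (modularFunctionFieldFullC k N)) ?_).symm
  rw [← algebraMap_comp_equivAdjoin A π N hord hlc hcompatk tk htk hcompatA]
  rfl

include hcompatA htk in
/-- **reduction of traces**, in terms of `GaussRing.redOx` and the trace over `k(t̄)`. -/
theorem redOx_trace (f : OvVal A π N ℓ hπ hℓN) :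
    ((GaussRing.redOx hπ hord hlc
      ⟨Algebra.trace (RatFunc L) (FBar L N) (f : FBar L N),
        trace_mem_Ox A π N ℓ hπ hℓN hord hlc hcompat hcompatk H f⟩ : k⟮redA A π ξ⟯) :
      LaurentSeries k) =
    ((Algebra.trace (k⟮tk⟯) (modularFunctionFieldFullC k N) (resFk A π N ℓ hπ hℓN f) : k⟮tk⟯) :
      LaurentSeries k) := by
  rw [coe_trace_adjoin A π N hord hlc hcompatk tk htk hcompatA,
    ← redx_trace A π N ℓ hπ hℓN hord hlc hcompat hcompatk H f, evalRF_redx,
    redxHom_eq_redOxHom A π N ℓ hπ hℓN hord hlc hcompat, GaussRing.redOx_coe]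

end Adjoin

end Data

end Fermat.Agent.Gateway.GoodRed.GaussDataT
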