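import Mathlib
import Fermat.Agent.Gateway.GoodRed.Instantiate.GaussDataT
import Fermat.Agent.Gateway.GoodRed.Instantiate.HauptRed
import Fermat.Agent.Gateway.GoodRed.TLine9
import Fermat.Agent.Gateway.GoodRed.ConjFamily.Units
import Fermat.Agent.Gateway.C0.LevelFactsK

/-!
# P-GATEWAY (c) GoodRed / P-S16 (U2, input (I1)): the `y₉`-line instantiation of `GaussExt`

`L = Kbar = AlgebraicClosure ℚ`, `9 ∣ N`, `ℓ ∤ N`.  `RatFunc Kbar` acts on `F = FBar Kbar N` through
`X ↦ y₉` (`algebraRFy`), `k⟮ȳ₉⟯ ⊆ κ = modularFunctionFieldFullC k N` (`algebraKy`).  With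
`ξ := L9.y9R ↥A`:

* `y9A_order_neg`, `y9A_isUnit_leadingCoeff`;
* `twelve_mul_finrank_RFy : 12 * [F : L(y)] = ψ(N)`, `finrank_Ky_eq : [κ : k(ȳ)] = [F : L(y)]`;
* `trace_mem_Ox`, `redOx_trace` : for `f ∈ OvVal`, `Tr_{F/L(y)} f` lies in the Gauss valuation ring
  of `L(X)` and reduces to `Tr_{κ/k(ȳ)} (resFk f)`;
* `exists_trace_eq_div`, `trace_res_mul_eq` : the same in quotient form over `RatFunc k`
  (`algebraRFyk`).
-/

set_option autoImplicit false
set_option linter.unusedSectionVars false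
set_option linter.style.haveILetI false

noncomputable section

namespace Fermat.Agent.Gateway.GoodRed.GaussDataHaupt

open Polynomial ModularCurve Fermat.Agent.S28 Fermat.Agent.Gateway.Red
open Fermat.Agent.Gateway.AuxLevel Fermat.Agent.S24 Fermat.Agent.S24.Setup
open IntermediateField

/-! ### Order and lowest coefficient of `y₉` over any ring -/

section Order

variable (R : Type*) [CommRing R]

theorem coeff_y9R (n : ℤ) :
    (L9.y9R R).coeff n = if n + 1 < 0 then 0 else PowerSeries.coeff (n + 1).natAbs (L9.u9R R) := by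
  rw [L9.y9R_eq, qInvR, HahnSeries.coeff_single_mul, one_mul, sub_neg_eq_add]
  exact PowerSeries.coeff_coe _ _

theorem coeff_y9R_neg_one : (L9.y9R R).coeff (-1) = 1 := by
  rw [coeff_y9R]
  simp only [neg_add_cancel, lt_self_iff_false, if_false, Int.natAbs_zero]
  rw [PowerSeries.coeff_zero_eq_constantCoeff_apply, L9.constantCoeff_u9R]

theorem coeff_y9R_of_lt {m : ℤ} (hm : m < -1) : (L9.y9R R).coeff m = 0 := by
  rw [coeff_y9R, if_pos (by omega)]

variable [Nontrivial R]

theorem y9R_order : (L9.y9R R).order = -1 :=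
  (ConjFamily.order_eq_of_coeff (f := L9.y9R R) (n := -1)
    (by rw [coeff_y9R_neg_one]; exact one_ne_zero) (fun _ hm => coeff_y9R_of_lt R hm)).1

theorem y9R_leadingCoeff : (L9.y9R R).leadingCoeff = 1 := by
  rw [(ConjFamily.order_eq_of_coeff (f := L9.y9R R) (n := -1)
    (by rw [coeff_y9R_neg_one]; exact one_ne_zero) (fun _ hm => coeff_y9R_of_lt R hm)).2,
    coeff_y9R_neg_one]

theorem y9R_order_neg : (L9.y9R R).order < 0 := by
  rw [y9R_order]; norm_num

theorem y9R_isUnit_leadingCoeff : IsUnit (L9.y9R R).leadingCoeff := by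
  rw [y9R_leadingCoeff]; exact isUnit_one

end Order

/-! ### Roots of unity in an algebraically closed field -/

section Roots

theorem exists_roots (K : Type*) [Field K] [IsAlgClosed K] (N : ℕ) [NeZero N] (h9 : 9 ∣ N)
    (hNK : (N : K) ≠ 0) :
    (3 : K) ≠ 0 ∧ (∃ w : K, w ^ 2 + w + 1 = 0) ∧ ∃ ζ : Kˣ, IsPrimitiveRoot ζ (9 * (N / 9)) := by
  have h3 : (3 : K) ≠ 0 := by
    intro h0
    apply hNK
    obtain ⟨m, rfl⟩ := h9
    push_cast
    have : (9 : K) = 3 * 3 := by norm_num
    rw [this, h0, zero_mul, zero_mul]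
  refine ⟨h3, ?_, ?_⟩
  · have hdeg : (X ^ 2 + X + 1 : K[X]).degree ≠ 0 := by
      have : (X ^ 2 + X + 1 : K[X]).degree = 2 := by compute_degree!
      rw [this]; norm_num
    obtain ⟨w, hw⟩ := IsAlgClosed.exists_root _ hdeg
    refine ⟨w, ?_⟩
    simpa using hw
  · haveI : NeZero (N : K) := ⟨hNK⟩
    obtain ⟨ζ, hζ⟩ := HasEnoughRootsOfUnity.exists_primitiveRoot K N
    have hu : IsUnit ζ := hζ.isUnit (NeZero.ne N)
    refine ⟨hu.unit, ?_⟩
    rw [Nat.mul_div_cancel' h9, ← IsPrimitiveRoot.coe_units_iff]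
    simpa using hζ

end Roots

/-! ### The `y₉`-line on the characteristic zero side -/

section LSide

variable (N : ℕ) [NeZero N] (h9 : 9 ∣ N)

theorem transcendental_y9K : Transcendental Kbar (L9.y9R Kbar) :=
  transcendental_of_order_neg (y9R_order_neg Kbar)

include h9 in
theorem adjoin_y9_le_FBar : Kbar⟮L9.y9R Kbar⟯ ≤ FBar Kbar N := by
  rw [IntermediateField.adjoin_le_iff]
  rintro _ rfl
  exact L9.y9K_mem_of_dvd h9

/-- evaluation of rational functions at `y₉`, as a ring hom into `F`. -/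
def ringRFy : RatFunc Kbar →+* FBar Kbar N :=
  (GaussRing.evalRF (L9.y9R Kbar) transcendental_y9K).toRingHom.codRestrict (FBar Kbar N)
    fun g => adjoin_y9_le_FBar N h9 (GaussRing.evalRF_mem_adjoin _ _ g)

/-- the `L(X)`-algebra structure on `F`, `X ↦ y₉`. -/
@[reducible] def algebraRFy : Algebra (RatFunc Kbar) (FBar Kbar N) := (ringRFy N h9).toAlgebra

theorem algebraMap_RFy_apply (g : RatFunc Kbar) :
    ((@algebraMap (RatFunc Kbar) (FBar Kbar N) _ _ (algebraRFy N h9) g : FBar Kbar N) :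
      LaurentSeries Kbar) = GaussRing.evalRF (L9.y9R Kbar) transcendental_y9K g := rfl

theorem isScalarTower_RFy :
    @IsScalarTower Kbar (RatFunc Kbar) (FBar Kbar N) _ (algebraRFy N h9).toSMul _ := by
  letI := algebraRFy N h9
  refine IsScalarTower.of_algebraMap_eq fun c => Subtype.ext ?_
  rw [algebraMap_RFy_apply, AlgHom.commutes]
  rfl

theorem algebraMap_RFy_X :
    @algebraMap (RatFunc Kbar) (FBar Kbar N) _ _ (algebraRFy N h9) RatFunc.X =
      HauptRed.y9F N h9 := by
  apply Subtype.ext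
  rw [algebraMap_RFy_apply, GaussRing.evalRF_X]
  rfl

theorem algebraMap_RFy_algebraMap (P : Kbar[X]) :
    @algebraMap (RatFunc Kbar) (FBar Kbar N) _ _ (algebraRFy N h9)
        (algebraMap Kbar[X] (RatFunc Kbar) P) = aeval (HauptRed.y9F N h9) P := by
  apply Subtype.ext
  rw [algebraMap_RFy_apply, GaussRing.evalRF_algebraMap]
  exact Polynomial.aeval_algHom_apply (FBar Kbar N).val (HauptRed.y9F N h9) P

/-- `j · Q₉(y₉) = P₉(y₉)` in `F`. -/
theorem jF_mul_JQ :
    jF Kbar N * @algebraMap (RatFunc Kbar) (FBar Kbar N) _ _ (algebraRFy N h9)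
        (algebraMap Kbar[X] (RatFunc Kbar) (TLine9.JQ Kbar)) =
      @algebraMap (RatFunc Kbar) (FBar Kbar N) _ _ (algebraRFy N h9)
        (algebraMap Kbar[X] (RatFunc Kbar) (TLine9.JP Kbar)) := by
  apply Subtype.ext
  rw [MulMemClass.coe_mul, algebraMap_RFy_apply, algebraMap_RFy_apply,
    GaussRing.evalRF_algebraMap, GaussRing.evalRF_algebraMap]
  exact (TLine9.rel_inf (k := Kbar)).symm

include h9 in
/-- `[F : L(j)] = 12 [F : L(y₉)]`. -/
theorem finrank_jF_eq_twelve_mul :
    Module.finrank Kbar⟮jF Kbar N⟯ (FBar Kbar N) =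
      12 * @Module.finrank (RatFunc Kbar) (FBar Kbar N) _ _ (algebraRFy N h9).toModule := by
  letI := algebraRFy N h9
  haveI := isScalarTower_RFy N h9
  haveI : NeZero (N / 9) := ⟨by
    intro h0
    have := Nat.mul_div_cancel' h9
    rw [h0, mul_zero] at this
    exact NeZero.ne N this.symm⟩
  have hNK : ((N : ℕ) : Kbar) ≠ 0 := Nat.cast_ne_zero.mpr (NeZero.ne N)
  obtain ⟨h3, ⟨w, hw⟩, ζ, hζ⟩ := exists_roots Kbar N h9 hNK
  exact TLine9.finrank_adjoin_eq9 h3 hw (N / 9) ζ hζ (jF Kbar N) (jF_mul_JQ N h9)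

/-- `12 [F : L(y₉)] = ψ(N)`. -/
theorem twelve_mul_finrank_RFy :
    12 * @Module.finrank (RatFunc Kbar) (FBar Kbar N) _ _ (algebraRFy N h9).toModule =
      dedekindPsi N := by
  rw [← finrank_jF_eq_twelve_mul N h9]
  exact Fermat.Agent.Gateway.C0.LevelFacts.finrank_jF N

theorem finiteDimensional_RFy :
    @FiniteDimensional (RatFunc Kbar) (FBar Kbar N) _ _ (algebraRFy N h9).toModule := by
  letI := algebraRFy N h9
  apply Module.finite_of_finrank_pos
  have h1 := twelve_mul_finrank_RFy N h9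
  have h2 : 0 < dedekindPsi N := by
    rw [← Fermat.Agent.Gateway.C0.LevelFacts.finrank_jF N]
    haveI := Fermat.Agent.Gateway.C0.LevelFacts.finiteDimensional_jF Kbar N
    exact Module.finrank_pos
  omega

end LSide

/-! ### The `ȳ₉`-line on the special fibre -/

section KSide

variable (k : Type) [Field k] (N : ℕ) [NeZero N]
  (hmemk : L9.y9R k ∈ modularFunctionFieldFullC k N)

theorem transcendental_y9k : Transcendental k (L9.y9R k) :=
  transcendental_of_order_neg (y9R_order_neg k)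

include hmemk in
theorem adjoin_y9k_le : k⟮L9.y9R k⟯ ≤ modularFunctionFieldFullC k N := by
  rw [IntermediateField.adjoin_le_iff]
  rintro _ rfl
  exact hmemk

/-- `k(ȳ₉) → κ`, the inclusion. -/
@[reducible] def algebraKy : Algebra (k⟮L9.y9R k⟯) (modularFunctionFieldFullC k N) :=
  (IntermediateField.inclusion (adjoin_y9k_le k N hmemk)).toRingHom.toAlgebra

theorem coe_algebraMap_Ky (y : k⟮L9.y9R k⟯) :
    ((@algebraMap (k⟮L9.y9R k⟯) (modularFunctionFieldFullC k N) _ _ (algebraKy k N hmemk) y :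
      modularFunctionFieldFullC k N) : LaurentSeries k) = (y : LaurentSeries k) := by
  show ((IntermediateField.inclusion (adjoin_y9k_le k N hmemk) y : modularFunctionFieldFullC k N) :
    LaurentSeries k) = _
  exact IntermediateField.coe_inclusion _ _

/-- evaluation of rational functions at `ȳ₉`, as a ring hom into `κ`. -/
def ringRFyk : RatFunc k →+* modularFunctionFieldFullC k N :=
  (GaussRing.evalRF (L9.y9R k) (transcendental_y9k k)).toRingHom.codRestrict
    (modularFunctionFieldFullC k N)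
    fun g => adjoin_y9k_le k N hmemk (GaussRing.evalRF_mem_adjoin _ _ g)

/-- the `k(X)`-algebra structure on `κ`, `X ↦ ȳ₉`. -/
@[reducible] def algebraRFyk : Algebra (RatFunc k) (modularFunctionFieldFullC k N) :=
  (ringRFyk k N hmemk).toAlgebra

theorem algebraMap_RFyk_apply (g : RatFunc k) :
    ((@algebraMap (RatFunc k) (modularFunctionFieldFullC k N) _ _ (algebraRFyk k N hmemk) g :
      modularFunctionFieldFullC k N) : LaurentSeries k) =
      GaussRing.evalRF (L9.y9R k) (transcendental_y9k k) g := rfl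

theorem isScalarTower_RFyk :
    @IsScalarTower k (RatFunc k) (modularFunctionFieldFullC k N) _
      (algebraRFyk k N hmemk).toSMul _ := by
  letI := algebraRFyk k N hmemk
  refine IsScalarTower.of_algebraMap_eq fun c => Subtype.ext ?_
  rw [algebraMap_RFyk_apply, AlgHom.commutes]
  rfl

/-- `j̄ · Q₉(ȳ₉) = P₉(ȳ₉)` in `κ`. -/
theorem jFk_mul_JQ :
    ConjFamily.jFk k N * @algebraMap (RatFunc k) (modularFunctionFieldFullC k N) _ _
        (algebraRFyk k N hmemk) (algebraMap k[X] (RatFunc k) (TLine9.JQ k)) =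
      @algebraMap (RatFunc k) (modularFunctionFieldFullC k N) _ _ (algebraRFyk k N hmemk)
        (algebraMap k[X] (RatFunc k) (TLine9.JP k)) := by
  apply Subtype.ext
  rw [MulMemClass.coe_mul, algebraMap_RFyk_apply, algebraMap_RFyk_apply,
    GaussRing.evalRF_algebraMap, GaussRing.evalRF_algebraMap]
  exact (TLine9.rel_inf (k := k)).symm

variable [IsAlgClosed k] (h9 : 9 ∣ N) (hNk : (N : k) ≠ 0)

include h9 hNk in
/-- `12 [κ : k(ȳ₉)] = ψ(N)`. -/
theorem twelve_mul_finrank_RFyk :
    12 * @Module.finrank (RatFunc k) (modularFunctionFieldFullC k N) _ _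
      (algebraRFyk k N hmemk).toModule = dedekindPsi N := by
  letI := algebraRFyk k N hmemk
  haveI := isScalarTower_RFyk k N hmemk
  haveI : NeZero (N / 9) := ⟨by
    intro h0
    have := Nat.mul_div_cancel' h9
    rw [h0, mul_zero] at this
    exact NeZero.ne N this.symm⟩
  obtain ⟨h3, ⟨w, hw⟩, ζ, hζ⟩ := exists_roots k N h9 hNk
  rw [← TLine9.finrank_adjoin_eq9 h3 hw (N / 9) ζ hζ (ConjFamily.jFk k N) (jFk_mul_JQ k N hmemk)]
  exact ConjFamily.finrank_Fk_eq_dedekindPsi hNk

end KSide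

/-! ### The residue data of the `y₉`-line -/

section Main

variable (A : ValuationSubring Kbar) {k : Type} [Field k] (π : A →+* k) (N : ℕ)
  [IsAlgClosed k] (ℓ : ℕ) [Fact ℓ.Prime] [CharP k ℓ] [NeZero N]
  (hπ : Function.Surjective π) (hℓN : ¬ ℓ ∣ N) (h9 : 9 ∣ N)

include hℓN in
theorem natCast_ne_zero_k : ((N : ℕ) : k) ≠ 0 := by
  rw [Ne, CharP.cast_eq_zero_iff k ℓ]
  exact hℓN

/-- the order of `y₉` over `A`. -/
theorem y9A_order_neg : (L9.y9R ↥A).order < 0 := y9R_order_neg ↥A

/-- the lowest coefficient of `y₉` over `A`. -/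
theorem y9A_isUnit_leadingCoeff : IsUnit (L9.y9R ↥A).leadingCoeff := y9R_isUnit_leadingCoeff ↥A

theorem embA_y9A : embA A (L9.y9R ↥A) = L9.y9R Kbar :=
  (HauptRed.coeffMap_int_eq_embA A L9.y9).symm

theorem redA_y9A : redA A π (L9.y9R ↥A) = L9.y9R k :=
  HauptRed.redA_coeffMap_int A π L9.y9

include hπ hℓN h9 in
theorem y9R_mem_Fk : L9.y9R k ∈ modularFunctionFieldFullC k N :=
  HauptRed.y9k_mem_Fk A π N ℓ hπ hℓN h9

theorem hcompat (g : RatFunc Kbar) :
    ((@algebraMap (RatFunc Kbar) (FBar Kbar N) _ _ (algebraRFy N h9) g : FBar Kbar N) :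
      LaurentSeries Kbar) =
    GaussRing.evalRF (embA A (L9.y9R ↥A)) (GaussRing.transcendental_embA (y9A_order_neg A)) g := by
  rw [algebraMap_RFy_apply,
    GaussDataT.evalRF_congr' (embA_y9A A) (GaussRing.transcendental_embA (y9A_order_neg A))
      transcendental_y9K]

theorem hcompatk (hmemk : L9.y9R k ∈ modularFunctionFieldFullC k N) (g : RatFunc k) :
    ((@algebraMap (RatFunc k) (modularFunctionFieldFullC k N) _ _ (algebraRFyk k N hmemk) g :
      modularFunctionFieldFullC k N) : LaurentSeries k) =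
    GaussRing.evalRF (redA A π (L9.y9R ↥A))
      (GaussRing.transcendental_redA (y9A_order_neg A) (y9A_isUnit_leadingCoeff A)) g := by
  rw [algebraMap_RFyk_apply,
    GaussDataT.evalRF_congr' (redA_y9A A π)
      (GaussRing.transcendental_redA (y9A_order_neg A) (y9A_isUnit_leadingCoeff A))
      (transcendental_y9k k)]

include hπ hℓN in
/-- `[F : L(y₉)] = [κ : k(X)]` (`X ↦ ȳ₉`). -/
theorem finrank_RFy_eq_finrank_RFyk (hmemk : L9.y9R k ∈ modularFunctionFieldFullC k N) :
    @Module.finrank (RatFunc Kbar) (FBar Kbar N) _ _ (algebraRFy N h9).toModule =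
      @Module.finrank (RatFunc k) (modularFunctionFieldFullC k N) _ _
        (algebraRFyk k N hmemk).toModule := by
  have h1 := twelve_mul_finrank_RFy N h9
  have h2 := twelve_mul_finrank_RFyk k N hmemk h9 (natCast_ne_zero_k N ℓ hℓN)
  omega

/-- **Igusa on the `y₉`-line**: the Gauss valuation of `F / L(y₉)` has full residue degree. -/
theorem gaussDataY_full (hmemk : L9.y9R k ∈ modularFunctionFieldFullC k N) :
    letI := algebraRFy N h9
    letI := algebraRFyk k N hmemk
    (GaussDataT.gaussDataT A π N ℓ hπ hℓN (y9A_order_neg A) (y9A_isUnit_leadingCoeff A)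
      (hcompat A N h9) (hcompatk A π N hmemk)).FullResidueDegree := by
  letI := algebraRFy N h9
  letI := algebraRFyk k N hmemk
  haveI := finiteDimensional_RFy N h9
  exact GaussDataT.gaussDataT_full A π N ℓ hπ hℓN (y9A_order_neg A) (y9A_isUnit_leadingCoeff A)
    (hcompat A N h9) (hcompatk A π N hmemk)
    (le_of_eq (finrank_RFy_eq_finrank_RFyk A π N ℓ hπ hℓN h9 hmemk))

/-- **(I1.3a)** the trace of an element of `OvVal` over `L(y₉)` lies in the Gauss valuation ring
of `L(X)`. -/
theorem trace_mem_Ox (f : OvVal A π N ℓ hπ hℓN) :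
    letI := algebraRFy N h9
    Algebra.trace (RatFunc Kbar) (FBar Kbar N) (f : FBar Kbar N) ∈
      GaussRing.Ox (ξ := L9.y9R ↥A) hπ (y9A_order_neg A) (y9A_isUnit_leadingCoeff A) := by
  letI := algebraRFy N h9
  have hmemk := y9R_mem_Fk A π N ℓ hπ hℓN h9
  letI := algebraRFyk k N hmemk
  haveI := finiteDimensional_RFy N h9
  exact GaussDataT.trace_mem_Ox A π N ℓ hπ hℓN (y9A_order_neg A) (y9A_isUnit_leadingCoeff A)
    (hcompat A N h9) (hcompatk A π N hmemk) (gaussDataY_full A π N ℓ hπ hℓN h9 hmemk) f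

/-- **(I1.3b)** ... and its reduction is the trace of the reduction over `k(ȳ₉)`
(equality of the underlying Laurent series). -/
theorem redOx_trace (hmemk : L9.y9R k ∈ modularFunctionFieldFullC k N)
    (f : OvVal A π N ℓ hπ hℓN) :
    letI := algebraRFy N h9
    letI := algebraKy k N hmemk
    ((GaussRing.redOx hπ (y9A_order_neg A) (y9A_isUnit_leadingCoeff A)
      ⟨Algebra.trace (RatFunc Kbar) (FBar Kbar N) (f : FBar Kbar N),
        trace_mem_Ox A π N ℓ hπ hℓN h9 f⟩ : k⟮redA A π (L9.y9R ↥A)⟯) : LaurentSeries k) =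
    ((Algebra.trace (k⟮L9.y9R k⟯) (modularFunctionFieldFullC k N) (resFk A π N ℓ hπ hℓN f) :
      k⟮L9.y9R k⟯) : LaurentSeries k) := by
  letI := algebraRFy N h9
  letI := algebraRFyk k N hmemk
  letI := algebraKy k N hmemk
  haveI := finiteDimensional_RFy N h9
  exact GaussDataT.redOx_trace A π N ℓ hπ hℓN (y9A_order_neg A) (y9A_isUnit_leadingCoeff A)
    (hcompat A N h9) (hcompatk A π N hmemk) (gaussDataY_full A π N ℓ hπ hℓN h9 hmemk)
    (L9.y9R k) (redA_y9A A π) (coe_algebraMap_Ky k N hmemk) f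

include hπ hℓN in
/-- **(I1.4)** `[κ : k(ȳ₉)] = [F : L(y₉)]`. -/
theorem finrank_Ky_eq (hmemk : L9.y9R k ∈ modularFunctionFieldFullC k N) :
    @Module.finrank (k⟮L9.y9R k⟯) (modularFunctionFieldFullC k N) _ _
        (algebraKy k N hmemk).toModule =
      @Module.finrank (RatFunc Kbar) (FBar Kbar N) _ _ (algebraRFy N h9).toModule := by
  letI := algebraRFy N h9
  letI := algebraRFyk k N hmemk
  letI := algebraKy k N hmemk
  haveI := finiteDimensional_RFy N h9
  rw [finrank_RFy_eq_finrank_RFyk A π N ℓ hπ hℓN h9 hmemk]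
  exact GaussDataT.finrank_adjoin_eq A π N (y9A_order_neg A) (y9A_isUnit_leadingCoeff A)
    (hcompatk A π N hmemk) (L9.y9R k) (redA_y9A A π) (coe_algebraMap_Ky k N hmemk)

/-- **Gauss integrality of traces**, quotient form (shape of `S16/Two/Core.GaussInt`). -/
theorem exists_trace_eq_div (f : OvVal A π N ℓ hπ hℓN) :
    letI := algebraRFy N h9
    ∃ a b : (↥A)[X], (∃ i, IsUnit (b.coeff i)) ∧
      Algebra.trace (RatFunc Kbar) (FBar Kbar N) (f : FBar Kbar N) =
        GaussDataT.rfA A a / GaussDataT.rfA A b := by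
  letI := algebraRFy N h9
  have hmemk := y9R_mem_Fk A π N ℓ hπ hℓN h9
  letI := algebraRFyk k N hmemk
  haveI := finiteDimensional_RFy N h9
  exact GaussDataT.exists_trace_eq_div A π N ℓ hπ hℓN (y9A_order_neg A)
    (y9A_isUnit_leadingCoeff A) (hcompat A N h9) (hcompatk A π N hmemk)
    (gaussDataY_full A π N ℓ hπ hℓN h9 hmemk) f

/-- **reduction of traces**, quotient form over `k(X)`, `X ↦ ȳ₉`
(shape of `hred` in `S16/Two/FinalAbs.false_of_data`). -/
theorem trace_res_mul_eq (hmemk : L9.y9R k ∈ modularFunctionFieldFullC k N)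
    (f : OvVal A π N ℓ hπ hℓN) (a b : (↥A)[X]) (hb : b ≠ 0) :
    letI := algebraRFy N h9
    letI := algebraRFyk k N hmemk
    Algebra.trace (RatFunc Kbar) (FBar Kbar N) (f : FBar Kbar N) =
        GaussDataT.rfA A a / GaussDataT.rfA A b →
      Algebra.trace (RatFunc k) (modularFunctionFieldFullC k N) (resFk A π N ℓ hπ hℓN f) *
        GaussDataT.rfk A π b = GaussDataT.rfk A π a := by
  letI := algebraRFy N h9
  letI := algebraRFyk k N hmemk
  haveI := finiteDimensional_RFy N h9
  exact GaussDataT.trace_res_mul_eq A π N ℓ hπ hℓN (y9A_order_neg A)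
    (y9A_isUnit_leadingCoeff A) (hcompat A N h9) (hcompatk A π N hmemk)
    (gaussDataY_full A π N ℓ hπ hℓN h9 hmemk) f a b hb

end Main

end Fermat.Agent.Gateway.GoodRed.GaussDataHaupt
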