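import Mathlib
import Fermat.Agent.Gateway.GoodRed.Instantiate.GaussDataT
import Fermat.Agent.Gateway.GoodRed.Instantiate.IntegralRed

/-!
# P-GATEWAY (c) GoodRed: integrality over `L[t]`, `L[1/t]` reduces, for a general parameter `t`

Setting of `GaussDataT`: `RatFunc L` acts on `F = FBar L N` through `X ↦ t = embA ξ`, `RatFunc k` on
`κ` through `X ↦ t̄`, and the Gauss valuation has full residue degree over `L(t)`
(`H : (gaussDataT ..).FullResidueDegree`).  With `tF := algebraMap (RatFunc L) F X` and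
`tk := algebraMap (RatFunc k) κ X`:

* `isIntegral_resFk_of_isIntegral_t`    : `f ∈ OvVal` integral over `L[tF]` ⇒ `resFk f` integral over
  `k[tk]`;
* `isIntegral_resFk_of_isIntegral_tinv` : the same with `tF⁻¹`, `tk⁻¹`.
-/

set_option autoImplicit false
set_option linter.unusedSectionVars false
set_option linter.style.haveILetI false

noncomputable section

namespace Fermat.Agent.Gateway.GoodRed.IntegralRedT

open Polynomial ModularCurve Fermat.Agent.S28 Fermat.Agent.S28.Tower Fermat.Agent.Gateway.Red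
open IntermediateField Fermat.Agent.Gateway.GoodRed.GaussDataT
open Fermat.Agent.Gateway.GoodRed.IntegralRed

variable {L : Type*} [Field L] [Algebra ℚ L] (A : ValuationSubring L)
  {k : Type} [Field k] (π : A →+* k) (N : ℕ)
  [IsAlgClosed k] (ℓ : ℕ) [Fact ℓ.Prime] [CharP k ℓ] [NeZero N]
  (hπ : Function.Surjective π) (hℓN : ¬ ℓ ∣ N)
  {ξ : LaurentSeries A} (hord : ξ.order < 0) (hlc : IsUnit ξ.leadingCoeff)
  [Algebra (RatFunc L) (FBar L N)]
  (hcompat : ∀ g : RatFunc L, ((algebraMap (RatFunc L) (FBar L N) g : FBar L N) : LaurentSeries L) =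
    GaussRing.evalRF (embA A ξ) (GaussRing.transcendental_embA hord) g)
  [Algebra (RatFunc k) (modularFunctionFieldFullC k N)]
  (hcompatk : ∀ g : RatFunc k,
    ((algebraMap (RatFunc k) (modularFunctionFieldFullC k N) g : modularFunctionFieldFullC k N) :
      LaurentSeries k) =
    GaussRing.evalRF (redA A π ξ) (GaussRing.transcendental_redA hord hlc) g)

/-! ### Scalar towers -/

include hcompat in
theorem isScalarTower_L : IsScalarTower L (RatFunc L) (FBar L N) := by
  refine IsScalarTower.of_algebraMap_eq fun c => Subtype.ext ?_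
  rw [hcompat, AlgHom.commutes]
  rfl

include hcompatk in
theorem isScalarTower_k : IsScalarTower k (RatFunc k) (modularFunctionFieldFullC k N) := by
  refine IsScalarTower.of_algebraMap_eq fun c => Subtype.ext ?_
  rw [hcompatk, AlgHom.commutes]
  rfl

/-! ### The hypothesis `hR` of `isIntegral_red'` -/

include hcompat hlc in
theorem exists_eq_rfA_of_aeval_X
    (c : GaussExt.baseVal (RatFunc L) (OvVal A π N ℓ hπ hℓN)) (P : L[X])
    (hc : (c : RatFunc L) = aeval (RatFunc.X : RatFunc L) P) :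
    ∃ P₀ : A[X], P = P₀.map A.subtype := by
  have h1 := (GaussDataT.mem_baseVal_iff A π N ℓ hπ hℓN hord hlc hcompat (c : RatFunc L)).mp c.2
  rw [hc, RatFunc.aeval_X_left_eq_algebraMap] at h1
  obtain ⟨P₀, hP₀⟩ := GaussRing.exists_map_subtype_eq A
    ((GaussRing.algebraMap_mem_Ox_iff _ _ _ P).mp h1)
  exact ⟨P₀, hP₀.symm⟩

include hcompat hlc in
theorem X_mem_baseVal :
    (RatFunc.X : RatFunc L) ∈ GaussExt.baseVal (RatFunc L) (OvVal A π N ℓ hπ hℓN) := by
  rw [GaussDataT.mem_baseVal_iff A π N ℓ hπ hℓN hord hlc hcompat]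
  exact GaussRing.X_mem_Ox _ _ _

include hcompat hlc in
theorem exists_eq_rfA_of_aeval_X_inv
    (c : GaussExt.baseVal (RatFunc L) (OvVal A π N ℓ hπ hℓN)) (P : L[X])
    (hc : (c : RatFunc L) = aeval ((RatFunc.X : RatFunc L)⁻¹) P) :
    ∃ P₀ : A[X], P = P₀.map A.subtype := by
  have h0 : (c : RatFunc L) * RatFunc.X ^ P.natDegree ∈
      GaussExt.baseVal (RatFunc L) (OvVal A π N ℓ hπ hℓN) :=
    mul_mem c.2 (pow_mem (X_mem_baseVal A π N ℓ hπ hℓN hord hlc hcompat) _)
  have h1 := (GaussDataT.mem_baseVal_iff A π N ℓ hπ hℓN hord hlc hcompat _).mp h0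
  rw [hc, aeval_X_inv_mul_pow P P.natDegree le_rfl] at h1
  have h2 := (GaussRing.algebraMap_mem_Ox_iff _ _ _ _).mp h1
  have h3 : ∀ n, P.coeff n ∈ A := by
    intro n
    have h3 := h2 (Polynomial.revAt P.natDegree n)
    rwa [Polynomial.coeff_reflect, Polynomial.revAt_invol] at h3
  obtain ⟨P₀, hP₀⟩ := GaussRing.exists_map_subtype_eq A h3
  exact ⟨P₀, hP₀.symm⟩

theorem rfA_X : rfA A (X : A[X]) = (RatFunc.X : RatFunc L) := by
  rw [rfA, Polynomial.map_X, RatFunc.algebraMap_X]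

theorem rfk_X : rfk A π (X : A[X]) = (RatFunc.X : RatFunc k) := by
  rw [rfk, Polynomial.map_X, RatFunc.algebraMap_X]

theorem redx_X :
    GaussDataT.redx A π N ℓ hπ hℓN hord hlc hcompat
      ⟨RatFunc.X, X_mem_baseVal A π N ℓ hπ hℓN hord hlc hcompat⟩ = RatFunc.X := by
  have h := redx_rfA A π N ℓ hπ hℓN hord hlc hcompat (X : A[X])
  rw [rfk_X] at h
  rw [← h]
  congr 1
  exact Subtype.ext (rfA_X A).symm

theorem hR_X (c : GaussExt.baseVal (RatFunc L) (OvVal A π N ℓ hπ hℓN))
    (hc : IsIntegral (Algebra.adjoin L {(RatFunc.X : RatFunc L)}) (c : RatFunc L)) :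
    IsIntegral (Algebra.adjoin k {(RatFunc.X : RatFunc k)})
      (GaussDataT.redx A π N ℓ hπ hℓN hord hlc hcompat c) := by
  obtain ⟨P, hP⟩ := exists_eq_aeval_X_of_isIntegral hc
  obtain ⟨P₀, rfl⟩ := exists_eq_rfA_of_aeval_X A π N ℓ hπ hℓN hord hlc hcompat c P hP
  have hc' : c = ⟨rfA A P₀, rfA_mem_baseVal A π N ℓ hπ hℓN hord hlc hcompat P₀⟩ := by
    apply Subtype.ext
    rw [hP, RatFunc.aeval_X_left_eq_algebraMap]
    rfl
  have hmem : GaussDataT.redx A π N ℓ hπ hℓN hord hlc hcompat c ∈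
      Algebra.adjoin k {(RatFunc.X : RatFunc k)} := by
    rw [hc', redx_rfA, rfk, ← RatFunc.aeval_X_left_eq_algebraMap,
      Algebra.adjoin_singleton_eq_range_aeval]
    exact ⟨P₀.map π, rfl⟩
  exact isIntegral_algebraMap (x := (⟨_, hmem⟩ : Algebra.adjoin k {(RatFunc.X : RatFunc k)}))

theorem hR_X_inv (c : GaussExt.baseVal (RatFunc L) (OvVal A π N ℓ hπ hℓN))
    (hc : IsIntegral (Algebra.adjoin L {(RatFunc.X : RatFunc L)⁻¹}) (c : RatFunc L)) :
    IsIntegral (Algebra.adjoin k {(RatFunc.X : RatFunc k)⁻¹})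
      (GaussDataT.redx A π N ℓ hπ hℓN hord hlc hcompat c) := by
  obtain ⟨P, hP⟩ := exists_eq_aeval_X_inv_of_isIntegral hc
  obtain ⟨P₀, rfl⟩ := exists_eq_rfA_of_aeval_X_inv A π N ℓ hπ hℓN hord hlc hcompat c P hP
  set n := (P₀.map A.subtype).natDegree with hn
  -- `c * X ^ n = rfA (reflect n P₀)`
  have h1 : c * ⟨RatFunc.X, X_mem_baseVal A π N ℓ hπ hℓN hord hlc hcompat⟩ ^ n =
      ⟨rfA A (P₀.reflect n), rfA_mem_baseVal A π N ℓ hπ hℓN hord hlc hcompat _⟩ := by
    apply Subtype.ext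
    show (c : RatFunc L) * RatFunc.X ^ n = rfA A (P₀.reflect n)
    rw [hP, aeval_X_inv_mul_pow _ n le_rfl, rfA, Polynomial.reflect_map]
  have h2 := congrArg (GaussDataT.redx A π N ℓ hπ hℓN hord hlc hcompat) h1
  rw [map_mul, map_pow, redx_X, redx_rfA] at h2
  have hdeg : (P₀.map π).natDegree ≤ n := by
    refine le_trans (Polynomial.natDegree_map_le) ?_
    rw [hn, Polynomial.natDegree_map_eq_of_injective Subtype.val_injective]
  have h3 : GaussDataT.redx A π N ℓ hπ hℓN hord hlc hcompat c =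
      aeval ((RatFunc.X : RatFunc k)⁻¹) (P₀.map π) := by
    have hX : (RatFunc.X : RatFunc k) ^ n ≠ 0 := pow_ne_zero _ RatFunc.X_ne_zero
    apply mul_right_cancel₀ hX
    rw [h2, aeval_X_inv_mul_pow _ n hdeg, rfk, Polynomial.reflect_map]
  have hmem : GaussDataT.redx A π N ℓ hπ hℓN hord hlc hcompat c ∈
      Algebra.adjoin k {(RatFunc.X : RatFunc k)⁻¹} := by
    rw [h3, Algebra.adjoin_singleton_eq_range_aeval]
    exact ⟨P₀.map π, rfl⟩
  exact isIntegral_algebraMap (x := (⟨_, hmem⟩ : Algebra.adjoin k {(RatFunc.X : RatFunc k)⁻¹}))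

/-! ### The transfer -/

variable [FiniteDimensional (RatFunc L) (FBar L N)]
  (H : (gaussDataT A π N ℓ hπ hℓN hord hlc hcompat hcompatk).FullResidueDegree)

include H in
/-- integrality over `L[t]` reduces to integrality over `k[t̄]`. -/
theorem isIntegral_resFk_of_isIntegral_t (f : FBar L N) (hf : f ∈ OvVal A π N ℓ hπ hℓN)
    (h : IsIntegral (Algebra.adjoin L {algebraMap (RatFunc L) (FBar L N) RatFunc.X}) f) :
    IsIntegral (Algebra.adjoin k {algebraMap (RatFunc k) (modularFunctionFieldFullC k N) RatFunc.X})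
      (resFk A π N ℓ hπ hℓN ⟨f, hf⟩) := by
  haveI := isScalarTower_L A N hord hcompat
  haveI := isScalarTower_k A π N hord hlc hcompatk
  have h1 : IsIntegral (Algebra.adjoin L {(RatFunc.X : RatFunc L)}) f := by
    refine isIntegral_of_range_le ?_ h
    exact range_algebraMap_adjoin_ge (R := L) (A := RatFunc L) (B := FBar L N) RatFunc.X
  have h2 := GaussExt.ResidueData.FullResidueDegree.isIntegral_red'
    (gaussDataT A π N ℓ hπ hℓN hord hlc hcompat hcompatk) H
    (R1 := Algebra.adjoin L {(RatFunc.X : RatFunc L)})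
    (R1k := Algebra.adjoin k {(RatFunc.X : RatFunc k)})
    (hR_X A π N ℓ hπ hℓN hord hlc hcompat) ⟨f, hf⟩ h1
  refine isIntegral_of_range_le ?_ h2
  exact range_algebraMap_adjoin_le (R := k) (A := RatFunc k)
    (B := modularFunctionFieldFullC k N) RatFunc.X

include H in
/-- integrality over `L[1/t]` reduces to integrality over `k[1/t̄]`. -/
theorem isIntegral_resFk_of_isIntegral_tinv (f : FBar L N) (hf : f ∈ OvVal A π N ℓ hπ hℓN)
    (h : IsIntegral (Algebra.adjoin L {(algebraMap (RatFunc L) (FBar L N) RatFunc.X)⁻¹}) f) :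
    IsIntegral
      (Algebra.adjoin k {(algebraMap (RatFunc k) (modularFunctionFieldFullC k N) RatFunc.X)⁻¹})
      (resFk A π N ℓ hπ hℓN ⟨f, hf⟩) := by
  haveI := isScalarTower_L A N hord hcompat
  haveI := isScalarTower_k A π N hord hlc hcompatk
  have h1 : IsIntegral (Algebra.adjoin L {(RatFunc.X : RatFunc L)⁻¹}) f := by
    refine isIntegral_of_range_le ?_ h
    rw [← map_inv₀]
    exact range_algebraMap_adjoin_ge (R := L) (A := RatFunc L) (B := FBar L N) (RatFunc.X)⁻¹
  have h2 := GaussExt.ResidueData.FullResidueDegree.isIntegral_red'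
    (gaussDataT A π N ℓ hπ hℓN hord hlc hcompat hcompatk) H
    (R1 := Algebra.adjoin L {(RatFunc.X : RatFunc L)⁻¹})
    (R1k := Algebra.adjoin k {(RatFunc.X : RatFunc k)⁻¹})
    (hR_X_inv A π N ℓ hπ hℓN hord hlc hcompat) ⟨f, hf⟩ h1
  refine isIntegral_of_range_le ?_ h2
  rw [← map_inv₀]
  exact range_algebraMap_adjoin_le (R := k) (A := RatFunc k)
    (B := modularFunctionFieldFullC k N) (RatFunc.X)⁻¹

end Fermat.Agent.Gateway.GoodRed.IntegralRedT
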