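import Mathlib
import Fermat.Agent.Gateway.GoodRed.Instantiate.IntegralRedT
import Fermat.Agent.Gateway.GoodRed.Instantiate.HauptRed
import Fermat.Agent.Gateway.GoodRed.ConjFamily.Units

/-!
# P-GATEWAY (c) GoodRed: the level facts of (C0) for a general parameter `t` (element form)

`ξ : A((q))` with a pole whose leading coefficient is a unit, `t := embA ξ ∈ F = FBar L N`.
Then `tF : F`, `tF ∈ OvVal`, `tk := resFk tF = redA ξ`, both transcendental, and, with NO algebra
instance in the statements:

* `finiteDimensional_tk`, `finrank_tk_le` : `[κ : k(tk)] ≤ [F : L(tF)]`, finite;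
* if `[F : L(tF)] ≤ [κ : k(tk)]` (full residue degree):
  `isIntegral_resFk_of_isIntegral`, `isIntegral_resFk_of_isIntegral_inv` : integrality over
  `L[tF]` (resp. `L[1/tF]`) reduces to integrality over `k[tk]` (resp. `k[1/tk]`).

These are the hypotheses `hx hxO hxb hxbt hint1 hint2 hdeg` of `C0.exists_countData_spec` for
`x := tF`.
-/

set_option autoImplicit false
set_option linter.unusedSectionVars false
set_option linter.style.haveILetI false

noncomputable section

namespace Fermat.Agent.Gateway.GoodRed.TLineFacts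

open Polynomial ModularCurve Fermat.Agent.S28 Fermat.Agent.S28.Tower Fermat.Agent.Gateway.Red
open IntermediateField Module

/-! ### `K(X)`-algebras versus `K(t)`-algebras -/

section Pure

variable {K E : Type*} [Field K] [Field E] [Algebra K E] {t : E} (htr : Transcendental K t)
  [Algebra (RatFunc K) E]
  (hc : ∀ g : RatFunc K, algebraMap (RatFunc K) E g = GaussRing.evalRF t htr g)

include hc in
theorem algebraMap_algEquiv (g : RatFunc K) :
    algebraMap K⟮t⟯ E (RatFunc.algEquivOfTranscendental t htr g) = algebraMap (RatFunc K) E g := by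
  rw [hc]
  rfl

include hc in
theorem finrank_ratFunc_eq : finrank (RatFunc K) E = finrank K⟮t⟯ E := by
  refine Algebra.finrank_eq_of_equiv_equiv
    (RatFunc.algEquivOfTranscendental t htr).toRingEquiv (RingEquiv.refl E) ?_
  refine RingHom.ext fun g => ?_
  exact algebraMap_algEquiv htr hc g

include hc in
theorem finite_adjoin_of_finite [Module.Finite (RatFunc K) E] : Module.Finite K⟮t⟯ E := by
  refine Module.Finite.of_equiv_equiv
    ((RatFunc.algEquivOfTranscendental t htr).toRingEquiv) (RingEquiv.refl E) ?_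
  refine RingHom.ext fun g => ?_
  exact algebraMap_algEquiv htr hc g

include hc in
theorem finite_ratFunc_of_finite [Module.Finite K⟮t⟯ E] : Module.Finite (RatFunc K) E := by
  refine Module.Finite.of_equiv_equiv
    ((RatFunc.algEquivOfTranscendental t htr).toRingEquiv.symm) (RingEquiv.refl E) ?_
  refine RingHom.ext fun y => ?_
  obtain ⟨g, rfl⟩ := (RatFunc.algEquivOfTranscendental t htr).surjective y
  have h := algebraMap_algEquiv htr hc g
  show algebraMap (RatFunc K) E ((RatFunc.algEquivOfTranscendental t htr).symm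
    (RatFunc.algEquivOfTranscendental t htr g)) = algebraMap K⟮t⟯ E _
  rw [AlgEquiv.symm_apply_apply, h]

include hc in
theorem isSeparable_adjoin_of_isSeparable [Algebra.IsSeparable (RatFunc K) E] :
    Algebra.IsSeparable K⟮t⟯ E := by
  refine Algebra.IsSeparable.of_equiv_equiv
    ((RatFunc.algEquivOfTranscendental t htr).toRingEquiv) (RingEquiv.refl E) ?_
  refine RingHom.ext fun g => ?_
  exact algebraMap_algEquiv htr hc g

include hc in
theorem algebraMap_X_eq : algebraMap (RatFunc K) E RatFunc.X = t := by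
  rw [hc, GaussRing.evalRF_X]

include hc in
theorem isScalarTower_of_compat : IsScalarTower K (RatFunc K) E := by
  refine IsScalarTower.of_algebraMap_eq fun c => ?_
  rw [hc, AlgHom.commutes]

end Pure

/-- `evalRF` commutes with algebra homomorphisms. -/
theorem algHom_evalRF {K E E' : Type*} [Field K] [Field E] [Field E'] [Algebra K E] [Algebra K E']
    (φ : E →ₐ[K] E') {x : E} (hx : Transcendental K x) (hx' : Transcendental K (φ x))
    (g : RatFunc K) : φ (GaussRing.evalRF x hx g) = GaussRing.evalRF (φ x) hx' g := by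
  rw [GaussRing.evalRF_eq_rfEval, GaussRing.evalRF_eq_rfEval, Fermat.Agent.S28.rfEval_def,
    Fermat.Agent.S28.rfEval_def, map_div₀, Polynomial.aeval_algHom_apply,
    Polynomial.aeval_algHom_apply]


/-! ### The parameter `t = embA ξ` -/

section Param

variable {L : Type*} [Field L] [Algebra ℚ L] (A : ValuationSubring L)
  {k : Type} [Field k] (π : A →+* k) (N : ℕ)
  [IsAlgClosed k] (ℓ : ℕ) [Fact ℓ.Prime] [CharP k ℓ] [NeZero N]
  (hπ : Function.Surjective π) (hℓN : ¬ ℓ ∣ N)
  {ξ : LaurentSeries A} (hord : ξ.order < 0) (hlc : IsUnit ξ.leadingCoeff)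
  (hmem : embA A ξ ∈ FBar L N)

/-- `t = embA ξ` as an element of `F = FBar L N`. -/
def tF : FBar L N := ⟨embA A ξ, hmem⟩

theorem coe_tF : ((tF A N hmem : FBar L N) : LaurentSeries L) = embA A ξ := rfl

theorem tF_mem_OvVal : tF A N hmem ∈ OvVal A π N ℓ hπ hℓN := by
  rw [mem_OvVal_iff, mem_Ov_iff]
  exact embA_mem_gaussRing A π _

theorem coe_resFk_tF :
    ((resFk A π N ℓ hπ hℓN ⟨tF A N hmem, tF_mem_OvVal A π N ℓ hπ hℓN hmem⟩ :
      modularFunctionFieldFullC k N) : LaurentSeries k) = redA A π ξ := by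
  rw [coe_resFk, redV_of_eq_embA A π (FBar L N) _ (a := ξ) rfl]

include hπ hℓN hmem in
theorem redA_mem_Fk : redA A π ξ ∈ modularFunctionFieldFullC k N := by
  rw [← coe_resFk_tF A π N ℓ hπ hℓN hmem]
  exact Subtype.property _

/-- `t̄ = redA ξ` as an element of `κ = Fk k N`. -/
def tk : modularFunctionFieldFullC k N := ⟨redA A π ξ, redA_mem_Fk A π N ℓ hπ hℓN hmem⟩

theorem coe_tk :
    ((tk A π N ℓ hπ hℓN hmem : modularFunctionFieldFullC k N) : LaurentSeries k) = redA A π ξ :=
  rfl

theorem resFk_tF :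
    resFk A π N ℓ hπ hℓN ⟨tF A N hmem, tF_mem_OvVal A π N ℓ hπ hℓN hmem⟩ =
      tk A π N ℓ hπ hℓN hmem :=
  Subtype.ext (coe_resFk_tF A π N ℓ hπ hℓN hmem)

include hord in
theorem transcendental_tF : Transcendental L (tF A N hmem) := by
  apply (transcendental_algebraMap_iff
    (algebraMap (FBar L N) (LaurentSeries L)).injective).mp
  exact GaussRing.transcendental_embA hord

include hord hlc in
theorem transcendental_tk : Transcendental k (tk A π N ℓ hπ hℓN hmem) := by
  apply (transcendental_algebraMap_iff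
    (algebraMap (modularFunctionFieldFullC k N) (LaurentSeries k)).injective).mp
  exact GaussRing.transcendental_redA hord hlc

end Param

/-! ### The level facts for `t` -/

section Facts

open Fermat.Agent.Gateway.GoodRed.GaussDataT

variable {L : Type*} [Field L] [Algebra ℚ L] (A : ValuationSubring L)
  {k : Type} [Field k] (π : A →+* k) (N : ℕ)
  [IsAlgClosed k] (ℓ : ℕ) [Fact ℓ.Prime] [CharP k ℓ] [NeZero N]
  (hπ : Function.Surjective π) (hℓN : ¬ ℓ ∣ N)
  {ξ : LaurentSeries A} (hord : ξ.order < 0) (hlc : IsUnit ξ.leadingCoeff)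
  (hmem : embA A ξ ∈ FBar L N)

/-- the canonical `L(X)`-algebra structure is evaluation at `tF`. -/
theorem algebraRFt_eq_evalRF (g : RatFunc L) :
    @algebraMap (RatFunc L) (FBar L N) _ _ (algebraRFt A N hord hmem) g =
      GaussRing.evalRF (tF A N hmem) (transcendental_tF A N hord hmem) g := by
  apply Subtype.ext
  rw [algebraRFt_compat]
  exact (algHom_evalRF (FBar L N).val (transcendental_tF A N hord hmem)
    (GaussRing.transcendental_embA hord) g).symm

/-- the canonical `k(X)`-algebra structure is evaluation at `tk`. -/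
theorem algebraRFtk_eq_evalRF (g : RatFunc k) :
    @algebraMap (RatFunc k) (modularFunctionFieldFullC k N) _ _
        (algebraRFtk A π N hord hlc (redA_mem_Fk A π N ℓ hπ hℓN hmem)) g =
      GaussRing.evalRF (tk A π N ℓ hπ hℓN hmem)
        (transcendental_tk A π N ℓ hπ hℓN hord hlc hmem) g := by
  apply Subtype.ext
  rw [algebraRFtk_compat]
  exact (algHom_evalRF (modularFunctionFieldFullC k N).val
    (transcendental_tk A π N ℓ hπ hℓN hord hlc hmem)
    (GaussRing.transcendental_redA hord hlc) g).symm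

variable [FiniteDimensional L⟮tF A N hmem⟯ (FBar L N)]

include hord hlc in
/-- `κ / k(tk)` is finite. -/
theorem finiteDimensional_tk :
    FiniteDimensional k⟮tk A π N ℓ hπ hℓN hmem⟯ (modularFunctionFieldFullC k N) := by
  letI := algebraRFt A N hord hmem
  letI := algebraRFtk A π N hord hlc (redA_mem_Fk A π N ℓ hπ hℓN hmem)
  haveI : FiniteDimensional (RatFunc L) (FBar L N) :=
    finite_ratFunc_of_finite (transcendental_tF A N hord hmem) (algebraRFt_eq_evalRF A N hord hmem)
  haveI : FiniteDimensional (RatFunc k) (modularFunctionFieldFullC k N) :=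
    GaussExt.ResidueData.finiteDimensional_residue'
      (gaussDataT A π N ℓ hπ hℓN hord hlc (algebraRFt_compat A N hord hmem)
        (algebraRFtk_compat A π N hord hlc (redA_mem_Fk A π N ℓ hπ hℓN hmem)))
      (gaussDataT_red_surjective A π N ℓ hπ hℓN hord hlc _ _)
  exact finite_adjoin_of_finite (transcendental_tk A π N ℓ hπ hℓN hord hlc hmem)
    (algebraRFtk_eq_evalRF A π N ℓ hπ hℓN hord hlc hmem)

include hord hlc in
/-- the fundamental inequality `[κ : k(tk)] ≤ [F : L(tF)]`. -/
theorem finrank_tk_le :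
    finrank k⟮tk A π N ℓ hπ hℓN hmem⟯ (modularFunctionFieldFullC k N) ≤
      finrank L⟮tF A N hmem⟯ (FBar L N) := by
  letI := algebraRFt A N hord hmem
  letI := algebraRFtk A π N hord hlc (redA_mem_Fk A π N ℓ hπ hℓN hmem)
  haveI : FiniteDimensional (RatFunc L) (FBar L N) :=
    finite_ratFunc_of_finite (transcendental_tF A N hord hmem) (algebraRFt_eq_evalRF A N hord hmem)
  rw [← finrank_ratFunc_eq (transcendental_tF A N hord hmem) (algebraRFt_eq_evalRF A N hord hmem),
    ← finrank_ratFunc_eq (transcendental_tk A π N ℓ hπ hℓN hord hlc hmem)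
      (algebraRFtk_eq_evalRF A π N ℓ hπ hℓN hord hlc hmem)]
  exact GaussExt.ResidueData.finrank_residue_le
    (gaussDataT A π N ℓ hπ hℓN hord hlc (algebraRFt_compat A N hord hmem)
      (algebraRFtk_compat A π N hord hlc (redA_mem_Fk A π N ℓ hπ hℓN hmem)))
    (gaussDataT_red_surjective A π N ℓ hπ hℓN hord hlc _ _)

variable (hle : finrank L⟮tF A N hmem⟯ (FBar L N) ≤
  finrank k⟮tk A π N ℓ hπ hℓN hmem⟯ (modularFunctionFieldFullC k N))

include hle in
/-- full residue degree over `L(t)`, for the canonical algebra structures. -/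
theorem gaussDataT_full_of_le :
    letI := algebraRFt A N hord hmem
    letI := algebraRFtk A π N hord hlc (redA_mem_Fk A π N ℓ hπ hℓN hmem)
    haveI : FiniteDimensional (RatFunc L) (FBar L N) :=
      finite_ratFunc_of_finite (transcendental_tF A N hord hmem)
        (algebraRFt_eq_evalRF A N hord hmem)
    (gaussDataT A π N ℓ hπ hℓN hord hlc (algebraRFt_compat A N hord hmem)
      (algebraRFtk_compat A π N hord hlc
        (redA_mem_Fk A π N ℓ hπ hℓN hmem))).FullResidueDegree := by
  letI := algebraRFt A N hord hmem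
  letI := algebraRFtk A π N hord hlc (redA_mem_Fk A π N ℓ hπ hℓN hmem)
  haveI : FiniteDimensional (RatFunc L) (FBar L N) :=
    finite_ratFunc_of_finite (transcendental_tF A N hord hmem) (algebraRFt_eq_evalRF A N hord hmem)
  refine gaussDataT_full A π N ℓ hπ hℓN hord hlc _ _ ?_
  rw [finrank_ratFunc_eq (transcendental_tF A N hord hmem) (algebraRFt_eq_evalRF A N hord hmem),
    finrank_ratFunc_eq (transcendental_tk A π N ℓ hπ hℓN hord hlc hmem)
      (algebraRFtk_eq_evalRF A π N ℓ hπ hℓN hord hlc hmem)]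
  exact hle

include hord hlc hle in
/-- **(hint1)** integrality over `L[tF]` reduces to integrality over `k[tk]`. -/
theorem isIntegral_resFk_of_isIntegral (f : FBar L N) (hf : f ∈ OvVal A π N ℓ hπ hℓN)
    (h : IsIntegral (Algebra.adjoin L {tF A N hmem}) f) :
    IsIntegral (Algebra.adjoin k {tk A π N ℓ hπ hℓN hmem}) (resFk A π N ℓ hπ hℓN ⟨f, hf⟩) := by
  letI := algebraRFt A N hord hmem
  letI := algebraRFtk A π N hord hlc (redA_mem_Fk A π N ℓ hπ hℓN hmem)
  haveI : FiniteDimensional (RatFunc L) (FBar L N) :=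
    finite_ratFunc_of_finite (transcendental_tF A N hord hmem) (algebraRFt_eq_evalRF A N hord hmem)
  have H := gaussDataT_full_of_le A π N ℓ hπ hℓN hord hlc hmem hle
  have hX : algebraMap (RatFunc L) (FBar L N) RatFunc.X = tF A N hmem :=
    algebraMap_X_eq (transcendental_tF A N hord hmem) (algebraRFt_eq_evalRF A N hord hmem)
  have hXk : algebraMap (RatFunc k) (modularFunctionFieldFullC k N) RatFunc.X =
      tk A π N ℓ hπ hℓN hmem :=
    algebraMap_X_eq (transcendental_tk A π N ℓ hπ hℓN hord hlc hmem)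
      (algebraRFtk_eq_evalRF A π N ℓ hπ hℓN hord hlc hmem)
  rw [← hX] at h
  rw [← hXk]
  exact IntegralRedT.isIntegral_resFk_of_isIntegral_t A π N ℓ hπ hℓN hord hlc
    (algebraRFt_compat A N hord hmem)
    (algebraRFtk_compat A π N hord hlc (redA_mem_Fk A π N ℓ hπ hℓN hmem)) H f hf h

include hord hlc hle in
/-- **(hint2)** integrality over `L[1/tF]` reduces to integrality over `k[1/tk]`. -/
theorem isIntegral_resFk_of_isIntegral_inv (f : FBar L N) (hf : f ∈ OvVal A π N ℓ hπ hℓN)
    (h : IsIntegral (Algebra.adjoin L {(tF A N hmem)⁻¹}) f) :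
    IsIntegral (Algebra.adjoin k {(tk A π N ℓ hπ hℓN hmem)⁻¹})
      (resFk A π N ℓ hπ hℓN ⟨f, hf⟩) := by
  letI := algebraRFt A N hord hmem
  letI := algebraRFtk A π N hord hlc (redA_mem_Fk A π N ℓ hπ hℓN hmem)
  haveI : FiniteDimensional (RatFunc L) (FBar L N) :=
    finite_ratFunc_of_finite (transcendental_tF A N hord hmem) (algebraRFt_eq_evalRF A N hord hmem)
  have H := gaussDataT_full_of_le A π N ℓ hπ hℓN hord hlc hmem hle
  have hX : algebraMap (RatFunc L) (FBar L N) RatFunc.X = tF A N hmem :=
    algebraMap_X_eq (transcendental_tF A N hord hmem) (algebraRFt_eq_evalRF A N hord hmem)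
  have hXk : algebraMap (RatFunc k) (modularFunctionFieldFullC k N) RatFunc.X =
      tk A π N ℓ hπ hℓN hmem :=
    algebraMap_X_eq (transcendental_tk A π N ℓ hπ hℓN hord hlc hmem)
      (algebraRFtk_eq_evalRF A π N ℓ hπ hℓN hord hlc hmem)
  rw [← hX] at h
  rw [← hXk]
  exact IntegralRedT.isIntegral_resFk_of_isIntegral_tinv A π N ℓ hπ hℓN hord hlc
    (algebraRFt_compat A N hord hmem)
    (algebraRFtk_compat A π N hord hlc (redA_mem_Fk A π N ℓ hπ hℓN hmem)) H f hf h

include hord hlc hle in
theorem finrank_tk_eq :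
    finrank k⟮tk A π N ℓ hπ hℓN hmem⟯ (modularFunctionFieldFullC k N) =
      finrank L⟮tF A N hmem⟯ (FBar L N) :=
  le_antisymm (finrank_tk_le A π N ℓ hπ hℓN hord hlc hmem) hle

end Facts

/-! ### Integral series `x = q⁻¹ u`, `u(0) = 1` -/

section IntSeries

open Fermat.Agent.Gateway.AuxLevel
open Fermat.Agent.S28.H2 (qInv)

theorem coeff_qInv_mul (u : PowerSeries ℤ) (n : ℤ) :
    (qInv * ι u).coeff n = if n + 1 < 0 then 0 else PowerSeries.coeff (n + 1).natAbs u := by
  rw [qInv, HahnSeries.coeff_single_mul, one_mul, sub_neg_eq_add]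
  exact PowerSeries.coeff_coe _ _

variable {x : LaurentSeries ℤ} {u : PowerSeries ℤ} (hx : x = qInv * ι u)
  (hu : PowerSeries.constantCoeff u = 1) (R : Type*) [CommRing R]

include hx hu in
theorem coeffMap_int_coeff_neg_one : (coeffMap (Int.castRingHom R) x).coeff (-1) = 1 := by
  rw [coeffMap_coeff, hx, coeff_qInv_mul]
  simp only [neg_add_cancel, lt_self_iff_false, if_false, Int.natAbs_zero]
  rw [PowerSeries.coeff_zero_eq_constantCoeff_apply, hu, map_one]

include hx in
theorem coeffMap_int_coeff_of_lt {m : ℤ} (hm : m < -1) :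
    (coeffMap (Int.castRingHom R) x).coeff m = 0 := by
  rw [coeffMap_coeff, hx, coeff_qInv_mul, if_pos (by omega), map_zero]

variable [Nontrivial R]

include hx hu in
theorem coeffMap_int_order : (coeffMap (Int.castRingHom R) x).order = -1 :=
  (ConjFamily.order_eq_of_coeff (f := coeffMap (Int.castRingHom R) x) (n := -1)
    (by rw [coeffMap_int_coeff_neg_one hx hu R]; exact one_ne_zero)
    (fun _ hm => coeffMap_int_coeff_of_lt hx R hm)).1

include hx hu in
theorem coeffMap_int_leadingCoeff : (coeffMap (Int.castRingHom R) x).leadingCoeff = 1 := by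
  rw [(ConjFamily.order_eq_of_coeff (f := coeffMap (Int.castRingHom R) x) (n := -1)
    (by rw [coeffMap_int_coeff_neg_one hx hu R]; exact one_ne_zero)
    (fun _ hm => coeffMap_int_coeff_of_lt hx R hm)).2, coeffMap_int_coeff_neg_one hx hu R]

include hx hu in
theorem coeffMap_int_order_neg : (coeffMap (Int.castRingHom R) x).order < 0 := by
  rw [coeffMap_int_order hx hu R]; norm_num

include hx hu in
theorem coeffMap_int_isUnit_leadingCoeff :
    IsUnit (coeffMap (Int.castRingHom R) x).leadingCoeff := by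
  rw [coeffMap_int_leadingCoeff hx hu R]; exact isUnit_one

end IntSeries

/-! ### The level facts for an integral parameter -/

section IntFacts

open Fermat.Agent.Gateway.AuxLevel
open Fermat.Agent.S28.H2 (qInv)

variable {L : Type*} [Field L] [Algebra ℚ L] (A : ValuationSubring L)
  {k : Type} [Field k] (π : A →+* k) (N : ℕ)
  [IsAlgClosed k] (ℓ : ℕ) [Fact ℓ.Prime] [CharP k ℓ] [NeZero N]
  (hπ : Function.Surjective π) (hℓN : ¬ ℓ ∣ N)
  {x : LaurentSeries ℤ} {u : PowerSeries ℤ} (hx : x = qInv * ι u)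
  (hu : PowerSeries.constantCoeff u = 1)
  (xF : FBar L N) (hxF : (xF : LaurentSeries L) = coeffMap (Int.castRingHom L) x)
  (xk : modularFunctionFieldFullC k N)
  (hxk : (xk : LaurentSeries k) = coeffMap (Int.castRingHom k) x)

include hxF in
theorem int_embA_mem : embA A (coeffMap (Int.castRingHom A) x) ∈ FBar L N := by
  rw [← HauptRed.coeffMap_int_eq_embA A x, ← hxF]
  exact xF.2

include hxF in
theorem int_eq_tF (hmem : embA A (coeffMap (Int.castRingHom A) x) ∈ FBar L N) :
    xF = tF A N hmem := by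
  apply Subtype.ext
  rw [hxF, coe_tF, ← HauptRed.coeffMap_int_eq_embA A x]

include hxk in
theorem int_eq_tk (hmem : embA A (coeffMap (Int.castRingHom A) x) ∈ FBar L N) :
    xk = tk A π N ℓ hπ hℓN hmem := by
  apply Subtype.ext
  rw [hxk, coe_tk, HauptRed.redA_coeffMap_int A π x]

include hxF in
theorem int_mem_OvVal : xF ∈ OvVal A π N ℓ hπ hℓN := by
  rw [int_eq_tF A N xF hxF (int_embA_mem A N xF hxF)]
  exact tF_mem_OvVal A π N ℓ hπ hℓN _

include hxk in
theorem int_resFk : resFk A π N ℓ hπ hℓN ⟨xF, int_mem_OvVal A π N ℓ hπ hℓN xF hxF⟩ = xk := by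
  have hmem := int_embA_mem A N xF hxF
  rw [int_eq_tk A π N ℓ hπ hℓN xk hxk hmem]
  have h := resFk_tF A π N ℓ hπ hℓN hmem
  rw [← h]
  congr 1
  exact Subtype.ext (int_eq_tF A N xF hxF hmem)

include hx hu hxF in
theorem int_transcendental : Transcendental L xF := by
  apply (transcendental_algebraMap_iff
    (algebraMap (FBar L N) (LaurentSeries L)).injective).mp
  show Transcendental L (xF : LaurentSeries L)
  rw [hxF]
  exact Fermat.Agent.S28.transcendental_of_order_neg (coeffMap_int_order_neg hx hu L)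

include hx hu hxk in
theorem int_transcendental_k : Transcendental k xk := by
  apply (transcendental_algebraMap_iff
    (algebraMap (modularFunctionFieldFullC k N) (LaurentSeries k)).injective).mp
  show Transcendental k (xk : LaurentSeries k)
  rw [hxk]
  exact Fermat.Agent.S28.transcendental_of_order_neg (coeffMap_int_order_neg hx hu k)

variable [FiniteDimensional L⟮xF⟯ (FBar L N)]

include hx hu hxk hπ hℓN hxF in
theorem int_finiteDimensional_k : FiniteDimensional k⟮xk⟯ (modularFunctionFieldFullC k N) := by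
  have hmem := int_embA_mem A N xF hxF
  have e1 := int_eq_tF A N xF hxF hmem
  have e2 := int_eq_tk A π N ℓ hπ hℓN xk hxk hmem
  subst e2
  subst e1
  exact finiteDimensional_tk A π N ℓ hπ hℓN (coeffMap_int_order_neg hx hu A)
    (coeffMap_int_isUnit_leadingCoeff hx hu A) _

include hx hu hxk hπ hℓN hxF in
theorem int_finrank_le :
    finrank k⟮xk⟯ (modularFunctionFieldFullC k N) ≤ finrank L⟮xF⟯ (FBar L N) := by
  have hmem := int_embA_mem A N xF hxF
  have e1 := int_eq_tF A N xF hxF hmem
  have e2 := int_eq_tk A π N ℓ hπ hℓN xk hxk hmem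
  subst e2
  subst e1
  exact finrank_tk_le A π N ℓ hπ hℓN (coeffMap_int_order_neg hx hu A)
    (coeffMap_int_isUnit_leadingCoeff hx hu A) _

variable (hle : finrank L⟮xF⟯ (FBar L N) ≤ finrank k⟮xk⟯ (modularFunctionFieldFullC k N))

include hx hu hxF hxk hle in
/-- **(hint1)** for an integral parameter. -/
theorem int_isIntegral (f : FBar L N) (hf : f ∈ OvVal A π N ℓ hπ hℓN)
    (h : IsIntegral (Algebra.adjoin L {xF}) f) :
    IsIntegral (Algebra.adjoin k {xk}) (resFk A π N ℓ hπ hℓN ⟨f, hf⟩) := by
  have hmem := int_embA_mem A N xF hxF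
  have e1 := int_eq_tF A N xF hxF hmem
  have e2 := int_eq_tk A π N ℓ hπ hℓN xk hxk hmem
  subst e2
  subst e1
  exact isIntegral_resFk_of_isIntegral A π N ℓ hπ hℓN (coeffMap_int_order_neg hx hu A)
    (coeffMap_int_isUnit_leadingCoeff hx hu A) _ hle f hf h

include hx hu hxF hxk hle in
/-- **(hint2)** for an integral parameter. -/
theorem int_isIntegral_inv (f : FBar L N) (hf : f ∈ OvVal A π N ℓ hπ hℓN)
    (h : IsIntegral (Algebra.adjoin L {xF⁻¹}) f) :
    IsIntegral (Algebra.adjoin k {xk⁻¹}) (resFk A π N ℓ hπ hℓN ⟨f, hf⟩) := by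
  have hmem := int_embA_mem A N xF hxF
  have e1 := int_eq_tF A N xF hxF hmem
  have e2 := int_eq_tk A π N ℓ hπ hℓN xk hxk hmem
  subst e2
  subst e1
  exact isIntegral_resFk_of_isIntegral_inv A π N ℓ hπ hℓN (coeffMap_int_order_neg hx hu A)
    (coeffMap_int_isUnit_leadingCoeff hx hu A) _ hle f hf h

end IntFacts

end Fermat.Agent.Gateway.GoodRed.TLineFacts
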