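import Mathlib
import Fermat.Agent.Gateway.GoodRed.Instantiate.TLineFacts
import Fermat.Agent.Gateway.GoodRed.Instantiate.GaussDataHaupt
import Fermat.Agent.Gateway.GoodRed.TLine4
import Fermat.Agent.Gateway.GoodRed.TLine9
import Fermat.Agent.Gateway.C0.LevelFactsK

/-!
# P-GATEWAY (c) GoodRed / P-S34: the level facts of (C0) for the Hauptmoduln `x₄`, `y₉`, `y₉ - 3`

`TParamFacts A π N ℓ hπ hℓN xF xk` packages the hypotheses `hx hxO hxb hxbt hint1 hint2 hdeg`
(+ finiteness and separability) of `C0.exists_countData_spec` for the parameter `x := xF`,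
`xb := xk`.  It is proved for

* `x4F N h4`, `t4` (`4 ∣ N`) : `tParamFacts_x4`;
* `y9F N h9`, `t9` (`9 ∣ N`) : `tParamFacts_y9`;
* `y9F N h9 - 3`, `t9 - 3` (`9 ∣ N`) : `tParamFacts_z9`.
-/

set_option autoImplicit false
set_option linter.unusedSectionVars false
set_option linter.style.haveILetI false

noncomputable section

namespace Fermat.Agent.Gateway.GoodRed.TLineHaupt

open Polynomial ModularCurve Fermat.Agent.S28 Fermat.Agent.Gateway.Red
open Fermat.Agent.Gateway.AuxLevel Fermat.Agent.S24 Fermat.Agent.S24.Setup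
open IntermediateField Module Fermat.Agent.Gateway.GoodRed.TLineFacts

/-! ### Field theory -/

section Pure

variable {K E : Type*} [Field K] [Field E] [Algebra K E]

theorem mem_adjoin_of_mul_eq {t jE : E} (htr : Transcendental K t) {P Q : K[X]} (hQ : Q ≠ 0)
    (hj : jE * aeval t Q = aeval t P) : jE ∈ K⟮t⟯ := by
  have hQ0 : aeval t Q ≠ 0 := fun h0 => hQ ((transcendental_iff.mp htr) Q h0)
  have h1 : jE = aeval t P / aeval t Q := by
    rw [eq_div_iff hQ0, hj]
  rw [h1]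
  have hmem : ∀ R : K[X], aeval t R ∈ K⟮t⟯ := fun R => by
    apply IntermediateField.algebra_adjoin_le_adjoin K {t}
    rw [Algebra.adjoin_singleton_eq_range_aeval]
    exact ⟨R, rfl⟩
  exact div_mem (hmem P) (hmem Q)

theorem isSeparable_of_mem_adjoin {a b : E} (h : a ∈ K⟮b⟯) [Algebra.IsSeparable K⟮a⟯ E] :
    Algebra.IsSeparable K⟮b⟯ E := by
  have hle : K⟮a⟯ ≤ K⟮b⟯ := IntermediateField.adjoin_simple_le_iff.mpr h
  letI : Algebra K⟮a⟯ K⟮b⟯ := (IntermediateField.inclusion hle).toRingHom.toAlgebra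
  haveI : IsScalarTower K⟮a⟯ K⟮b⟯ E := IsScalarTower.of_algebraMap_eq fun _ => rfl
  exact Algebra.isSeparable_tower_top_of_isSeparable K⟮a⟯ K⟮b⟯ E

theorem adjoin_sub_algebraMap (t : E) (c : K) : K⟮t - algebraMap K E c⟯ = K⟮t⟯ := by
  apply le_antisymm
  · rw [IntermediateField.adjoin_simple_le_iff]
    exact sub_mem (IntermediateField.mem_adjoin_simple_self K t)
      (IntermediateField.algebraMap_mem _ c)
  · rw [IntermediateField.adjoin_simple_le_iff]
    have h2 : (t - algebraMap K E c) + algebraMap K E c ∈ K⟮t - algebraMap K E c⟯ :=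
      add_mem (IntermediateField.mem_adjoin_simple_self K _)
        (IntermediateField.algebraMap_mem _ c)
    rwa [sub_add_cancel] at h2

end Pure

/-! ### The degree counts `[E : K(j)] = 6 [E : K(x₄)]`, `= 12 [E : K(y₉)]` in element form -/

section Count

variable {K : Type*} [Field K] [IsAlgClosed K] (N : ℕ) [NeZero N]
  {E : Type*} [Field E] [Algebra K E] {t jE : E} (htr : Transcendental K t)

theorem exists_roots4 (h4 : 4 ∣ N) (hNK : (N : K) ≠ 0) :
    (2 : K) ≠ 0 ∧ ∃ ζ : Kˣ, IsPrimitiveRoot ζ (4 * (N / 4)) := by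
  have h2 : (2 : K) ≠ 0 := by
    intro h0
    apply hNK
    obtain ⟨m, rfl⟩ := h4
    push_cast
    have : (4 : K) = 2 * 2 := by norm_num
    rw [this, h0, zero_mul, zero_mul]
  refine ⟨h2, ?_⟩
  haveI : NeZero (N : K) := ⟨hNK⟩
  obtain ⟨ζ, hζ⟩ := HasEnoughRootsOfUnity.exists_primitiveRoot K N
  have hu : IsUnit ζ := hζ.isUnit (NeZero.ne N)
  refine ⟨hu.unit, ?_⟩
  rw [Nat.mul_div_cancel' h4, ← IsPrimitiveRoot.coe_units_iff]
  simpa using hζ

include htr in
/-- `[E : K(j)] = 6 [E : K(t)]` if `j Q₄(t) = P₄(t)`. -/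
theorem finrank_adjoin_j_eq_six_mul (h4 : 4 ∣ N) (hNK : (N : K) ≠ 0)
    (hj : jE * aeval t (TLine4.JQ K) = aeval t (TLine4.JP K)) :
    finrank K⟮jE⟯ E = 6 * finrank K⟮t⟯ E := by
  letI : Algebra (RatFunc K) E := (GaussRing.evalRF t htr).toRingHom.toAlgebra
  have hc : ∀ g : RatFunc K, algebraMap (RatFunc K) E g = GaussRing.evalRF t htr g := fun _ => rfl
  haveI : IsScalarTower K (RatFunc K) E := isScalarTower_of_compat htr hc
  haveI : NeZero (N / 4) := ⟨by
    intro h0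
    have := Nat.mul_div_cancel' h4
    rw [h0, mul_zero] at this
    exact NeZero.ne N this.symm⟩
  obtain ⟨h2, ζ, hζ⟩ := exists_roots4 (K := K) N h4 hNK
  rw [← finrank_ratFunc_eq htr hc]
  refine TLine4.finrank_adjoin_eq4 h2 (N / 4) ζ hζ jE ?_
  rw [hc, hc, GaussRing.evalRF_algebraMap, GaussRing.evalRF_algebraMap]
  exact hj

include htr in
/-- `[E : K(j)] = 12 [E : K(t)]` if `j Q₉(t) = P₉(t)`. -/
theorem finrank_adjoin_j_eq_twelve_mul (h9 : 9 ∣ N) (hNK : (N : K) ≠ 0)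
    (hj : jE * aeval t (TLine9.JQ K) = aeval t (TLine9.JP K)) :
    finrank K⟮jE⟯ E = 12 * finrank K⟮t⟯ E := by
  letI : Algebra (RatFunc K) E := (GaussRing.evalRF t htr).toRingHom.toAlgebra
  have hc : ∀ g : RatFunc K, algebraMap (RatFunc K) E g = GaussRing.evalRF t htr g := fun _ => rfl
  haveI : IsScalarTower K (RatFunc K) E := isScalarTower_of_compat htr hc
  haveI : NeZero (N / 9) := ⟨by
    intro h0
    have := Nat.mul_div_cancel' h9
    rw [h0, mul_zero] at this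
    exact NeZero.ne N this.symm⟩
  obtain ⟨h3, ⟨w, hw⟩, ζ, hζ⟩ := GaussDataHaupt.exists_roots K N h9 hNK
  rw [← finrank_ratFunc_eq htr hc]
  refine TLine9.finrank_adjoin_eq9 h3 hw (N / 9) ζ hζ jE ?_
  rw [hc, hc, GaussRing.evalRF_algebraMap, GaussRing.evalRF_algebraMap]
  exact hj

end Count

/-! ### The package -/

section Package

variable (A : ValuationSubring Kbar) {k : Type} [Field k] (π : A →+* k) (N : ℕ)
  [IsAlgClosed k] (ℓ : ℕ) [Fact ℓ.Prime] [CharP k ℓ] [NeZero N]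
  (hπ : Function.Surjective π) (hℓN : ¬ ℓ ∣ N)

/-- The level facts of (C0) for the parameter `x := xF`, `xb := xk`: the hypotheses
`hx hxO hxb hxbt hint1 hint2 hdeg` (+ finiteness, separability) of `C0.exists_countData_spec`. -/
structure TParamFacts (xF : FBar Kbar N) (xk : modularFunctionFieldFullC k N) : Prop where
  transcendental : Transcendental Kbar xF
  finite : FiniteDimensional Kbar⟮xF⟯ (FBar Kbar N)
  mem : xF ∈ OvVal A π N ℓ hπ hℓN
  res : ∀ h : xF ∈ OvVal A π N ℓ hπ hℓN, resFk A π N ℓ hπ hℓN ⟨xF, h⟩ = xk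
  transcendental_k : Transcendental k xk
  finite_k : FiniteDimensional k⟮xk⟯ (modularFunctionFieldFullC k N)
  separable_k : Algebra.IsSeparable k⟮xk⟯ (modularFunctionFieldFullC k N)
  finrank_le : finrank k⟮xk⟯ (modularFunctionFieldFullC k N) ≤ finrank Kbar⟮xF⟯ (FBar Kbar N)
  finrank_eq : finrank k⟮xk⟯ (modularFunctionFieldFullC k N) = finrank Kbar⟮xF⟯ (FBar Kbar N)
  integral : ∀ (f : FBar Kbar N) (hf : f ∈ OvVal A π N ℓ hπ hℓN),
    IsIntegral (Algebra.adjoin Kbar {xF}) f →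
      IsIntegral (Algebra.adjoin k {xk}) (resFk A π N ℓ hπ hℓN ⟨f, hf⟩)
  integral_inv : ∀ (f : FBar Kbar N) (hf : f ∈ OvVal A π N ℓ hπ hℓN),
    IsIntegral (Algebra.adjoin Kbar {xF⁻¹}) f →
      IsIntegral (Algebra.adjoin k {xk⁻¹}) (resFk A π N ℓ hπ hℓN ⟨f, hf⟩)

open Fermat.Agent.S28.H2 (qInv)

include hℓN in
theorem natCast_ne_zero_k : ((N : ℕ) : k) ≠ 0 := by
  rw [Ne, CharP.cast_eq_zero_iff k ℓ]
  exact hℓN

/-- The package for an integral parameter `x = q⁻¹ u`, from the equality of degrees and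
`j̄ ∈ k(x̄)`. -/
theorem tParamFacts_of_int {x : LaurentSeries ℤ} {u : PowerSeries ℤ} (hx : x = qInv * ι u)
    (hu : PowerSeries.constantCoeff u = 1)
    (xF : FBar Kbar N) (hxF : (xF : LaurentSeries Kbar) = coeffMap (Int.castRingHom Kbar) x)
    (xk : modularFunctionFieldFullC k N)
    (hxk : (xk : LaurentSeries k) = coeffMap (Int.castRingHom k) x)
    (hfin : FiniteDimensional Kbar⟮xF⟯ (FBar Kbar N))
    (hle : finrank Kbar⟮xF⟯ (FBar Kbar N) ≤ finrank k⟮xk⟯ (modularFunctionFieldFullC k N))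
    (hjk : ConjFamily.jFk k N ∈ k⟮xk⟯) :
    TParamFacts A π N ℓ hπ hℓN xF xk := by
  have hMk : ((N : ℕ) : k) ≠ 0 := natCast_ne_zero_k N ℓ hℓN
  haveI := Fermat.Agent.Gateway.C0.LevelFacts.isSeparable_jFk hMk
  have hle' := int_finrank_le A π N ℓ hπ hℓN hx hu xF hxF xk hxk
  exact
    { transcendental := int_transcendental N hx hu xF hxF
      finite := hfin
      mem := int_mem_OvVal A π N ℓ hπ hℓN xF hxF
      res := fun _ => int_resFk A π N ℓ hπ hℓN xF hxF xk hxk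
      transcendental_k := int_transcendental_k N hx hu xk hxk
      finite_k := int_finiteDimensional_k A π N ℓ hπ hℓN hx hu xF hxF xk hxk
      separable_k := isSeparable_of_mem_adjoin hjk
      finrank_le := hle'
      finrank_eq := le_antisymm hle' hle
      integral := int_isIntegral A π N ℓ hπ hℓN hx hu xF hxF xk hxk hle
      integral_inv := int_isIntegral_inv A π N ℓ hπ hℓN hx hu xF hxF xk hxk hle }

end Package

/-! ### The three Hauptmoduln -/

section Haupt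

theorem rel_of_coe {K E : Type*} [Field K] [Field E] [Algebra K E] (S : IntermediateField K E)
    {j t : S} {P Q : K[X]} (h : aeval (t : E) P = (j : E) * aeval (t : E) Q) :
    j * aeval t Q = aeval t P := by
  apply Subtype.ext
  rw [MulMemClass.coe_mul]
  have e : ∀ R : K[X], ((aeval t R : S) : E) = aeval (t : E) R := fun R =>
    (Polynomial.aeval_algHom_apply S.val t R).symm
  rw [e, e, h]

variable (A : ValuationSubring Kbar) {k : Type} [Field k] (π : A →+* k) (N : ℕ)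
  [IsAlgClosed k] (ℓ : ℕ) [Fact ℓ.Prime] [CharP k ℓ] [NeZero N]
  (hπ : Function.Surjective π) (hℓN : ¬ ℓ ∣ N)

theorem dedekindPsi_pos' : 0 < dedekindPsi N := by
  rw [← Fermat.Agent.Gateway.C0.LevelFacts.finrank_jF N]
  haveI := Fermat.Agent.Gateway.C0.LevelFacts.finiteDimensional_jF Kbar N
  exact Module.finrank_pos

/-! #### Level 4 -/

section Four

variable (h4 : 4 ∣ N)

theorem jF_mul_JQ4 :
    jF Kbar N * aeval (HauptRed.x4F N h4) (TLine4.JQ Kbar) =
      aeval (HauptRed.x4F N h4) (TLine4.JP Kbar) :=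
  rel_of_coe (FBar Kbar N) (TLine4.rel_inf (k := Kbar))

theorem jFk_mul_JQ4 :
    ConjFamily.jFk k N * aeval (HauptRed.t4 A π N ℓ hπ hℓN h4) (TLine4.JQ k) =
      aeval (HauptRed.t4 A π N ℓ hπ hℓN h4) (TLine4.JP k) :=
  rel_of_coe (modularFunctionFieldFullC k N) (TLine4.rel_inf (k := k))

theorem transcendental_x4F : Transcendental Kbar (HauptRed.x4F N h4) :=
  int_transcendental N (x := L4.x4) (u := L4.u4) rfl L4.constantCoeff_u4 _ rfl

theorem transcendental_t4 : Transcendental k (HauptRed.t4 A π N ℓ hπ hℓN h4) :=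
  int_transcendental_k N (x := L4.x4) (u := L4.u4) rfl L4.constantCoeff_u4 _ rfl

/-- `6 [F : L(x₄)] = ψ(N)`. -/
theorem six_mul_finrank_x4F :
    6 * finrank Kbar⟮HauptRed.x4F N h4⟯ (FBar Kbar N) = dedekindPsi N := by
  rw [← finrank_adjoin_j_eq_six_mul N (transcendental_x4F N h4) h4
    (Nat.cast_ne_zero.mpr (NeZero.ne N)) (jF_mul_JQ4 N h4)]
  exact Fermat.Agent.Gateway.C0.LevelFacts.finrank_jF N

include hℓN in
/-- `6 [κ : k(x̄₄)] = ψ(N)`. -/
theorem six_mul_finrank_t4 :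
    6 * finrank k⟮HauptRed.t4 A π N ℓ hπ hℓN h4⟯ (modularFunctionFieldFullC k N) =
      dedekindPsi N := by
  have hMk : ((N : ℕ) : k) ≠ 0 := natCast_ne_zero_k N ℓ hℓN
  rw [← finrank_adjoin_j_eq_six_mul N (transcendental_t4 A π N ℓ hπ hℓN h4) h4 hMk
    (jFk_mul_JQ4 A π N ℓ hπ hℓN h4)]
  exact Fermat.Agent.Gateway.C0.LevelFacts.finrank_jFk hMk

theorem finiteDimensional_x4F : FiniteDimensional Kbar⟮HauptRed.x4F N h4⟯ (FBar Kbar N) := by
  apply FiniteDimensional.of_finrank_pos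
  have h1 := six_mul_finrank_x4F N h4
  have h2 := dedekindPsi_pos' N
  omega

/-- **The level facts for `x₄`** (`4 ∣ N`, `ℓ ∤ N`). -/
theorem tParamFacts_x4 :
    TParamFacts A π N ℓ hπ hℓN (HauptRed.x4F N h4) (HauptRed.t4 A π N ℓ hπ hℓN h4) := by
  refine tParamFacts_of_int A π N ℓ hπ hℓN (x := L4.x4) (u := L4.u4) rfl L4.constantCoeff_u4
    _ rfl _ rfl (finiteDimensional_x4F N h4) ?_ ?_
  · have h1 := six_mul_finrank_x4F N h4
    have h2 := six_mul_finrank_t4 A π N ℓ hπ hℓN h4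
    omega
  · exact mem_adjoin_of_mul_eq (transcendental_t4 A π N ℓ hπ hℓN h4) TLine4.JQ_ne_zero
      (jFk_mul_JQ4 A π N ℓ hπ hℓN h4)

end Four

/-! #### Level 9 -/

section Nine

variable (h9 : 9 ∣ N)

theorem jF_mul_JQ9 :
    jF Kbar N * aeval (HauptRed.y9F N h9) (TLine9.JQ Kbar) =
      aeval (HauptRed.y9F N h9) (TLine9.JP Kbar) :=
  rel_of_coe (FBar Kbar N) (TLine9.rel_inf (k := Kbar))

theorem jFk_mul_JQ9 :
    ConjFamily.jFk k N * aeval (HauptRed.t9 A π N ℓ hπ hℓN h9) (TLine9.JQ k) =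
      aeval (HauptRed.t9 A π N ℓ hπ hℓN h9) (TLine9.JP k) :=
  rel_of_coe (modularFunctionFieldFullC k N) (TLine9.rel_inf (k := k))

theorem transcendental_y9F : Transcendental Kbar (HauptRed.y9F N h9) :=
  int_transcendental N (x := L9.y9) (u := L9.u9) rfl L9.constantCoeff_u9 _ rfl

theorem transcendental_t9 : Transcendental k (HauptRed.t9 A π N ℓ hπ hℓN h9) :=
  int_transcendental_k N (x := L9.y9) (u := L9.u9) rfl L9.constantCoeff_u9 _ rfl

/-- `12 [F : L(y₉)] = ψ(N)`. -/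
theorem twelve_mul_finrank_y9F :
    12 * finrank Kbar⟮HauptRed.y9F N h9⟯ (FBar Kbar N) = dedekindPsi N := by
  rw [← finrank_adjoin_j_eq_twelve_mul N (transcendental_y9F N h9) h9
    (Nat.cast_ne_zero.mpr (NeZero.ne N)) (jF_mul_JQ9 N h9)]
  exact Fermat.Agent.Gateway.C0.LevelFacts.finrank_jF N

include hℓN in
/-- `12 [κ : k(ȳ₉)] = ψ(N)`. -/
theorem twelve_mul_finrank_t9 :
    12 * finrank k⟮HauptRed.t9 A π N ℓ hπ hℓN h9⟯ (modularFunctionFieldFullC k N) =
      dedekindPsi N := by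
  have hMk : ((N : ℕ) : k) ≠ 0 := natCast_ne_zero_k N ℓ hℓN
  rw [← finrank_adjoin_j_eq_twelve_mul N (transcendental_t9 A π N ℓ hπ hℓN h9) h9 hMk
    (jFk_mul_JQ9 A π N ℓ hπ hℓN h9)]
  exact Fermat.Agent.Gateway.C0.LevelFacts.finrank_jFk hMk

theorem finiteDimensional_y9F : FiniteDimensional Kbar⟮HauptRed.y9F N h9⟯ (FBar Kbar N) := by
  apply FiniteDimensional.of_finrank_pos
  have h1 := twelve_mul_finrank_y9F N h9
  have h2 := dedekindPsi_pos' N
  omega

/-- **The level facts for `y₉`** (`9 ∣ N`, `ℓ ∤ N`). -/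
theorem tParamFacts_y9 :
    TParamFacts A π N ℓ hπ hℓN (HauptRed.y9F N h9) (HauptRed.t9 A π N ℓ hπ hℓN h9) := by
  refine tParamFacts_of_int A π N ℓ hπ hℓN (x := L9.y9) (u := L9.u9) rfl L9.constantCoeff_u9
    _ rfl _ rfl (finiteDimensional_y9F N h9) ?_ ?_
  · have h1 := twelve_mul_finrank_y9F N h9
    have h2 := twelve_mul_finrank_t9 A π N ℓ hπ hℓN h9
    omega
  · exact mem_adjoin_of_mul_eq (transcendental_t9 A π N ℓ hπ hℓN h9) TLine9.JQ_ne_zero
      (jFk_mul_JQ9 A π N ℓ hπ hℓN h9)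

/-! #### The shifted parameter `y₉ - 3` (zero at the cusp `y = 3`) -/

theorem adjoin_sub_three {K E : Type*} [Field K] [Field E] [Algebra K E] (t : E) :
    K⟮t - 3⟯ = K⟮t⟯ := by
  have h : (3 : E) = algebraMap K E 3 := (map_ofNat _ 3).symm
  rw [h, adjoin_sub_algebraMap]

theorem coe_z9F :
    ((HauptRed.y9F N h9 - 3 : FBar Kbar N) : LaurentSeries Kbar) =
      coeffMap (Int.castRingHom Kbar) (L9.y9 - 3) := by
  rw [map_sub, map_ofNat]
  rfl

theorem coe_z9k :
    ((HauptRed.t9 A π N ℓ hπ hℓN h9 - 3 : modularFunctionFieldFullC k N) : LaurentSeries k) =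
      coeffMap (Int.castRingHom k) (L9.y9 - 3) := by
  rw [map_sub, map_ofNat]
  rfl

/-- **The level facts for `y₉ - 3`** (`9 ∣ N`, `ℓ ∤ N`). -/
theorem tParamFacts_z9 :
    TParamFacts A π N ℓ hπ hℓN (HauptRed.y9F N h9 - 3) (HauptRed.t9 A π N ℓ hπ hℓN h9 - 3) := by
  have hfin : FiniteDimensional Kbar⟮HauptRed.y9F N h9 - 3⟯ (FBar Kbar N) := by
    rw [adjoin_sub_three]
    exact finiteDimensional_y9F N h9
  refine tParamFacts_of_int A π N ℓ hπ hℓN (x := L9.y9 - 3) (u := L9.u9 - PowerSeries.C 3 * PowerSeries.X)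
    L9.y9_sub_eq L9.constantCoeff_u9_sub _ (coe_z9F N h9) _ (coe_z9k A π N ℓ hπ hℓN h9) hfin ?_ ?_
  · rw [adjoin_sub_three, adjoin_sub_three]
    have h1 := twelve_mul_finrank_y9F N h9
    have h2 := twelve_mul_finrank_t9 A π N ℓ hπ hℓN h9
    omega
  · rw [adjoin_sub_three]
    exact mem_adjoin_of_mul_eq (transcendental_t9 A π N ℓ hπ hℓN h9) TLine9.JQ_ne_zero
      (jFk_mul_JQ9 A π N ℓ hπ hℓN h9)

end Nine

end Haupt

end Fermat.Agent.Gateway.GoodRed.TLineHaupt
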