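import Fermat.Agent.Gateway.GoodRed.Instantiate.UpperBound4
import Fermat.Agent.Gateway.GoodRed.Instantiate.UpperBound9

set_option autoImplicit false

/-!
# P-GATEWAY (c) GoodRed: `UpperBoundStatement` at the levels divisible by four or nine

The hypothesis `hUB` of `GenusFour.genusFF_le_four` / `genusFF_le_nine`, from
`UpperBound4.exists_upper_bound4` / `UpperBound9.exists_upper_bound9`.  The statement
`UpperBoundStmt k N hNk tq` below is a verbatim copy of `GenusFour.UpperBoundStatement`
(this file does not import `GenusFour`, to keep its import closure small); the two are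
definitionally equal, `fun h => h` converts.
-/

set_option linter.unusedSectionVars false
set_option linter.style.haveILetI false

noncomputable section

namespace Fermat.Agent.Gateway.GoodRed

open Fermat.Agent.Gateway.GoodRed.ConjFamily Fermat.Agent.Lib.Residue

/-- Verbatim copy of `GenusFour.UpperBoundStatement`. -/
def UpperBoundStmt (k : Type) [Field k] [IsAlgClosed k] (N : ℕ) [NeZero N]
    (hNk : ((N : ℕ) : k) ≠ 0) (tq : LaurentSeries k) : Prop :=
  ∀ (t : Fk k N) (_ : (t : LaurentSeries k) = tq) (g : ℕ) (h : Fin g → Fk k N)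
    (_ : ∀ i, IsIntegral (Algebra.adjoin k {jFk k N}) (h i)) (_ : LinearIndependent k h)
    (_ : ∀ i (τ : Emb k N) (a : ℤ), a < 0 → (τ.1 (h i) * D (τ.1 t)).coeff a = 0)
    (ζ : kˣ) (hζ : IsPrimitiveRoot ζ N),
    letI := fintypeEmb hNk
    ∃ m₀ : ℕ, ∀ P : Emb k N → ℕ, (∀ τ, P (rot ζ hζ.pow_eq_one τ) = P τ) → m₀ ≤ P embInfty →
      Module.Finite k (cuspSpaceE (jFk k N) (fun τ : Emb k N => τ.1) emb_algebraMap P) ∧
      N * (Module.finrank k (cuspSpaceE (jFk k N) (fun τ : Emb k N => τ.1) emb_algebraMap P) + g)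
        ≤ ∑ τ, P τ + N

variable {k : Type} [Field k] [IsAlgClosed k] {N : ℕ} [NeZero N]

/-- `UpperBoundStatement` for the Hauptmodul `x₄` at a level divisible by four in which the
residue characteristic does not divide the level. -/
theorem upperBoundStmt_four (h4 : 4 ∣ N) (hNk : ((N : ℕ) : k) ≠ 0) :
    UpperBoundStmt k N hNk (TLine4.x4k k) := by
  obtain ⟨N', hN⟩ := h4
  have hN'0 : N' ≠ 0 := by
    rintro rfl
    exact NeZero.ne N (by rw [hN, mul_zero])
  haveI : NeZero N' := ⟨hN'0⟩
  have h2 : (2 : k) ≠ 0 := by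
    intro h0
    apply hNk
    rw [hN, Nat.cast_mul]
    have : ((4 : ℕ) : k) = 2 * 2 := by norm_num
    rw [this, h0, mul_zero, zero_mul]
  intro t ht g h hint hli hreg ζ hζ
  exact UpperBound4.exists_upper_bound4 h2 N N' hN hNk ζ hζ t ht h hint hli hreg

/-- `UpperBoundStatement` for the Hauptmodul `y₉` at a level divisible by nine in which the
residue characteristic does not divide the level. -/
theorem upperBoundStmt_nine (h9 : 9 ∣ N) (hNk : ((N : ℕ) : k) ≠ 0) :
    UpperBoundStmt k N hNk (TLine9.y9k k) := by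
  obtain ⟨N', hN⟩ := h9
  have hN'0 : N' ≠ 0 := by
    rintro rfl
    exact NeZero.ne N (by rw [hN, mul_zero])
  haveI : NeZero N' := ⟨hN'0⟩
  have h3 : (3 : k) ≠ 0 := by
    intro h0
    apply hNk
    rw [hN, Nat.cast_mul]
    have : ((9 : ℕ) : k) = 3 * 3 := by norm_num
    rw [this, h0, mul_zero, zero_mul]
  intro t ht g h hint hli hreg ζ hζ
  exact UpperBound9.exists_upper_bound9 h3 N N' hN hNk ζ hζ t ht h hint hli hreg

end Fermat.Agent.Gateway.GoodRed
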