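import Fermat.Agent.Gateway.GoodRed.CharLBound
import Fermat.Agent.Gateway.GoodRed.TLine

set_option autoImplicit false

/-!
# P-GATEWAY (c) GoodRed: the cuspidal upper bound, fed with a `t`-line `j = P(t) / Q(t)`

`CharLBound.cuspidal_upper_bound'` with all its `t`-line hypotheses (`hcover`, `hcardt`, `hxt`,
`ht`, finiteness and separability over `k(t)`) discharged from the single relation
`j Q(t) = P(t)` in `E` and the branch relations of `GoodRed/TLine`.
-/

set_option linter.unusedSectionVars false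
set_option linter.style.haveILetI false

noncomputable section

namespace Fermat.Agent.Gateway.GoodRed.UpperBoundT

open Module HahnSeries LaurentSeries Polynomial Function ModularCurve Fermat.Agent.S28
  Fermat.Agent.Lib.Residue IntermediateField Fermat.Agent.Gateway.GoodRed

section Tower

variable {k : Type*} [Field k] {E : Type*} [Field E] [Algebra k E] [Algebra (RatFunc k) E]
  [IsScalarTower k (RatFunc k) E] (P Q : k[X]) (hQ0 : Q ≠ 0) (jE : E)
  (hj : jE * algebraMap (RatFunc k) E (algebraMap k[X] (RatFunc k) Q) =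
    algebraMap (RatFunc k) E (algebraMap k[X] (RatFunc k) P))

include hQ0 hj in
/-- `j = P(t) / Q(t)` comes from `k(t)`. -/
theorem exists_algebraMap_eq : ∃ J : RatFunc k, algebraMap (RatFunc k) E J = jE := by
  have hinjP : Function.Injective (algebraMap k[X] (RatFunc k)) :=
    IsFractionRing.injective k[X] (RatFunc k)
  have haQ : algebraMap k[X] (RatFunc k) Q ≠ 0 := by
    rwa [Ne, map_eq_zero_iff _ hinjP]
  refine ⟨algebraMap k[X] (RatFunc k) P / algebraMap k[X] (RatFunc k) Q, ?_⟩
  have h1 : algebraMap (RatFunc k) E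
      (algebraMap k[X] (RatFunc k) P / algebraMap k[X] (RatFunc k) Q) *
        algebraMap (RatFunc k) E (algebraMap k[X] (RatFunc k) Q) =
      jE * algebraMap (RatFunc k) E (algebraMap k[X] (RatFunc k) Q) := by
    rw [← map_mul, div_mul_cancel₀ _ haQ, hj]
  exact mul_right_cancel₀
    (by rwa [Ne, map_eq_zero_iff _ (algebraMap (RatFunc k) E).injective]) h1

include hQ0 hj in
/-- The subfield `k(J) ⊆ k(t)` is identified with `k(j) ⊆ E`, compatibly with the actions
on `E`. -/
theorem exists_equiv_adjoin : ∃ (K : IntermediateField k (RatFunc k)) (i : K ≃+* k⟮jE⟯),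
    (algebraMap k⟮jE⟯ E).comp (i : K →+* k⟮jE⟯) =
      (RingEquiv.refl E : E →+* E).comp (algebraMap K E) := by
  obtain ⟨J, hJE⟩ := exists_algebraMap_eq P Q hQ0 jE hj
  let K : IntermediateField k (RatFunc k) := IntermediateField.adjoin k {J}
  let φ : RatFunc k →ₐ[k] E := IsScalarTower.toAlgHom k (RatFunc k) E
  have hmap : K.map φ = IntermediateField.adjoin k {jE} := by
    rw [IntermediateField.adjoin_map, Set.image_singleton]
    congr 2
  let i : K ≃+* IntermediateField.adjoin k {jE} :=
    ((K.equivMap φ).trans (IntermediateField.equivOfEq hmap)).toRingEquiv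
  exact ⟨K, i, by ext x; rfl⟩

include hQ0 hj in
theorem finiteDimensional_ratFunc [FiniteDimensional k⟮jE⟯ E] :
    FiniteDimensional (RatFunc k) E := by
  obtain ⟨K, i, he⟩ := exists_equiv_adjoin P Q hQ0 jE hj
  have he' : (algebraMap K E).comp (i.symm : k⟮jE⟯ →+* K) =
      (RingEquiv.refl E : E →+* E).comp (algebraMap k⟮jE⟯ E) := by
    ext x
    have := RingHom.congr_fun he (i.symm x)
    simp only [RingHom.comp_apply, RingHom.coe_coe, RingEquiv.apply_symm_apply] at this
    simp only [RingHom.comp_apply, RingHom.coe_coe]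
    exact this.symm
  haveI : Module.Finite K E := Module.Finite.of_equiv_equiv i.symm (RingEquiv.refl E) he'
  exact Module.Finite.of_restrictScalars_finite K (RatFunc k) E

include hQ0 hj in
theorem isSeparable_ratFunc [Algebra.IsSeparable k⟮jE⟯ E] :
    Algebra.IsSeparable (RatFunc k) E := by
  obtain ⟨K, i, he⟩ := exists_equiv_adjoin P Q hQ0 jE hj
  haveI : Algebra.IsSeparable K E :=
    (Algebra.IsSeparable.iff_of_equiv_equiv i (RingEquiv.refl E) he).mpr inferInstance
  exact Algebra.isSeparable_tower_top_of_isSeparable K (RatFunc k) E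

include hj in
/-- `t` is integral over `k[j]`: it is a root of the monic polynomial `P(T) - j Q(T)`. -/
theorem isIntegral_X_adjoin (hP : P.Monic) (hlt : Q.natDegree < P.natDegree) :
    IsIntegral (Algebra.adjoin k {jE}) (algebraMap (RatFunc k) E RatFunc.X) := by
  set A := Algebra.adjoin k {jE} with hA
  let jA : A := ⟨jE, Algebra.subset_adjoin (Set.mem_singleton jE)⟩
  let F : A[X] := P.map (algebraMap k A) - Polynomial.C jA * Q.map (algebraMap k A)
  have hPm : (P.map (algebraMap k A)).Monic := hP.map _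
  have hdeg : (Polynomial.C jA * Q.map (algebraMap k A)).degree <
      (P.map (algebraMap k A)).degree := by
    apply degree_lt_degree
    rw [hP.natDegree_map (algebraMap k A)]
    exact lt_of_le_of_lt ((natDegree_C_mul_le _ _).trans (natDegree_map_le)) hlt
  refine ⟨F, hPm.sub_of_left hdeg, ?_⟩
  have hX : ∀ p : k[X], aeval (algebraMap (RatFunc k) E RatFunc.X) p =
      algebraMap (RatFunc k) E (algebraMap k[X] (RatFunc k) p) := by
    intro p
    rw [aeval_algebraMap_apply, RatFunc.aeval_X_left_eq_algebraMap]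
  change aeval (algebraMap (RatFunc k) E RatFunc.X) F = 0
  change aeval (algebraMap (RatFunc k) E RatFunc.X)
    (P.map (algebraMap k A) - Polynomial.C jA * Q.map (algebraMap k A)) = 0
  rw [map_sub, map_mul, aeval_map_algebraMap, aeval_map_algebraMap, aeval_C, hX, hX, ← hj]
  exact sub_self _

end Tower

section Master

variable {k : Type*} [Field k] {E : Type*} [Field E] [Algebra k E] [Algebra (RatFunc k) E]
  [IsScalarTower k (RatFunc k) E]
  (S : Finset k) (ε : Option k → RatFunc k →+* k⸨X⸩) (π : Option k → k⸨X⸩)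
  (hC : ∀ o ∈ Finset.insertNone S, ∀ c : k, ε o (RatFunc.C c) = HahnSeries.C c)
  (hπ : ∀ o ∈ Finset.insertNone S, IsParam (π o))
  (hε : ∀ a ∈ S, ε (some a) RatFunc.X = HahnSeries.C a + π (some a))
  (hεinf : ε none RatFunc.X = (π none)⁻¹)
  (e m : Option k → ℕ) [∀ o, NeZero (m o)] (M : ℕ) [NeZero M]
  (hem : ∀ o ∈ Finset.insertNone S, e o * m o = M) (ζ : kˣ) (hζ : IsPrimitiveRoot ζ M)
  (hM : (M : k) ≠ 0)
  (P Q : k[X]) (hP : P.Monic) (hlt : Q.natDegree < P.natDegree)
  (hPd : P.natDegree = ∑ o ∈ Finset.insertNone S, e o)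
  (hQ0 : Q ≠ 0) (r : ℕ) (hQr : Q ∣ (∏ a ∈ S, (Polynomial.X - Polynomial.C a)) ^ r)
  (jz : k⸨X⸩) (hjz : jz.order < 0)
  (hbranch : ∀ i ∈ branchIndex S e,
    aeval (branch ε m ζ i.1 i.2 RatFunc.X) P = jz * aeval (branch ε m ζ i.1 i.2 RatFunc.X) Q)
  {ι : Type*} [Fintype ι] [DecidableEq ι] (σ : ι → E →+* k⸨X⸩) (rot : Equiv.Perm ι)
  (hσk : ∀ j (c : k), σ j (algebraMap k E c) = HahnSeries.C c)
  (hrot : ∀ j f, σ (rot j) f = twist ζ (σ j f)) (hσinj : Injective σ)
  (jE : E)
  (hj : jE * algebraMap (RatFunc k) E (algebraMap k[X] (RatFunc k) Q) =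
    algebraMap (RatFunc k) E (algebraMap k[X] (RatFunc k) P))
  (hσj : ∀ i, σ i jE = jz)

include hσk in
theorem sigma_C (i : ι) (c : k) :
    σ i (algebraMap (RatFunc k) E (RatFunc.C c)) = HahnSeries.C c := by
  have h1 : (RatFunc.C c : RatFunc k) = algebraMap k (RatFunc k) c := rfl
  rw [h1, ← IsScalarTower.algebraMap_apply k (RatFunc k) E, hσk]

include hC hπ hε hεinf hem hζ hM hP hlt hPd hQ0 hQr hjz hbranch hσk hrot hσinj hj hσj in
/-- **The cuspidal upper bound for a function field with a `t`-line** `j = P(t) / Q(t)`: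
`CharLBound.cuspidal_upper_bound'` with its `t`-line hypotheses discharged. -/
theorem cuspidal_upper_bound_tline [FiniteDimensional k⟮jE⟯ E] [Algebra.IsSeparable k⟮jE⟯ E]
    (hcardx : Fintype.card ι = finrank k⟮jE⟯ E)
    {g : ℕ} (h : Fin g → E) (hint : ∀ i, IsIntegral (Algebra.adjoin k {jE}) (h i))
    (hli : LinearIndependent k h)
    (hreg : ∀ i j (a : ℤ), a < 0 →
      (σ j (h i) * D (σ j (algebraMap (RatFunc k) E RatFunc.X))).coeff a = 0)
    (j₀ : ι) :
    ∃ m₀ : ℕ, ∀ B : ι → ℕ, (∀ j, B (rot j) = B j) → m₀ ≤ B j₀ →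
      Module.Finite k (cuspSpaceE jE σ hσk B) ∧
        M * (finrank k (cuspSpaceE jE σ hσk B) + g) ≤ ∑ j, B j + M := by
  classical
  letI : Algebra k[X] E :=
    ((algebraMap (RatFunc k) E).comp (algebraMap k[X] (RatFunc k))).toAlgebra
  haveI : IsScalarTower k[X] (RatFunc k) E := IsScalarTower.of_algebraMap_eq fun _ => rfl
  haveI : IsScalarTower k k[X] E := IsScalarTower.of_algebraMap_eq fun c => by
    change algebraMap k E c =
      algebraMap (RatFunc k) E (algebraMap k[X] (RatFunc k) (algebraMap k k[X] c))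
    rw [IsScalarTower.algebraMap_apply k (RatFunc k) E,
      ← IsScalarTower.algebraMap_apply k k[X] (RatFunc k)]
  haveI : FiniteDimensional (RatFunc k) E := finiteDimensional_ratFunc P Q hQ0 jE hj
  haveI : Algebra.IsSeparable (RatFunc k) E := isSeparable_ratFunc P Q hQ0 jE hj
  have hcover : ∀ i, ∃ o ∈ Finset.insertNone S, ∃ b < e o,
      (σ i).comp (algebraMap (RatFunc k) E) = branch ε m ζ o b := fun i =>
    exists_branch_of_map_j S ε π hC hπ hε hεinf e m M hem ζ hζ P Q hlt hPd.le jz hbranch jE hj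
      (σ i) (sigma_C σ hσk i) (hσj i)
  have hcardt : Fintype.card ι = (∑ o ∈ Finset.insertNone S, e o) * finrank (RatFunc k) E := by
    rw [hcardx]
    exact finrank_adjoin_eq_sum_mul_finrank S ε π hC hπ hε hεinf e m M hem ζ hζ P Q hlt hPd.le jz
      hbranch jE hj
  have hQE : algebraMap k[X] E Q ≠ 0 := by
    rw [IsScalarTower.algebraMap_apply k[X] (RatFunc k) E, Ne, map_eq_zero,
      map_eq_zero_iff _ (IsFractionRing.injective k[X] (RatFunc k))]
    exact hQ0
  have hxt : ∀ f : E, IsIntegral (Algebra.adjoin k {jE}) f → ∃ n : ℕ,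
      IsIntegral k[X]
        (algebraMap k[X] E ((∏ a ∈ S, (Polynomial.X - Polynomial.C a)) ^ n) * f) := fun f hf =>
    exists_isIntegral_prod_pow_mul S Q r hQr f
      (exists_isIntegral_pow_mul_of_isIntegral_adjoin P Q hQE jE hj f hf)
  exact cuspidal_upper_bound' S ε π hC hπ hε hεinf e m M hem ζ hζ hM σ rot hσk hrot hσinj hcover
    hcardt jE jz hjz hσj hxt hcardx (isIntegral_X_adjoin P Q jE hj hP hlt) h hint hli hreg j₀

end Master

section Glue

variable {k : Type*} [Field k] {E : Type*} [Field E] [Algebra k E] (t : E)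
  (htr : Transcendental k t)

/-- The `k`-embedding `k(T) → E`, `T ↦ t`, for a transcendental `t`. -/
def tHom : RatFunc k →ₐ[k] E :=
  (IntermediateField.val k⟮t⟯).comp (RatFunc.algEquivOfTranscendental t htr).toAlgHom

theorem tHom_X : tHom t htr RatFunc.X = t := by
  change ((RatFunc.algEquivOfTranscendental t htr) RatFunc.X : E) = t
  rw [RatFunc.algEquivOfTranscendental_X]

theorem tHom_algebraMap (p : k[X]) :
    tHom t htr (algebraMap k[X] (RatFunc k) p) = aeval t p := by
  change ((RatFunc.algEquivOfTranscendental t htr) (algebraMap k[X] (RatFunc k) p) : E) = _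
  rw [RatFunc.algEquivOfTranscendental_algebraMap]
  simp

/-- The structure of `k(T)`-algebra on `E` given by a transcendental element. -/
@[reducible] def tAlgebra : Algebra (RatFunc k) E := (tHom t htr).toRingHom.toAlgebra

theorem isScalarTower_tAlgebra :
    letI := tAlgebra t htr
    IsScalarTower k (RatFunc k) E :=
  letI := tAlgebra t htr
  IsScalarTower.of_algebraMap_eq fun c => ((tHom t htr).commutes c).symm

variable
  (S : Finset k) (ε : Option k → RatFunc k →+* k⸨X⸩) (π : Option k → k⸨X⸩)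
  (hC : ∀ o ∈ Finset.insertNone S, ∀ c : k, ε o (RatFunc.C c) = HahnSeries.C c)
  (hπ : ∀ o ∈ Finset.insertNone S, IsParam (π o))
  (hε : ∀ a ∈ S, ε (some a) RatFunc.X = HahnSeries.C a + π (some a))
  (hεinf : ε none RatFunc.X = (π none)⁻¹)
  (e m : Option k → ℕ) [∀ o, NeZero (m o)] (M : ℕ) [NeZero M]
  (hem : ∀ o ∈ Finset.insertNone S, e o * m o = M) (ζ : kˣ) (hζ : IsPrimitiveRoot ζ M)
  (hM : (M : k) ≠ 0)
  (P Q : k[X]) (hP : P.Monic) (hlt : Q.natDegree < P.natDegree)
  (hPd : P.natDegree = ∑ o ∈ Finset.insertNone S, e o)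
  (hQ0 : Q ≠ 0) (r : ℕ) (hQr : Q ∣ (∏ a ∈ S, (Polynomial.X - Polynomial.C a)) ^ r)
  (jz : k⸨X⸩) (hjz : jz.order < 0)
  (hbranch : ∀ i ∈ branchIndex S e,
    aeval (branch ε m ζ i.1 i.2 RatFunc.X) P = jz * aeval (branch ε m ζ i.1 i.2 RatFunc.X) Q)
  {ι : Type*} [Fintype ι] [DecidableEq ι] (σ : ι → E →+* k⸨X⸩) (rot : Equiv.Perm ι)
  (hσk : ∀ j (c : k), σ j (algebraMap k E c) = HahnSeries.C c)
  (hrot : ∀ j f, σ (rot j) f = twist ζ (σ j f)) (hσinj : Injective σ)
  (jE : E) (hj : jE * aeval t Q = aeval t P) (hσj : ∀ i, σ i jE = jz)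

include htr hC hπ hε hεinf hem hζ hM hP hlt hPd hQ0 hQr hjz hbranch hσk hrot hσinj hj hσj in
/-- **The cuspidal upper bound for a function field with a `t`-line**, with the `t`-line given by
a transcendental element `t ∈ E` with `j Q(t) = P(t)` (no `Algebra (RatFunc k) E` instance in the
statement). -/
theorem cuspidal_upper_bound_of_transcendental [FiniteDimensional k⟮jE⟯ E]
    [Algebra.IsSeparable k⟮jE⟯ E] (hcardx : Fintype.card ι = finrank k⟮jE⟯ E)
    {g : ℕ} (h : Fin g → E) (hint : ∀ i, IsIntegral (Algebra.adjoin k {jE}) (h i))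
    (hli : LinearIndependent k h)
    (hreg : ∀ i j (a : ℤ), a < 0 → (σ j (h i) * D (σ j t)).coeff a = 0) (j₀ : ι) :
    ∃ m₀ : ℕ, ∀ B : ι → ℕ, (∀ j, B (rot j) = B j) → m₀ ≤ B j₀ →
      Module.Finite k (cuspSpaceE jE σ hσk B) ∧
        M * (finrank k (cuspSpaceE jE σ hσk B) + g) ≤ ∑ j, B j + M := by
  letI := tAlgebra t htr
  haveI : IsScalarTower k (RatFunc k) E := isScalarTower_tAlgebra t htr
  have hX : algebraMap (RatFunc k) E RatFunc.X = t := tHom_X t htr
  have hp : ∀ p : k[X], algebraMap (RatFunc k) E (algebraMap k[X] (RatFunc k) p) = aeval t p :=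
    tHom_algebraMap t htr
  refine cuspidal_upper_bound_tline S ε π hC hπ hε hεinf e m M hem ζ hζ hM P Q hP hlt hPd hQ0 r hQr
    jz hjz hbranch σ rot hσk hrot hσinj jE ?_ hσj hcardx h hint hli ?_ j₀
  · rw [hp, hp, hj]
  · rw [hX]
    exact hreg

end Glue

section Coe

variable {k : Type*} [Field k]

/-- An element of a field of Laurent series with a transcendental expansion is transcendental. -/
theorem transcendental_of_coe {F : IntermediateField k (LaurentSeries k)} (t : F)
    {s : LaurentSeries k} (hs : Transcendental k s) (ht : (t : LaurentSeries k) = s) :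
    Transcendental k t := by
  intro h
  apply hs
  rw [← ht]
  exact IntermediateField.isAlgebraic_iff.mp h

/-- `j Q(t) = P(t)` in a field of Laurent series, from the relation between expansions. -/
theorem rel_of_coe {F : IntermediateField k (LaurentSeries k)} (t jF : F) (P Q : k[X])
    (h : aeval (t : LaurentSeries k) P = (jF : LaurentSeries k) * aeval (t : LaurentSeries k) Q) :
    jF * aeval t Q = aeval t P := by
  have h1 : aeval (t : LaurentSeries k) P = ((aeval t P : F) : LaurentSeries k) :=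
    aeval_algHom_apply F.val t P
  have h2 : aeval (t : LaurentSeries k) Q = ((aeval t Q : F) : LaurentSeries k) :=
    aeval_algHom_apply F.val t Q
  apply Subtype.ext
  rw [MulMemClass.coe_mul, ← h2, ← h1, h]

end Coe

end Fermat.Agent.Gateway.GoodRed.UpperBoundT
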